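import Mathlib.FieldTheory.Finite.GaloisField
import Mathlib.FieldTheory.IntermediateField.Adjoin.Basic
import Fermat.Agent.CurveTorsion.Frob

/-!
# Building Frobenius data
-/

set_option autoImplicit false

noncomputable section

open scoped Classical

open AlgebraicCurve Polynomial

namespace Fermat.Agent.CurveTorsion

variable {K F : Type*} [Field K] [Field F] [Algebra K F]

/-- An element algebraic over `𝔽_p` is fixed by a power of the `p`-power map. -/
theorem exists_pow_pow_eq {p : ℕ} [Fact p.Prime] [Algebra (ZMod p) K] {a : K}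
    (ha : IsIntegral (ZMod p) a) : ∃ r, 0 < r ∧ a ^ (p ^ r) = a := by
  let E := IntermediateField.adjoin (ZMod p) {a}
  have : FiniteDimensional (ZMod p) E := IntermediateField.adjoin.finiteDimensional ha
  have : Finite E := Module.finite_of_finite (ZMod p)
  have := Fintype.ofFinite E
  refine ⟨Module.finrank (ZMod p) E, Module.finrank_pos, ?_⟩
  have h1 := FiniteField.pow_card (⟨a, IntermediateField.mem_adjoin_simple_self _ a⟩ : E)
  rw [Module.card_eq_pow_finrank (K := ZMod p) (V := E), ZMod.card] at h1
  exact congrArg Subtype.val h1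

theorem pow_pow_mul {p : ℕ} {a : K} {r : ℕ} (hr : a ^ (p ^ r) = a) (d : ℕ) :
    a ^ (p ^ (r * d)) = a := by
  induction d with
  | zero => simp
  | succ d ih => rw [mul_add, mul_one, pow_add, pow_mul, ih, hr]

variable [IsAlgClosed K]

theorem natCard_pow_fixed {p : ℕ} [Fact p.Prime] [CharP K p] {n : ℕ} (hn : 0 < n) :
    Nat.card {a : K // a ^ (p ^ n) = a} = p ^ n := by
  have h1 : 1 < p ^ n := Nat.one_lt_pow hn.ne' (Fact.out : p.Prime).one_lt
  have hne : (X ^ (p ^ n) - X : K[X]) ≠ 0 := FiniteField.X_pow_card_sub_X_ne_zero K h1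
  have hset : {a : K | a ^ (p ^ n) = a} = ((X ^ (p ^ n) - X : K[X]).roots.toFinset : Set K) := by
    ext a
    simp [Multiset.mem_toFinset, hne, sub_eq_zero]
  have hnd : (X ^ (p ^ n) - X : K[X]).roots.Nodup := by
    refine Polynomial.nodup_roots ?_
    refine (galois_poly_separable (K := K) p (p ^ n) ?_)
    exact dvd_pow_self p hn.ne'
  change Set.ncard {a : K | a ^ (p ^ n) = a} = p ^ n
  rw [hset, Set.ncard_coe_finset, Multiset.toFinset_card_of_nodup hnd,
    ← (IsAlgClosed.splits _).natDegree_eq_card_roots,
    FiniteField.X_pow_card_sub_X_natDegree_eq K h1]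

/-- Frobenius data from a semilinear automorphism fixing generators. -/
theorem IsFrob.of_generated {p : ℕ} [Fact p.Prime] [CharP K p] {s : ℕ} (hs : 0 < s)
    (hK : ∀ a : K, ∃ r, 0 < r ∧ a ^ (p ^ r) = a) (φ : SemilinearAut K F)
    (hbase : ∀ a : K, SemilinearAut.baseAut φ a = a ^ (p ^ s)) (S : Set F)
    (hgen : IntermediateField.adjoin K S = ⊤) (hfix : ∀ z ∈ S, φ • z = z)
    (htr : ∃ x : F, Transcendental K x ∧ φ • x = x) : IsFrob φ (p ^ s) where
  two_le := Nat.one_lt_pow hs.ne' (Fact.out : p.Prime).one_lt
  base := hbase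
  finite_field a := by
    obtain ⟨r, hr, hr'⟩ := hK a
    exact ⟨r, hr, by rw [← pow_mul, mul_comm]; exact pow_pow_mul hr' s⟩
  card_fixed r hr := by
    rw [← pow_mul]
    exact natCard_pow_fixed (Nat.mul_pos hs hr)
  orbit z := by
    have hbaseP : ∀ (r : ℕ) (a : K), φ ^ r • algebraMap K F a
        = algebraMap K F (a ^ (p ^ (s * r))) := by
      intro r
      induction r with
      | zero => simp
      | succ r ih =>
        intro a
        rw [pow_succ φ r, mul_smul, SemilinearAut.smul_algebraMap, hbase, ih, ← pow_mul,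
          ← pow_add, mul_add, mul_one, add_comm]
    -- The elements of finite orbit form a field containing the generators.
    let E : IntermediateField K F :=
      { carrier := {z | ∃ r, 0 < r ∧ φ ^ r • z = z}
        one_mem' := ⟨1, one_pos, smul_one _⟩
        zero_mem' := ⟨1, one_pos, smul_zero _⟩
        add_mem' := by
          rintro a b ⟨r, hr, ha⟩ ⟨t, ht, hb⟩
          exact ⟨r * t, Nat.mul_pos hr ht, by
            rw [smul_add, pow_smul_fixed ha (dvd_mul_right r t),
              pow_smul_fixed hb (dvd_mul_left t r)]⟩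
        mul_mem' := by
          rintro a b ⟨r, hr, ha⟩ ⟨t, ht, hb⟩
          exact ⟨r * t, Nat.mul_pos hr ht, by
            rw [smul_mul', pow_smul_fixed ha (dvd_mul_right r t),
              pow_smul_fixed hb (dvd_mul_left t r)]⟩
        inv_mem' := by
          rintro a ⟨r, hr, ha⟩
          exact ⟨r, hr, by rw [smul_inv'', ha]⟩
        algebraMap_mem' := fun a => by
          obtain ⟨r, hr, hr'⟩ := hK a
          exact ⟨r, hr, by rw [hbaseP, mul_comm, pow_pow_mul hr']⟩ }
    have hle : IntermediateField.adjoin K S ≤ E :=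
      IntermediateField.adjoin_le_iff.mpr fun z hz =>
        ⟨1, one_pos, by rw [pow_one]; exact hfix z hz⟩
    rw [hgen] at hle
    exact hle IntermediateField.mem_top
  fixed_transcendental := htr

end Fermat.Agent.CurveTorsion
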