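import Fermat.Agent.CurveTorsion.Growth
import Mathlib.GroupTheory.Perm.Cycle.Type
import Mathlib.GroupTheory.Index
import Mathlib.GroupTheory.Torsion

/-!
# Torsion of the class group over an algebraic closure of a finite field

The main theorem is `natCard_torsion_of_isFrob`: `l ^ (2 g k)` classes killed by `l ^ k`, `l` prime
to the order of the finite field.
-/

set_option autoImplicit false

noncomputable section

open scoped Classical

open AlgebraicCurve

namespace Fermat.Agent.CurveTorsion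

open FF
open AddCommGroup (primaryComponent)

/-! ### Finite groups -/

section Group

variable {A : Type*} [AddCommGroup A]

theorem natCard_inf_primary (l : ℕ) [Fact l.Prime] (H : AddSubgroup A) [Finite H] :
    Nat.card (H ⊓ primaryComponent A l : AddSubgroup A)
      = l ^ padicValNat l (Nat.card H) := by
  have hl : l.Prime := Fact.out
  set P := primaryComponent H l
  have hcard : Nat.card (H ⊓ primaryComponent A l : AddSubgroup A) = Nat.card P := by
    refine Nat.card_congr ?_
    exact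
      { toFun := fun c => ⟨⟨c.1, c.2.1⟩, c.2.2.imp fun j hj => Subtype.ext hj⟩
        invFun := fun c => ⟨c.1.1, c.1.2, c.2.imp fun j hj => congrArg Subtype.val hj⟩
        left_inv := fun _ => rfl
        right_inv := fun _ => rfl }
  have hpow : Nat.card P = l ^ (Nat.card P).primeFactorsList.length := by
    refine Nat.eq_prime_pow_of_unique_prime_dvd Nat.card_pos.ne' fun {p} hp hdvd => ?_
    have : Fact p.Prime := ⟨hp⟩
    obtain ⟨x, hx⟩ := exists_prime_addOrderOf_dvd_card' p hdvd
    obtain ⟨j, hj⟩ := x.2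
    have h1 : addOrderOf x ∣ l ^ j := addOrderOf_dvd_iff_nsmul_eq_zero.mpr (Subtype.ext hj)
    rw [hx] at h1
    exact (Nat.prime_dvd_prime_iff_eq hp hl).mp (hp.dvd_of_dvd_pow h1)
  have hindex : ¬ l ∣ Nat.card (H ⧸ P) := by
    intro hdvd
    obtain ⟨x, hx⟩ := exists_prime_addOrderOf_dvd_card' l hdvd
    obtain ⟨y, rfl⟩ := QuotientAddGroup.mk_surjective x
    have h1 : ((l • y : H) : H ⧸ P) = 0 := by
      rw [QuotientAddGroup.mk_nsmul]
      conv_lhs => rw [← hx]
      exact addOrderOf_nsmul_eq_zero _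
    obtain ⟨j, hj⟩ := (QuotientAddGroup.eq_zero_iff _).mp h1
    have h2 : y ∈ P := ⟨j + 1, by rw [pow_succ, mul_smul, hj]⟩
    rw [(QuotientAddGroup.eq_zero_iff y).mpr h2, addOrderOf_zero] at hx
    exact hl.ne_one hx.symm
  rw [hcard, AddSubgroup.card_eq_card_quotient_mul_card_addSubgroup P,
    padicValNat.mul Nat.card_pos.ne' Nat.card_pos.ne', padicValNat.eq_zero_of_not_dvd hindex,
    zero_add]
  conv_lhs => rw [hpow]
  congr 1
  conv_rhs => rw [hpow]
  rw [padicValNat.prime_pow]

theorem exists_pow_bound (v e : ℕ) {l : ℕ} (hl : 1 < l) :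
    ∃ k : ℕ, l ^ (v + e * k) < 2 ^ (l ^ k) := by
  set C := l * (v + e + 1)
  refine ⟨3 * (C + 3), ?_⟩
  have h1 : l ^ (v + e * (3 * (C + 3))) ≤ 2 ^ (l * (v + e * (3 * (C + 3)))) := by
    rw [pow_mul]
    exact Nat.pow_le_pow_left l.lt_two_pow_self.le _
  refine h1.trans_lt (Nat.pow_lt_pow_right one_lt_two ?_)
  have h2 : C + 3 < l ^ (C + 3) := Nat.lt_pow_self hl
  have h3 : (C + 3) ^ 3 ≤ l ^ (3 * (C + 3)) := by
    rw [mul_comm, pow_mul]
    exact Nat.pow_le_pow_left h2.le 3
  have h4 : l * (v + e * (3 * (C + 3))) ≤ C * (3 * C + 10) := by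
    show l * (v + e * (3 * (C + 3))) ≤ l * (v + e + 1) * (3 * C + 10)
    rw [mul_assoc]
    exact Nat.mul_le_mul_left l (by nlinarith)
  refine lt_of_le_of_lt h4 (lt_of_lt_of_le ?_ h3)
  clear_value C
  calc C * (3 * C + 10) < C * (C * C) + C * (9 * C) + C * 27 + 27 := by
        have e1 : C * (3 * C + 10) = C * (3 * C) + C * 10 := Nat.mul_add C _ _
        have e2 : C * (3 * C) ≤ C * (9 * C) := Nat.mul_le_mul_left C (by omega)
        omega
    _ = (C + 3) ^ 3 := by ring

end Group

variable {K F : Type*} [Field K] [Field F] [Algebra K F]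
variable {φ : SemilinearAut K F} {q : ℕ}

/-! ### The action on classes -/

theorem mem_torsion_nsmul {n : ℕ} {x : Pic0 K F} :
    x ∈ Pic0.torsion K F n ↔ n • x = 0 := by
  rw [Pic0.mem_torsion, natCast_zsmul]

theorem smul_nsmul' (g : SemilinearAut K F) (m : ℕ) (x : Pic0 K F) :
    g • (m • x) = m • (g • x) :=
  map_nsmul (DistribSMul.toAddMonoidHom (Pic0 K F) g) m x

theorem gsmul_add' (g : SemilinearAut K F) (a b : Pic0 K F) : g • (a + b) = g • a + g • b :=
  map_add (DistribSMul.toAddMonoidHom (Pic0 K F) g) a b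

theorem gsmul_sub' (g : SemilinearAut K F) (a b : Pic0 K F) : g • (a - b) = g • a - g • b :=
  map_sub (DistribSMul.toAddMonoidHom (Pic0 K F) g) a b

theorem gsmul_zero' (g : SemilinearAut K F) : g • (0 : Pic0 K F) = 0 :=
  map_zero (DistribSMul.toAddMonoidHom (Pic0 K F) g)

theorem exists_pow_smul_eq [IsFunctionField K F] (h : IsFrob φ q) (c : Pic0 K F) :
    ∃ R, 0 < R ∧ φ ^ R • c = c := by
  obtain ⟨⟨D, hD⟩, rfl⟩ := Pic0.mk_surjective c
  obtain ⟨R, hR, hRD⟩ := h.exists_pow_smul_divisor_eq D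
  refine ⟨R, hR, ?_⟩
  rw [SemilinearAut.pic0_smul_mk]
  congr 1
  exact Subtype.ext ((SemilinearAut.coe_degZeroSMulHom _ _).trans hRD)

theorem fixedSub_le {r s : ℕ} (h : r ∣ s) :
    fixedSub (K := K) (F := F) (φ ^ r) ≤ fixedSub (φ ^ s) := fun c hc => by
  rw [mem_fixedSub] at *
  exact pow_smul_fixed hc h

theorem smul_mem_primary (g : SemilinearAut K F) {l : ℕ} {c : Pic0 K F}
    (hc : c ∈ primaryComponent (Pic0 K F) l) : g • c ∈ primaryComponent (Pic0 K F) l := by
  obtain ⟨j, hj⟩ := hc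
  exact ⟨j, by rw [← smul_nsmul', hj, gsmul_zero']⟩

/-! ### Primary classes fixed by powers of Frobenius -/

/-- The `l`-primary classes fixed by the power `r0 * l ^ k` of `φ`. -/
private abbrev primFixed (φ : SemilinearAut K F) (l r0 k : ℕ) : AddSubgroup (Pic0 K F) :=
  fixedSub (φ ^ (r0 * l ^ k)) ⊓ primaryComponent (Pic0 K F) l

/-- These subgroups increase with `k`. -/
private theorem primFixed_mono {l r0 a b : ℕ} (hab : a ≤ b) :
    primFixed φ l r0 a ≤ primFixed φ l r0 b :=
  inf_le_inf_right _ (fixedSub_le (mul_dvd_mul_left _ (pow_dvd_pow l hab)))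

/-- The classes killed by `l` are fixed by one power of `φ`: the kernels of the powers of
`φ ^ r0 - 1` on them stabilise. -/
private theorem exists_forall_killed_mem {l r0 v0 g : ℕ} [Fact l.Prime]
    (hBfin : ∀ k, Finite (primFixed φ l r0 k))
    (hBcard' : ∀ k, Nat.card (primFixed φ l r0 k) = l ^ (v0 + 2 * g * k))
    (hcover : ∀ c ∈ primaryComponent (Pic0 K F) l, ∃ k, c ∈ primFixed φ l r0 k) :
    ∃ k0, ∀ c : Pic0 K F, l • c = 0 → c ∈ primFixed φ l r0 k0 := by
  have hl : l.Prime := Fact.out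
  obtain ⟨k, hk⟩ := exists_pow_bound v0 (2 * g) hl.one_lt
  let S := SemilinearAut.torsionRep K F l (φ ^ r0)
  have hS : ∀ m, ∀ x : Pic0.torsion K F l,
      (((S - 1) ^ l ^ m) x : Pic0 K F) = φ ^ (r0 * l ^ m) • (x : Pic0 K F) - x := by
    intro m x
    have hid : ((Polynomial.X - 1 : Polynomial (ZMod l)) ^ l ^ m)
        = Polynomial.X ^ l ^ m - 1 := by rw [sub_pow_char_pow, one_pow]
    have h1 := congrArg (Polynomial.aeval S) hid
    simp only [map_pow, map_sub, Polynomial.aeval_X, map_one] at h1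
    rw [h1, LinearMap.sub_apply, AddSubgroup.coe_sub, ← map_pow, ← pow_mul]
    rfl
  let N : ℕ → Submodule (ZMod l) (Pic0.torsion K F l) := fun m => LinearMap.ker ((S - 1) ^ m)
  have hN : ∀ m x, x ∈ N m ↔ ((S - 1) ^ m) x = 0 := fun m x => Iff.rfl
  have hNmono : ∀ {a b}, a ≤ b → N a ≤ N b := fun {a b} hab x hx => by
    obtain ⟨d, rfl⟩ := Nat.le.dest hab
    rw [hN] at hx ⊢
    rw [add_comm, pow_add, Module.End.mul_apply, hx, map_zero]
  have hNB : ∀ m, ∀ x ∈ N (l ^ m), (x : Pic0 K F) ∈ primFixed φ l r0 m := by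
    intro m x hx
    have h1 := hS m x
    rw [(hN _ x).mp hx, ZeroMemClass.coe_zero, eq_comm, sub_eq_zero] at h1
    exact ⟨h1, 1, by rw [pow_one]; exact mem_torsion_nsmul.mp x.2⟩
  have hfinN : Finite (N (l ^ k)) := Finite.of_injective
    (fun x : N (l ^ k) =>
      (⟨((x : Pic0.torsion K F l) : Pic0 K F), hNB k _ x.2⟩ : primFixed φ l r0 k))
    fun a b hab => Subtype.ext (Subtype.ext (congrArg Subtype.val hab :))
  -- The kernel `N (l ^ k)` has fewer than `2 ^ (l ^ k)` elements, so two consecutive kernels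
  -- below it agree, and the kernels are constant from there on.
  obtain ⟨m, hm, hstab⟩ : ∃ m < l ^ k, N m = N (m + 1) := by
    by_contra! hne
    have hgrow : ∀ m ≤ l ^ k, 2 ^ m ≤ Nat.card (N m) := by
      intro m
      induction m with
      | zero =>
        intro _
        have : Finite (N 0) := Finite.of_injective _ (Submodule.inclusion_injective
          (hNmono (Nat.zero_le (l ^ k))))
        exact Nat.card_pos
      | succ m ih =>
        intro hm
        have h1 := ih (by omega)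
        have : Finite (N (m + 1)) := Finite.of_injective _ (Submodule.inclusion_injective
          (hNmono hm))
        have hle : N m ≤ N (m + 1) := hNmono (Nat.le_succ m)
        obtain ⟨c, hc⟩ := AddSubgroup.card_dvd_of_le
          (H := (N m).toAddSubgroup) (K := (N (m + 1)).toAddSubgroup) hle
        change Nat.card (N (m + 1)) = Nat.card (N m) * c at hc
        have hc2 : 2 ≤ c := by
          by_contra hc2
          interval_cases c
          · rw [mul_zero] at hc
            exact Nat.card_pos.ne' hc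
          · refine hne m (by omega) (SetLike.coe_injective ?_)
            refine Set.eq_of_subset_of_ncard_le hle ?_ (Set.toFinite _)
            change Nat.card (N (m + 1)) ≤ Nat.card (N m)
            omega
        rw [hc, pow_succ]
        exact Nat.mul_le_mul h1 hc2
    have h1 := hgrow _ le_rfl
    have h2 : Nat.card (N (l ^ k)) ≤ Nat.card (primFixed φ l r0 k) := Nat.card_le_card_of_injective
      (fun x : N (l ^ k) =>
        (⟨((x : Pic0.torsion K F l) : Pic0 K F), hNB k _ x.2⟩ : primFixed φ l r0 k))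
      fun a b hab => Subtype.ext (Subtype.ext (congrArg Subtype.val hab :))
    rw [hBcard'] at h2
    omega
  have hconst : ∀ d, N (m + d) ≤ N m := by
    intro d
    induction d with
    | zero => exact le_rfl
    | succ d ih =>
      intro x hx
      rw [hN, ← add_assoc, pow_succ, Module.End.mul_apply, ← hN] at hx
      have h1 := ih hx
      rw [hN, ← Module.End.mul_apply, ← pow_succ, ← hN, ← hstab] at h1
      exact h1
  refine ⟨k, fun c hc => ?_⟩
  obtain ⟨a, ha⟩ := hcover c ⟨1, by rw [pow_one]; exact hc⟩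
  let x : Pic0.torsion K F l := ⟨c, mem_torsion_nsmul.mpr hc⟩
  have hx : x ∈ N (l ^ a) := by
    rw [hN]
    refine Subtype.ext ?_
    rw [hS a x, ZeroMemClass.coe_zero, sub_eq_zero]
    exact ha.1
  have h1 : x ∈ N (l ^ k) := by
    refine hNmono hm.le ?_
    exact hconst (l ^ a) (hNmono (Nat.le_add_left _ _) hx)
  exact hNB k x h1

/-- The classes killed by `l` being finite, the `l`-primary classes modulo `l` are fixed by one
power of `φ`. -/
private theorem exists_smul_sub_eq_nsmul {l r0 : ℕ}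
    (hBfin : ∀ k, Finite (primFixed φ l r0 k))
    (hcover : ∀ c ∈ primaryComponent (Pic0 K F) l, ∃ k, c ∈ primFixed φ l r0 k)
    [Finite (Pic0.torsion K F l)] :
    ∃ k1, ∀ k, k1 ≤ k → ∀ y ∈ primaryComponent (Pic0 K F) l, ∃ z ∈ primaryComponent (Pic0 K F) l,
      φ ^ (r0 * l ^ k) • y - y = l • z := by
  -- A set of primary classes incongruent modulo `l` is no larger than the `l`-torsion.
  let Incong : Finset (Pic0 K F) → Prop := fun S =>
    (∀ s ∈ S, s ∈ primaryComponent (Pic0 K F) l) ∧ ∀ s ∈ S, ∀ t ∈ S,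
      (∃ z ∈ primaryComponent (Pic0 K F) l, s - t = l • z) → s = t
  have hbd : ∀ S, Incong S → S.card ≤ Nat.card (Pic0.torsion K F l) := by
    intro S hS
    obtain ⟨a, ha⟩ : ∃ a, ∀ s ∈ S, s ∈ primFixed φ l r0 a := by
      choose f hf using hcover
      refine ⟨S.attach.sup fun s => f s.1 (hS.1 s.1 s.2), fun s hs => ?_⟩
      exact primFixed_mono (Finset.le_sup (f := fun s : S => f s.1 (hS.1 s.1 s.2))
        (Finset.mem_attach S ⟨s, hs⟩)) (hf s (hS.1 s hs))
    let mu : primFixed φ l r0 a →+ primFixed φ l r0 a := nsmulAddMonoidHom l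
    have h1 : Nat.card (primFixed φ l r0 a ⧸ mu.range) = Nat.card mu.ker := by
      have e1 := AddSubgroup.card_eq_card_quotient_mul_card_addSubgroup mu.range
      have e2 := mu.ker.card_mul_index
      rw [AddSubgroup.index_ker] at e2
      exact Nat.eq_of_mul_eq_mul_right Nat.card_pos (e1.symm.trans e2.symm)
    have h2 : Nat.card mu.ker ≤ Nat.card (Pic0.torsion K F l) :=
      Nat.card_le_card_of_injective (fun x : mu.ker => (⟨x.1.1, mem_torsion_nsmul.mpr
        (congrArg Subtype.val (AddMonoidHom.mem_ker.mp x.2))⟩ : Pic0.torsion K F l))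
        fun x y hxy => Subtype.ext (Subtype.ext (congrArg Subtype.val hxy :))
    rw [← Nat.card_eq_finsetCard S]
    refine le_trans ?_ (h1.le.trans h2)
    refine Nat.card_le_card_of_injective
      (fun s : S => (QuotientAddGroup.mk ⟨s.1, ha s.1 s.2⟩ : primFixed φ l r0 a ⧸ mu.range))
      fun s t hst => ?_
    obtain ⟨z, hz⟩ := (QuotientAddGroup.eq_iff_sub_mem.mp hst)
    exact Subtype.ext (hS.2 s.1 s.2 t.1 t.2
      ⟨z.1, z.2.2, (congrArg Subtype.val hz).symm⟩)
  -- Take such a set of maximal size; one power of `φ` fixes it.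
  obtain ⟨S, hS, hmax⟩ : ∃ S, Incong S ∧ ∀ S', Incong S' → S'.card ≤ S.card := by
    have hP0 : ∃ S, Incong S ∧ S.card = 0 := ⟨∅, ⟨by simp, by simp⟩, rfl⟩
    obtain ⟨S, hS, hSc⟩ := Nat.findGreatest_spec (P := fun m => ∃ S, Incong S ∧ S.card = m)
      (Nat.zero_le (Nat.card (Pic0.torsion K F l))) hP0
    exact ⟨S, hS, fun S' hS' => hSc.symm ▸ Nat.le_findGreatest (hbd S' hS') ⟨S', hS', rfl⟩⟩
  obtain ⟨a, ha⟩ : ∃ a, ∀ s ∈ S, s ∈ primFixed φ l r0 a := by
    choose f hf using hcover
    refine ⟨S.attach.sup fun s => f s.1 (hS.1 s.1 s.2), fun s hs => ?_⟩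
    exact primFixed_mono (Finset.le_sup (f := fun s : S => f s.1 (hS.1 s.1 s.2))
      (Finset.mem_attach S ⟨s, hs⟩)) (hf s (hS.1 s hs))
  refine ⟨a, fun k hk y hy => ?_⟩
  -- Every class is congruent to one of its members, hence moved by a multiple of `l`.
  obtain ⟨s, hs, z, hz, hyz⟩ : ∃ s ∈ S, ∃ z ∈ primaryComponent (Pic0 K F) l, y - s = l • z := by
    by_contra! hne
    have hyS : y ∉ S := fun h1 => hne y h1 0 (zero_mem _) (by simp)
    have := hmax (insert y S) ⟨fun s hs => by
        rcases Finset.mem_insert.mp hs with rfl | hs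
        exacts [hy, hS.1 s hs], fun s hs t ht ⟨z, hz, hst⟩ => by
        rcases Finset.mem_insert.mp hs with hs' | hs' <;>
          rcases Finset.mem_insert.mp ht with ht' | ht'
        · rw [hs', ht']
        · subst hs'
          exact absurd hst (hne t ht' z hz)
        · subst ht'
          exact absurd (by rw [← neg_sub, hst, neg_nsmul]) (hne s hs' (-z) (neg_mem hz))
        · exact hS.2 s hs' t ht' ⟨z, hz, hst⟩⟩
    rw [Finset.card_insert_of_notMem hyS] at this
    omega
  refine ⟨φ ^ (r0 * l ^ k) • z - z, sub_mem (smul_mem_primary _ hz) hz, ?_⟩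
  have hsfix : φ ^ (r0 * l ^ k) • s = s := (primFixed_mono hk (ha s hs)).1
  have hy' : y = s + l • z := by rw [← hyz]; abel
  rw [hy', gsmul_add', hsfix, smul_nsmul', nsmul_sub]
  abel

/-- The `l`-primary classes are divisible by `l`: a norm from a higher fixed field is a multiple of
`l` up to a factor prime to `l`. -/
private theorem exists_nsmul_eq [IsFunctionField K F] [IsAlgClosed K] (h : IsFrob φ q)
    {P₀ : Place K F} (hfix : ∀ r, φ ^ r • P₀ = P₀)
    {l r0 k1 : ℕ} [Fact l.Prime] (hr0 : 0 < r0)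
    (hfinfix : ∀ r, 0 < r → Finite (fixedSub (φ ^ r) : AddSubgroup (Pic0 K F)))
    (hcover : ∀ c ∈ primaryComponent (Pic0 K F) l, ∃ k, c ∈ primFixed φ l r0 k)
    (hk1 : ∀ k, k1 ≤ k → ∀ y ∈ primaryComponent (Pic0 K F) l, ∃ z ∈ primaryComponent (Pic0 K F) l,
      φ ^ (r0 * l ^ k) • y - y = l • z) {c : Pic0 K F} (hc : c ∈ primaryComponent (Pic0 K F) l) :
    ∃ y ∈ primaryComponent (Pic0 K F) l, l • y = c := by
  have hl : l.Prime := Fact.out
  have hBpos : ∀ k, 0 < r0 * l ^ k := fun k => Nat.mul_pos hr0 (pow_pos hl.pos k)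
  obtain ⟨a, ha⟩ := hcover c hc
  set k := max a k1
  have hck := primFixed_mono (le_max_left a k1) ha
  set σ := φ ^ (r0 * l ^ k)
  -- `c` is a norm from the field fixed by `σ ^ l`; kill the part prime to `l` by `u`.
  obtain ⟨c', hc', hNc⟩ :=
    exists_norm_eq (h.pow (hBpos k)) (hfix _) hl.pos hck.1
  have hfin' : Finite (fixedSub (σ ^ l) : AddSubgroup (Pic0 K F)) := by
    rw [← pow_mul]; exact hfinfix _ (Nat.mul_pos (hBpos k) hl.pos)
  obtain ⟨v, u, hlu, hvu⟩ := Nat.exists_eq_pow_mul_and_not_dvd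
    (n := Nat.card (fixedSub (σ ^ l) : AddSubgroup (Pic0 K F))) Nat.card_pos.ne' l hl.ne_one
  have hy : u • c' ∈ primaryComponent (Pic0 K F) l := ⟨v, by
    rw [← mul_smul, ← hvu]
    exact congrArg Subtype.val (card_nsmul_eq_zero' (G := (fixedSub (σ ^ l) :
      AddSubgroup (Pic0 K F))) (x := ⟨c', hc'⟩))⟩
  -- The conjugates of `u • c'` agree modulo `l`, so `u • c` is a multiple of `l`.
  have hstep : ∀ i, ∃ z ∈ primaryComponent (Pic0 K F) l, σ ^ i • (u • c') - u • c' = l • z := by
    intro i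
    induction i with
    | zero => exact ⟨0, zero_mem _, by simp⟩
    | succ i ih =>
      obtain ⟨z, hz, hz'⟩ := ih
      obtain ⟨z1, hz1, hz1'⟩ := hk1 k (le_max_right a k1) _ hy
      refine ⟨σ • z + z1, add_mem (smul_mem_primary _ hz) hz1, ?_⟩
      rw [nsmul_add, ← smul_nsmul' σ l z, ← hz', ← hz1', gsmul_sub', ← mul_smul, ← pow_succ']
      abel
  choose z hz hz' using hstep
  have hu : u • c = l • (u • c' + ∑ i ∈ Finset.range l, z i) := by
    rw [← hNc, ← map_nsmul, normMap_apply, nsmul_add, ← Finset.sum_nsmul]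
    simp only [← hz', Finset.sum_sub_distrib, Finset.sum_const, Finset.card_range]
    abel
  obtain ⟨x, y, hxy⟩ : IsCoprime (u : ℤ) (l : ℤ) :=
    ((Nat.prime_iff_prime_int.mp hl).coprime_iff_not_dvd.mpr
      (fun h1 => hlu (Int.natCast_dvd_natCast.mp h1))).symm
  -- Divide by `u` using a Bezout identity.
  refine ⟨x • (u • c' + ∑ i ∈ Finset.range l, z i) + y • c,
    add_mem (zsmul_mem (add_mem hy (sum_mem fun i _ => hz i)) x) (zsmul_mem hc y), ?_⟩
  have hc1 : ∀ (m : ℤ) (a : Pic0 K F), l • (m • a) = m • (l • a) := fun m a =>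
    (map_zsmul (nsmulAddMonoidHom l : Pic0 K F →+ Pic0 K F) m a)
  rw [nsmul_add, hc1, ← hu, hc1, ← natCast_zsmul c u, ← natCast_zsmul c l,
    ← mul_zsmul', ← mul_zsmul', ← add_zsmul, mul_comm (u : ℤ), mul_comm (l : ℤ), hxy,
    one_zsmul]

/-- The classes killed by `l ^ 2` are fixed by one power of `φ`. -/
private theorem exists_forall_killed_sq_mem {l r0 : ℕ}
    (hcover : ∀ c ∈ primaryComponent (Pic0 K F) l, ∃ k, c ∈ primFixed φ l r0 k)
    [Finite (Pic0.torsion K F l)] :
    ∃ k2, ∀ c : Pic0 K F, l ^ 2 • c = 0 → c ∈ primFixed φ l r0 k2 := by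
  have hfin2 : Finite (Pic0.torsion K F (l ^ 2)) := by
    let m2 : Pic0.torsion K F (l ^ 2) →+ Pic0 K F :=
      (nsmulAddMonoidHom l).comp (Pic0.torsion K F (l ^ 2)).subtype
    have h2 : Finite m2.range := by
      refine Finite.of_injective (fun x : m2.range => (⟨x.1, ?_⟩ : Pic0.torsion K F l))
        fun a b hab => Subtype.ext (congrArg Subtype.val hab :)
      obtain ⟨y, hy⟩ := x.2
      rw [mem_torsion_nsmul, ← hy]
      change l • (l • (y : Pic0 K F)) = 0
      rw [← mul_smul, ← sq]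
      exact mem_torsion_nsmul.mp y.2
    have h3 : Finite m2.ker := Finite.of_injective
      (fun x : m2.ker => (⟨x.1.1, mem_torsion_nsmul.mpr (AddMonoidHom.mem_ker.mp x.2)⟩ :
        Pic0.torsion K F l))
      fun a b hab => Subtype.ext (Subtype.ext (congrArg Subtype.val hab :))
    refine Nat.finite_of_card_ne_zero ?_
    rw [← m2.ker.card_mul_index, AddSubgroup.index_ker]
    exact mul_ne_zero Nat.card_pos.ne' Nat.card_pos.ne'
  choose f hf using fun x : Pic0.torsion K F (l ^ 2) =>
    hcover x ⟨2, mem_torsion_nsmul.mp x.2⟩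
  have := Fintype.ofFinite (Pic0.torsion K F (l ^ 2))
  exact ⟨Finset.univ.sup f, fun c hc =>
    primFixed_mono (Finset.le_sup (f := f) (Finset.mem_univ ⟨c, mem_torsion_nsmul.mpr hc⟩)) (hf _)⟩

/-- The telescoping sum of an iterated action. -/
private theorem pow_smul_eq_add_sum {G : Type*} [Monoid G] [DistribMulAction G (Pic0 K F)] (σ : G)
    (x : Pic0 K F) : ∀ i : ℕ, σ ^ i • x = x + ∑ t ∈ Finset.range i, σ ^ t • (σ • x - x) := by
  intro i
  induction i with
  | zero => simp
  | succ i ih =>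
    rw [Finset.sum_range_succ, ← add_assoc, ← ih, smul_sub, ← mul_smul, ← pow_succ]
    abel

/-- If the classes killed by `l ^ 2` are fixed by `σ`, then `l` kills `σ y - y` when
`σ ^ l y = y`. -/
private theorem nsmul_sub_eq_zero {l r0 k : ℕ}
    (hk : ∀ c : Pic0 K F, l ^ 2 • c = 0 → c ∈ primFixed φ l r0 k) {y : Pic0 K F}
    (hy : y ∈ primaryComponent (Pic0 K F) l)
    (hyl : (φ ^ (r0 * l ^ k)) ^ l • y = y) :
    l • (φ ^ (r0 * l ^ k) • y - y) = 0 := by
  set σ := φ ^ (r0 * l ^ k)
  set w := σ • y - y with hw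
  have hwT : w ∈ primaryComponent (Pic0 K F) l := sub_mem (smul_mem_primary _ hy) hy
  have hsum0 : ∑ t ∈ Finset.range l, σ ^ t • w = 0 := by
    have := pow_smul_eq_add_sum σ y l
    rwa [hyl, eq_comm, add_eq_left] at this
  have hlsum : ∀ m : ℕ, l • (m • w)
      = -∑ i ∈ Finset.range l, ∑ t ∈ Finset.range i,
          σ ^ t • (σ • (m • w) - m • w) := by
    intro m
    rw [eq_neg_iff_add_eq_zero]
    have hpows : ∑ i ∈ Finset.range l, σ ^ i • (m • w) = 0 := by
      simp only [smul_nsmul']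
      rw [← Finset.smul_sum, hsum0, smul_zero]
    rw [Finset.sum_congr rfl fun i _ => pow_smul_eq_add_sum σ (m • w) i, Finset.sum_add_distrib,
      Finset.sum_const, Finset.card_range] at hpows
    exact hpows
  have hkill : ∀ m : ℕ, l ^ 2 • (m • w) = 0 → l • (m • w) = 0 := by
    intro m hm
    have hfx : σ • (m • w) = m • w := (hk _ hm).1
    rw [hlsum m, hfx, sub_self]
    simp
  -- so, descending from a power of `l` killing `w`, `l` kills `w`
  have hlw : l • w = 0 := by
    obtain ⟨e, he⟩ := hwT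
    have key : ∀ d, l ^ (1 + d) • w = 0 → l • w = 0 := by
      intro d
      induction d with
      | zero => intro hd; rwa [add_zero, pow_one] at hd
      | succ d ih =>
        intro hd
        refine ih ?_
        have := hkill (l ^ d) (by rw [← mul_smul, ← pow_add]; convert hd using 3; ring)
        rwa [← mul_smul, ← pow_succ', add_comm] at this
    exact key e (by rw [pow_add, mul_smul, he, smul_zero])
  exact hlw

/-- If the classes killed by `l ^ 2` are fixed at level `k`, multiplication by `l` takes level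
`k + 1` exactly to level `k`. -/
private theorem mem_primFixed_succ_iff {l r0 k : ℕ}
    (hk : ∀ c : Pic0 K F, l ^ 2 • c = 0 → c ∈ primFixed φ l r0 k) {y : Pic0 K F}
    (hy : y ∈ primaryComponent (Pic0 K F) l) :
    y ∈ primFixed φ l r0 (k + 1) ↔ l • y ∈ primFixed φ l r0 k := by
  set σ := φ ^ (r0 * l ^ k)
  have hB : y ∈ primFixed φ l r0 (k + 1) ↔ σ ^ l • y = y := by
    constructor
    · intro h1
      rw [← pow_mul, mul_assoc, ← pow_succ]
      exact h1.1
    · intro h1
      refine ⟨?_, hy⟩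
      show φ ^ (r0 * l ^ (k + 1)) • y = y
      rw [pow_succ, ← mul_assoc, pow_mul]
      exact h1
  rw [hB]
  constructor
  · intro h1
    refine ⟨?_, nsmul_mem hy l⟩
    show σ • (l • y) = l • y
    have hlw := nsmul_sub_eq_zero hk hy h1
    rwa [nsmul_sub, sub_eq_zero, ← smul_nsmul'] at hlw
  · intro h1
    set w := σ • y - y with hw
    have hlw : l • w = 0 := by
      rw [hw, nsmul_sub, ← smul_nsmul', sub_eq_zero]
      exact h1.1
    have hfx : ∀ t, σ ^ t • w = w := fun t =>
      pow_smul_fixed (r := 1) (by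
        rw [pow_one]
        exact (hk w (by rw [sq, mul_smul, hlw, smul_zero])).1) (one_dvd t)
    rw [pow_smul_eq_add_sum σ y l, Finset.sum_congr rfl fun t _ => hfx t, Finset.sum_const,
      Finset.card_range, hlw, add_zero]

/-! ### Counting -/

/-- Comparing two consecutive levels counts the classes killed by `l`. -/
private theorem natCard_torsion_prime {l r0 k v0 g : ℕ} [Fact l.Prime]
    (hBcard' : ∀ k, Nat.card (primFixed φ l r0 k) = l ^ (v0 + 2 * g * k))
    (hdiv : ∀ c ∈ primaryComponent (Pic0 K F) l, ∃ y ∈ primaryComponent (Pic0 K F) l, l • y = c)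
    (hnext : ∀ y ∈ primaryComponent (Pic0 K F) l,
      (y ∈ primFixed φ l r0 (k + 1) ↔ l • y ∈ primFixed φ l r0 k)) :
    Nat.card (Pic0.torsion K F l) = l ^ (2 * g) := by
  have hl : l.Prime := Fact.out
  let mu : primFixed φ l r0 (k + 1) →+ primFixed φ l r0 k :=
    { toFun := fun y => ⟨l • y.1, (hnext y.1 y.2.2).mp y.2⟩
      map_zero' := Subtype.ext (smul_zero l)
      map_add' := fun a b => Subtype.ext (smul_add l a.1 b.1) }
  have hsurj : Function.Surjective mu := fun c => by
    obtain ⟨y, hy, hyc⟩ := hdiv c.1 c.2.2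
    exact ⟨⟨y, (hnext y hy).mpr (hyc ▸ c.2)⟩, Subtype.ext hyc⟩
  have hker : Nat.card mu.ker = Nat.card (Pic0.torsion K F l) := by
    refine Nat.card_congr
      { toFun := fun x => ⟨x.1.1, mem_torsion_nsmul.mpr
          (congrArg Subtype.val (AddMonoidHom.mem_ker.mp x.2))⟩
        invFun := fun x =>
          ⟨⟨x.1, (hnext x.1 ⟨1, by rw [pow_one]; exact mem_torsion_nsmul.mp x.2⟩).mpr
          (by rw [mem_torsion_nsmul.mp x.2]; exact zero_mem _)⟩,
          AddMonoidHom.mem_ker.mpr (Subtype.ext (mem_torsion_nsmul.mp x.2))⟩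
        left_inv := fun _ => rfl
        right_inv := fun _ => rfl }
  have h1 := mu.ker.card_mul_index
  rw [AddSubgroup.index_ker, AddMonoidHom.range_eq_top.mpr hsurj, AddSubgroup.card_top, hker,
    hBcard', hBcard'] at h1
  refine Nat.eq_of_mul_eq_mul_right (pow_pos hl.pos (v0 + 2 * g * k)) ?_
  rw [h1, ← pow_add]
  congr 1
  ring

/-- Divisibility propagates the count to all powers of `l`. -/
private theorem natCard_torsion_pow_of_divisible {l g : ℕ} [Fact l.Prime]
    (hdiv : ∀ c ∈ primaryComponent (Pic0 K F) l, ∃ y ∈ primaryComponent (Pic0 K F) l, l • y = c)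
    (hbase : Nat.card (Pic0.torsion K F l) = l ^ (2 * g)) (j : ℕ) :
    Nat.card (Pic0.torsion K F (l ^ j)) = l ^ (2 * g * j) := by
  induction j with
  | zero =>
    have h01 : ∀ c ∈ Pic0.torsion K F (l ^ 0), c = 0 := fun c hc => by
      rw [mem_torsion_nsmul, pow_zero, one_smul] at hc
      exact hc
    have : Subsingleton (Pic0.torsion K F (l ^ 0)) :=
      ⟨fun a b => Subtype.ext ((h01 _ a.2).trans (h01 _ b.2).symm)⟩
    rw [mul_zero, pow_zero, Nat.card_eq_one_iff_unique]
    exact ⟨this, ⟨0⟩⟩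
  | succ j ih =>
    let mu : Pic0.torsion K F (l ^ (j + 1)) →+ Pic0.torsion K F (l ^ j) :=
      { toFun := fun y => ⟨l • y.1, mem_torsion_nsmul.mpr (by
          rw [← mul_smul, ← pow_succ]; exact mem_torsion_nsmul.mp y.2)⟩
        map_zero' := Subtype.ext (smul_zero l)
        map_add' := fun a b => Subtype.ext (smul_add l a.1 b.1) }
    have hsurj : Function.Surjective mu := fun c => by
      obtain ⟨y, -, hyc⟩ := hdiv c.1 ⟨j, mem_torsion_nsmul.mp c.2⟩
      exact ⟨⟨y, mem_torsion_nsmul.mpr (by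
        rw [pow_succ, mul_smul, hyc]; exact mem_torsion_nsmul.mp c.2)⟩, Subtype.ext hyc⟩
    have hker : Nat.card mu.ker = Nat.card (Pic0.torsion K F l) := by
      refine Nat.card_congr
        { toFun := fun x => ⟨x.1.1, mem_torsion_nsmul.mpr
            (congrArg Subtype.val (AddMonoidHom.mem_ker.mp x.2))⟩
          invFun := fun x => ⟨⟨x.1, mem_torsion_nsmul.mpr
            (by rw [pow_succ, mul_smul, mem_torsion_nsmul.mp x.2, smul_zero])⟩,
            AddMonoidHom.mem_ker.mpr (Subtype.ext (mem_torsion_nsmul.mp x.2))⟩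
          left_inv := fun _ => rfl
          right_inv := fun x => by cases x; exact Subtype.ext rfl }
    rw [← mu.ker.card_mul_index, AddSubgroup.index_ker, AddMonoidHom.range_eq_top.mpr hsurj,
      AddSubgroup.card_top, hker, hbase, ih, ← pow_add]
    congr 1
    ring

/-- The torsion count, assuming a rational place. -/
theorem natCard_torsion_aux [IsFunctionField K F] [IsAlgClosed K] (h : IsFrob φ q) {P₀ : Place K F}
    (hP₀ : φ • P₀ = P₀) (l : ℕ) [Fact l.Prime] (hlq : ¬ l ∣ q) (j : ℕ) :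
    Nat.card (Pic0.torsion K F (l ^ j)) = l ^ (2 * genusFF K F * j) := by
  have hl : l.Prime := Fact.out
  obtain ⟨Q, α, hQ, hQd, hQ0, hα, hcard, -⟩ := exists_roots h hP₀
  have hfix : ∀ r, φ ^ r • P₀ = P₀ := fun r =>
    pow_smul_fixed (r := 1) (by rw [pow_one]; exact hP₀) (one_dvd r)
  have hfinfix : ∀ r, 0 < r → Finite (fixedSub (φ ^ r) : AddSubgroup (Pic0 K F)) := fun r hr =>
    (finite_fixedSub (h.pow hr) (hfix r)).to_subtype
  have hlQ : ¬ (l : ℤ) ∣ Q.coeff 0 := by
    rw [hQ0, ← Nat.cast_pow, Int.natCast_dvd_natCast]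
    exact fun h1 => hlq (hl.dvd_of_dvd_pow h1)
  obtain ⟨r0, hr0, hval⟩ := exists_valuation_growth l hQ hQd hlQ α hα
    (fun r => Nat.card (fixedSub (φ ^ r) : AddSubgroup (Pic0 K F))) hcard
    (fun r hr => by have := hfinfix r hr; exact Nat.card_pos)
  set g := genusFF K F
  set v0 := padicValNat l (Nat.card (fixedSub (φ ^ r0) : AddSubgroup (Pic0 K F)))
  set T := primaryComponent (Pic0 K F) l with hT
  let B : ℕ → AddSubgroup (Pic0 K F) := primFixed φ l r0
  have hBpos : ∀ k, 0 < r0 * l ^ k := fun k => Nat.mul_pos hr0 (pow_pos hl.pos k)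
  have hBfin : ∀ k, Finite (B k) := fun k => by
    have := hfinfix _ (hBpos k)
    exact Finite.of_injective (fun c : B k => (⟨c.1, c.2.1⟩ : fixedSub (φ ^ (r0 * l ^ k))))
      fun a b hab => Subtype.ext (congrArg Subtype.val hab :)
  have hBcard : ∀ k t, 0 < t → ¬ l ∣ t →
      Nat.card (fixedSub (φ ^ (r0 * l ^ k * t)) ⊓ T : AddSubgroup (Pic0 K F))
        = l ^ (v0 + 2 * g * k) := fun k t ht hlt => by
    have := hfinfix _ (Nat.mul_pos (hBpos k) ht)
    rw [natCard_inf_primary, hval k t ht hlt]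
  have hBcard' : ∀ k, Nat.card (B k) = l ^ (v0 + 2 * g * k) := fun k => by
    have := hBcard k 1 one_pos hl.not_dvd_one
    rwa [mul_one] at this
  have hcover : ∀ c ∈ T, ∃ k, c ∈ B k := by
    intro c hc
    obtain ⟨R, hR, hRc⟩ := exists_pow_smul_eq h c
    obtain ⟨a, t, hlt, hRat⟩ := Nat.exists_eq_pow_mul_and_not_dvd hR.ne' l hl.ne_one
    have ht : 0 < t := Nat.pos_of_ne_zero fun h0 => hlt (h0 ▸ dvd_zero l)
    refine ⟨a, ?_⟩
    set C : AddSubgroup (Pic0 K F) := fixedSub (φ ^ (r0 * l ^ a * t)) ⊓ T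
    have hle : B a ≤ C := inf_le_inf_right _ (fixedSub_le (dvd_mul_right _ _))
    have : Finite C := Nat.finite_of_card_ne_zero
      (by rw [hBcard a t ht hlt]; exact pow_ne_zero _ hl.ne_zero)
    have heq : (B a : Set (Pic0 K F)) = C := by
      refine Set.eq_of_subset_of_ncard_le hle (le_of_eq ?_) (Set.toFinite _)
      change Nat.card C = Nat.card (B a)
      rw [hBcard a t ht hlt, hBcard']
    change c ∈ (B a : Set (Pic0 K F))
    rw [heq]
    refine ⟨?_, hc⟩
    show φ ^ (r0 * l ^ a * t) • c = c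
    exact pow_smul_fixed hRc (hRat ▸ ⟨r0, by ring⟩)
  -- the elements killed by `l` are fixed by one power
  obtain ⟨k0, hk0⟩ := exists_forall_killed_mem hBfin hBcard' hcover
  have hfin1 : Finite (Pic0.torsion K F l) := Finite.of_injective
    (fun x : Pic0.torsion K F l => (⟨x.1, hk0 _ (mem_torsion_nsmul.mp x.2)⟩ : B k0))
    fun a b hab => Subtype.ext (congrArg Subtype.val hab :)
  -- classes modulo `l` are fixed by one power
  obtain ⟨k1, hk1⟩ := exists_smul_sub_eq_nsmul hBfin hcover
  have hdiv : ∀ c ∈ T, ∃ y ∈ T, l • y = c := fun c hc =>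
    exists_nsmul_eq h hfix hr0 hfinfix hcover hk1 hc
  -- the torsion killed by `l ^ 2` is fixed by one power
  obtain ⟨k2, hk2⟩ := exists_forall_killed_sq_mem hcover
  exact natCard_torsion_pow_of_divisible hdiv
    (natCard_torsion_prime hBcard' hdiv fun y hy => mem_primFixed_succ_iff hk2 hy) j

/-- The `l`-power torsion of the class group over an algebraic closure of a finite field. -/
theorem natCard_torsion_of_isFrob [IsFunctionField K F] [IsAlgClosed K] (h : IsFrob φ q) (l : ℕ)
    [Fact l.Prime] (hlq : ¬ l ∣ q) (j : ℕ) :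
    Nat.card (Pic0.torsion K F (l ^ j)) = l ^ (2 * genusFF K F * j) := by
  obtain ⟨P₀⟩ := exists_place (K := K) (F := F)
  obtain ⟨r, hr, hr'⟩ := h.orbit_place P₀
  exact natCard_torsion_aux (h.pow hr) hr' l
    (fun h1 => hlq ((Fact.out : l.Prime).dvd_of_dvd_pow h1)) j

end Fermat.Agent.CurveTorsion
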