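import Mathlib.RingTheory.Etale.StandardEtale
import Mathlib.RingTheory.Unramified.LocalStructure
import Mathlib.RingTheory.Smooth.StandardSmoothCotangent
import Mathlib.RingTheory.Valuation.LocalSubring
import Mathlib.RingTheory.Jacobson.Ring
import Mathlib.RingTheory.Valuation.ValuationSubring
import Mathlib.FieldTheory.IsAlgClosed.Basic
import Mathlib.FieldTheory.Finite.Basic
import Mathlib.RingTheory.Localization.Away.Basic
import Mathlib.Algebra.Algebra.ZMod

/-!
# Valuation rings of algebraically closed fields: residue fields and multivariate Hensel lifting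

These are `isAlgClosed_residueField` and `exists_lift`; `exists_valuationSubring` gives a valuation
ring with residue field algebraic over a finite prime field.
-/

set_option autoImplicit false

noncomputable section

open scoped Classical

namespace Fermat.Agent.CurveTorsion

universe u

variable {K : Type u} [Field K] [IsAlgClosed K]

/-! ### Residue fields and Hensel lifting -/

/-- A nonconstant monic polynomial over a valuation ring of an algebraically closed field has a root
there. -/
theorem exists_root_of_monic (A : ValuationSubring K) (p : Polynomial A) (hp : p.Monic)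
    (hdeg : p.natDegree ≠ 0) : ∃ a : A, p.IsRoot a := by
  obtain ⟨z, hz⟩ := IsAlgClosed.exists_root (p.map A.subtype) (by
    rw [Polynomial.degree_map_eq_of_injective Subtype.val_injective]
    intro h
    exact hdeg (Polynomial.natDegree_eq_of_degree_eq_some h))
  have hint : IsIntegral A z := ⟨p, hp, by
    rw [← Polynomial.eval_map]
    exact hz⟩
  obtain ⟨a, rfl⟩ := IsIntegrallyClosed.isIntegral_iff.mp hint
  refine ⟨a, ?_⟩
  have h1 : (p.map (algebraMap A K)).eval (algebraMap A K a) = 0 := hz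
  rw [Polynomial.eval_map_apply] at h1
  exact (FaithfulSMul.algebraMap_injective A K) (h1.trans (map_zero _).symm)

theorem splits_of_monic (A : ValuationSubring K) (p : Polynomial A) (hp : p.Monic) :
    ∃ m : Multiset A, p = (m.map fun a => Polynomial.X - Polynomial.C a).prod := by
  induction hd : p.natDegree using Nat.strong_induction_on generalizing p with
  | _ d ih =>
    rcases Nat.eq_zero_or_pos d with rfl | hpos
    · exact ⟨0, by simpa using hp.natDegree_eq_zero.mp hd⟩
    obtain ⟨a, ha⟩ := exists_root_of_monic A p hp (by omega)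
    obtain ⟨r, rfl⟩ := Polynomial.dvd_iff_isRoot.mpr ha
    have hr : r.Monic := (Polynomial.monic_X_sub_C a).of_mul_monic_left hp
    have hdr : r.natDegree < d := by
      rw [← hd, Polynomial.Monic.natDegree_mul (Polynomial.monic_X_sub_C a) hr,
        Polynomial.natDegree_X_sub_C]
      omega
    obtain ⟨m, rfl⟩ := ih _ hdr r hr rfl
    exact ⟨a ::ₘ m, by simp⟩

scoped instance isAlgClosed_residueField (A : ValuationSubring K) :
    IsAlgClosed (IsLocalRing.ResidueField A) := by
  refine IsAlgClosed.of_exists_root _ fun p hp hirr => ?_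
  have hlift : p ∈ Polynomial.lifts (IsLocalRing.residue A) :=
    (Polynomial.lifts_iff_coeff_lifts p).mpr fun n => IsLocalRing.residue_surjective _
  obtain ⟨P, hP, hdeg, hPm⟩ := Polynomial.lifts_and_natDegree_eq_and_monic hlift hp
  obtain ⟨a, ha⟩ := exists_root_of_monic A P hPm (by rw [hdeg]; exact hirr.natDegree_pos.ne')
  exact ⟨IsLocalRing.residue A a, by
    rw [← hP, Polynomial.eval_map_apply, ha.eq_zero, map_zero]⟩

/-- A residual point of a standard étale algebra over a valuation ring of an algebraically closed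
field lifts, the defining polynomial splitting there. -/
private theorem exists_lift_of_isStandardEtale (A : ValuationSubring K) {T : Type u} [CommRing T]
    [Algebra A T] [Algebra.IsStandardEtale A T] (πT : T →ₐ[A] IsLocalRing.ResidueField A) :
    ∃ σ : T →ₐ[A] A, (IsLocalRing.residue A).comp σ.toRingHom = πT.toRingHom := by
  let k := IsLocalRing.ResidueField A
  let P := (Algebra.IsStandardEtale.nonempty_standardEtalePresentation (R := A) (S := T)).some
  let x0 := πT (P.equivRing.symm P.P.X)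
  have hx0 : P.P.HasMap x0 :=
    P.P.hasMap_X.map (πT.comp P.equivRing.symm.toAlgHom)
  obtain ⟨m, hm⟩ := splits_of_monic A P.f P.monic_f
  obtain ⟨a, ham, ha⟩ : ∃ a ∈ m, IsLocalRing.residue A a = x0 := by
    have h1 := hx0.1
    rw [hm, map_multiset_prod, Multiset.map_map, Multiset.prod_eq_zero_iff, Multiset.mem_map] at h1
    obtain ⟨a, ha, ha'⟩ := h1
    refine ⟨a, ha, ?_⟩
    simp only [Function.comp_apply, map_sub, Polynomial.aeval_X, Polynomial.aeval_C] at ha'
    exact (sub_eq_zero.mp ha').symm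
  have hmap : P.P.HasMap a := by
    have hroot : Polynomial.aeval a P.f = 0 := by
      rw [hm, map_multiset_prod, Multiset.map_map, Multiset.prod_eq_zero_iff, Multiset.mem_map]
      exact ⟨a, ham, by simp⟩
    refine ⟨hroot, ?_⟩
    have h2 := hx0.2
    rw [← ha] at h2
    rw [← not_not (a := IsUnit _)]
    intro hnu
    have h3 : IsLocalRing.residue A (Polynomial.aeval a P.g) = 0 :=
      (IsLocalRing.residue_eq_zero_iff _).mpr ((IsLocalRing.mem_maximalIdeal _).mpr hnu)
    rw [isUnit_iff_ne_zero] at h2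
    apply h2
    rw [show IsLocalRing.residue A a = algebraMap A k a from rfl,
      Polynomial.aeval_algebraMap_apply]
    exact h3
  let σ : T →ₐ[A] A := (P.P.lift a hmap).comp P.equivRing.toAlgHom
  have hσ : (IsLocalRing.residue A).comp σ.toRingHom = πT.toRingHom := by
    have key : (Algebra.ofId A k).comp (P.P.lift a hmap)
        = πT.comp P.equivRing.symm.toAlgHom := by
      refine StandardEtalePair.hom_ext ?_
      simp only [AlgHom.comp_apply, StandardEtalePair.lift_X]
      exact ha
    ext t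
    have h1 := AlgHom.congr_fun key (P.equivRing t)
    simp only [AlgHom.comp_apply, AlgEquiv.coe_toAlgHom,
      AlgEquiv.symm_apply_apply] at h1
    exact h1
  exact ⟨σ, hσ⟩

/-- Multivariate Hensel lifting in a valuation ring of an algebraically closed field. -/
theorem exists_lift (A : ValuationSubring K) {ι : Type} [Fintype ι] [DecidableEq ι]
    (G : ι → MvPolynomial ι A) (a0 : ι → IsLocalRing.ResidueField A)
    (hG : ∀ i, MvPolynomial.aeval a0 (G i) = 0)
    (hJ : (Matrix.of fun i j => MvPolynomial.aeval a0 (MvPolynomial.pderiv i (G j))).det ≠ 0) :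
    ∃ a : ι → A, (∀ i, MvPolynomial.aeval a (G i) = 0) ∧
      ∀ i, IsLocalRing.residue A (a i) = a0 i := by
  let k := IsLocalRing.ResidueField A
  let B := MvPolynomial ι A ⧸ Ideal.span (Set.range G)
  let P0 : Algebra.PreSubmersivePresentation A B ι ι :=
    Algebra.PreSubmersivePresentation.naive (v := G) _root_.id Function.injective_id
  let δ : B := P0.jacobian
  let S := Localization.Away δ
  let P1 : Algebra.SubmersivePresentation A S (Unit ⊕ ι) (Unit ⊕ ι) :=
    { (Algebra.PreSubmersivePresentation.localizationAway S δ).comp P0 with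
      jacobian_isUnit := by
        rw [Algebra.PreSubmersivePresentation.comp_jacobian_eq_jacobian_smul_jacobian,
          Algebra.PreSubmersivePresentation.localizationAway_jacobian, Algebra.smul_def]
        exact (IsLocalization.Away.algebraMap_isUnit δ).mul
          (IsLocalization.Away.algebraMap_isUnit δ) }
  have : Algebra.IsStandardSmoothOfRelativeDimension 0 A S :=
    P1.isStandardSmoothOfRelativeDimension (by simp [Algebra.Presentation.dimension])
  -- the residual point of `S`
  let π0 : B →ₐ[A] k := Ideal.Quotient.liftₐ _ (MvPolynomial.aeval a0) fun x hx => by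
    have hle : Ideal.span (Set.range G) ≤ RingHom.ker (MvPolynomial.aeval a0).toRingHom :=
      Ideal.span_le.mpr (by rintro _ ⟨i, rfl⟩; exact hG i)
    exact hle hx
  have hπX : ∀ x, π0 (Ideal.Quotient.mk _ x) = MvPolynomial.aeval a0 x := fun x => rfl
  have hδ : IsUnit (π0 δ) := by
    rw [isUnit_iff_ne_zero]
    convert hJ using 1
    have h1 : δ = Ideal.Quotient.mk _ P0.jacobiMatrix.det := by
      rw [show δ = P0.jacobian from rfl,
        Algebra.PreSubmersivePresentation.jacobian_eq_jacobiMatrix_det]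
      rfl
    rw [h1, hπX, AlgHom.map_det]
    congr 1
    ext i j
    simp only [AlgHom.mapMatrix_apply, Matrix.map_apply, Matrix.of_apply,
      Algebra.PreSubmersivePresentation.jacobiMatrix_apply]
    rfl
  let π : S →ₐ[A] k := IsLocalization.liftAlgHom (M := Submonoid.powers δ) (f := π0) (by
    rintro ⟨_, n, rfl⟩
    rw [map_pow]
    exact hδ.pow n)
  have hπ : ∀ b, π (algebraMap B S b) = π0 b := fun b => IsLocalization.lift_eq _ b
  let Qp : Ideal S := RingHom.ker π.toRingHom
  have : Qp.IsPrime := RingHom.ker_isPrime _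
  obtain ⟨f, hf, hstd⟩ := Algebra.IsEtaleAt.exists_isStandardEtale (R := A) Qp
  have hfu : IsUnit (π f) := by
    rw [isUnit_iff_ne_zero]
    exact fun h => hf h
  let T := Localization.Away f
  let πT : T →ₐ[A] k := IsLocalization.liftAlgHom (M := Submonoid.powers f) (f := π) (by
    rintro ⟨_, n, rfl⟩
    rw [map_pow]
    exact hfu.pow n)
  have hπT : ∀ s, πT (algebraMap S T s) = π s := fun s => IsLocalization.lift_eq _ s
  obtain ⟨σ, hσ⟩ := exists_lift_of_isStandardEtale A πT
  let ξ : ι → B := fun i => Ideal.Quotient.mk (Ideal.span (Set.range G)) (MvPolynomial.X i)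
  let ι1 : B →ₐ[A] S := IsScalarTower.toAlgHom A B S
  let ι2 : S →ₐ[A] T := IsScalarTower.toAlgHom A S T
  refine ⟨fun i => σ (ι2 (ι1 (ξ i))),
    fun i => ?_, fun i => ?_⟩
  · let ψ : MvPolynomial ι A →ₐ[A] A := (σ.comp ((IsScalarTower.toAlgHom A S T).comp
      (IsScalarTower.toAlgHom A B S))).comp (Ideal.Quotient.mkₐ A (Ideal.span (Set.range G)))
    have hψ : MvPolynomial.aeval (fun i => ψ (MvPolynomial.X i)) = ψ :=
      (MvPolynomial.aeval_unique ψ).symm
    show MvPolynomial.aeval (fun i => ψ (MvPolynomial.X i)) (G i) = 0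
    rw [hψ]
    have h0 : (Ideal.Quotient.mk (Ideal.span (Set.range G))) (G i) = 0 :=
      Ideal.Quotient.eq_zero_iff_mem.mpr (Ideal.subset_span ⟨i, rfl⟩)
    show σ (ι2 (ι1 (Ideal.Quotient.mk (Ideal.span (Set.range G)) (G i)))) = 0
    rw [h0, map_zero, map_zero, map_zero]
  · have h1 := RingHom.congr_fun hσ
      (ι2 (ι1 (ξ i)))
    refine h1.trans ?_
    show πT _ = _
    refine (hπT _).trans ((hπ _).trans ?_)
    exact (hπX _).trans (MvPolynomial.aeval_X _ _)

/-! ### Places over a finite prime field -/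

/-- The integers form a Jacobson ring. -/
theorem isJacobsonRing_int : IsJacobsonRing ℤ := by
  rw [isJacobsonRing_iff_prime_eq]
  intro P hP
  rcases eq_or_ne P ⊥ with rfl | hne
  · rw [eq_bot_iff]
    intro x hx
    by_contra hx0
    obtain ⟨p, hp, hpr⟩ := Nat.exists_infinite_primes (x.natAbs + 1)
    have hmax : (Ideal.span {(p : ℤ)}).IsMaximal :=
      PrincipalIdealRing.isMaximal_of_irreducible (Nat.prime_iff_prime_int.mp hpr).irreducible
    have h2 : x ∈ Ideal.span {(p : ℤ)} := by
      rw [Ideal.jacobson] at hx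
      exact Submodule.mem_sInf.mp hx _ ⟨bot_le, hmax⟩
    rw [Ideal.mem_span_singleton, ← Int.natAbs_dvd_natAbs, Int.natAbs_natCast] at h2
    have h3 := Nat.le_of_dvd (Int.natAbs_pos.mpr fun h => hx0 (by simp [h])) h2
    omega
  · have : P.IsMaximal := IsPrime.to_maximal_ideal hne
    exact Ideal.jacobson_eq_self_of_isMaximal

omit [IsAlgClosed K] in
/-- A chain of valuation rings dominating `(R, m)` has such a ring below it. -/
private theorem exists_le_of_isChain {R : Subalgebra ℤ K} {m : Ideal R}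
    {c : Set (ValuationSubring K)}
    (hcT : ∀ A ∈ c, (∀ x : R, (x : K) ∈ A) ∧ ∀ x : R, x ∈ m → (x : K) ∈ A.nonunits)
    (hc : IsChain (· ≤ ·) c) (hne : c.Nonempty) :
    ∃ lb : ValuationSubring K, ((∀ x : R, (x : K) ∈ lb) ∧ ∀ x : R, x ∈ m → (x : K) ∈ lb.nonunits) ∧
      ∀ s ∈ c, lb ≤ s := by
  let I : Subring K := ⨅ B ∈ c, (B : ValuationSubring K).toSubring
  have hI : ∀ x, x ∈ I ↔ ∀ B ∈ c, x ∈ B := fun x => by
    simp only [I, Subring.mem_iInf, ValuationSubring.mem_toSubring]
  let V : ValuationSubring K := ⟨I, fun x => by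
    by_contra h
    push Not at h
    obtain ⟨h1, h2⟩ := h
    replace h1 : x ∉ I := h1
    replace h2 : x⁻¹ ∉ I := h2
    rw [hI] at h1 h2
    push Not at h1 h2
    obtain ⟨B, hB, hxB⟩ := h1
    obtain ⟨B', hB', hxB'⟩ := h2
    rcases hc.total hB hB' with hle | hle
    · exact hxB' (hle ((B.mem_or_inv_mem x).resolve_left hxB))
    · exact hxB (hle ((B'.mem_or_inv_mem x).resolve_right hxB'))⟩
  have hV : ∀ x, x ∈ V ↔ ∀ B ∈ c, x ∈ B := hI
  refine ⟨V, ⟨fun x => (hV _).mpr fun B hB => (hcT B hB).1 x, fun x hx => ?_⟩,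
    fun B hB y hy => (hV y).mp hy B hB⟩
  rcases eq_or_ne (x : K) 0 with h0 | h0
  · rw [h0]; exact V.nonunits.zero_mem
  obtain ⟨B, hB⟩ := hne
  rw [ValuationSubring.mem_nonunits_iff_exists_mem_maximalIdeal]
  refine ⟨(hV _).mpr fun B hB => (hcT B hB).1 x, fun hu => ?_⟩
  obtain ⟨y, hy⟩ := hu.exists_left_inv
  have h1 : (x : K)⁻¹ ∈ B := by
    have h2 : (y : K) * (x : K) = 1 := congrArg Subtype.val hy
    rw [← eq_inv_of_mul_eq_one_left h2]
    exact (hV _).mp y.2 B hB
  have h3 := (hcT B hB).2 x hx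
  rw [ValuationSubring.mem_nonunits_iff] at h3
  have h4 := (B.valuation_le_one_iff _).mpr h1
  rw [map_inv₀, inv_le_one₀ (zero_lt_iff.mpr (by simpa using h0))] at h4
  exact absurd h4 (not_le.mpr h3)

/-- A transcendental element vanishes at some valuation ring. -/
private theorem exists_valuationSubring_inv_notMem {p : ℕ} [Fact p.Prime] {k : Type*} [Field k]
    [Algebra (ZMod p) k] {a : k} (htr : Transcendental (ZMod p) a) :
    ∃ B : ValuationSubring k, a⁻¹ ∉ B := by
  let P : Subring k := (Algebra.adjoin (ZMod p) {a}).toSubring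
  let e : Polynomial (ZMod p) →+* P :=
    (Polynomial.aeval a : Polynomial (ZMod p) →ₐ[ZMod p] k).toRingHom.codRestrict P
      fun f => Polynomial.aeval_mem_adjoin_singleton _ a
  have he : Function.Bijective e := ⟨fun f g h => by
      exact transcendental_iff_injective.mp htr (congrArg Subtype.val h), fun ⟨y, hy⟩ => by
      obtain ⟨f, hf⟩ : ∃ f : Polynomial (ZMod p), Polynomial.aeval a f = y := by
        have hy' : y ∈ (Algebra.adjoin (ZMod p) {a} : Subalgebra (ZMod p) k) := hy
        rwa [Algebra.adjoin_singleton_eq_range_aeval] at hy'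
      exact ⟨f, Subtype.ext hf⟩⟩
  have hI : Ideal.span {(⟨a, Algebra.self_mem_adjoin_singleton _ a⟩ : P)} ≠ ⊤ := by
    rw [ne_eq, Ideal.span_singleton_eq_top]
    intro hu
    have hX : e Polynomial.X = ⟨a, Algebra.self_mem_adjoin_singleton _ a⟩ :=
      Subtype.ext (Polynomial.aeval_X a)
    rw [← hX] at hu
    exact Polynomial.not_isUnit_X ((isUnit_map_iff (RingEquiv.ofBijective e he) _).mp hu)
  obtain ⟨B, hB, hB'⟩ := Ideal.image_subset_nonunits_valuationSubring _ hI
  have haB : a ∈ B.nonunits := hB' ⟨_, Ideal.subset_span rfl, rfl⟩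
  have ha0 : a ≠ 0 := fun h => htr (h ▸ isAlgebraic_zero)
  refine ⟨B, fun h1 => ?_⟩
  exact (by
    rw [ValuationSubring.mem_nonunits_iff] at haB
    have h4 := (B.valuation_le_one_iff _).mpr h1
    rw [map_inv₀, inv_le_one₀ (zero_lt_iff.mpr (by simpa using ha0))] at h4
    exact absurd h4 (not_le.mpr haB))

omit [IsAlgClosed K] in
/-- The valuation ring composed from `A` and a valuation ring `B` of its residue field. -/
private def compositeRing (A : ValuationSubring K)
    (B : ValuationSubring (IsLocalRing.ResidueField A)) :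
    ValuationSubring K :=
  let C : Subring K :=
    { carrier := {x | ∃ hx : x ∈ A, IsLocalRing.residue A ⟨x, hx⟩ ∈ B}
      zero_mem' := ⟨zero_mem A, by
        rw [show (⟨0, zero_mem A⟩ : A) = 0 from rfl, map_zero]; exact zero_mem B⟩
      one_mem' := ⟨one_mem A, by
        rw [show (⟨1, one_mem A⟩ : A) = 1 from rfl, map_one]; exact one_mem B⟩
      add_mem' := fun {x y} ⟨hx, hx'⟩ ⟨hy, hy'⟩ => ⟨add_mem hx hy, by
        rw [show (⟨x + y, add_mem hx hy⟩ : A) = ⟨x, hx⟩ + ⟨y, hy⟩ from rfl, map_add]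
        exact add_mem hx' hy'⟩
      mul_mem' := fun {x y} ⟨hx, hx'⟩ ⟨hy, hy'⟩ => ⟨mul_mem hx hy, by
        rw [show (⟨x * y, mul_mem hx hy⟩ : A) = ⟨x, hx⟩ * ⟨y, hy⟩ from rfl, map_mul]
        exact mul_mem hx' hy'⟩
      neg_mem' := fun {x} ⟨hx, hx'⟩ => ⟨neg_mem hx, by
        rw [show (⟨-x, neg_mem hx⟩ : A) = -⟨x, hx⟩ from rfl, map_neg]
        exact neg_mem hx'⟩ }
  ⟨C, fun x => by
    rcases eq_or_ne x 0 with rfl | hx0
    · exact Or.inl C.zero_mem
    by_cases hx : x ∈ A
    · by_cases hu : IsUnit (⟨x, hx⟩ : A)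
      · rcases B.mem_or_inv_mem (IsLocalRing.residue A ⟨x, hx⟩) with h | h
        · exact Or.inl ⟨hx, h⟩
        · obtain ⟨y, hy⟩ := hu.exists_right_inv
          have hy' : (y : K) = x⁻¹ :=
            eq_inv_of_mul_eq_one_right (congrArg Subtype.val hy)
          refine Or.inr ⟨hy' ▸ y.2, ?_⟩
          rw [show (⟨x⁻¹, hy' ▸ y.2⟩ : A) = y from Subtype.ext hy'.symm]
          rwa [← eq_inv_of_mul_eq_one_right (by rw [← map_mul, hy, map_one] :
            IsLocalRing.residue A ⟨x, hx⟩ * IsLocalRing.residue A y = 1)] at h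
      · refine Or.inl ⟨hx, ?_⟩
        rw [(IsLocalRing.residue_eq_zero_iff _).mpr hu]
        exact zero_mem B
    · have hxi := (A.mem_or_inv_mem x).resolve_left hx
      refine Or.inr ⟨hxi, ?_⟩
      have hnu : ¬ IsUnit (⟨x⁻¹, hxi⟩ : A) := fun hu => hx (by
        obtain ⟨y, hy⟩ := hu.exists_right_inv
        have := eq_inv_of_mul_eq_one_right (congrArg Subtype.val hy : x⁻¹ * (y : K) = 1)
        rw [inv_inv] at this
        exact this ▸ y.2)
      rw [(IsLocalRing.residue_eq_zero_iff _).mpr hnu]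
      exact zero_mem B⟩

omit [IsAlgClosed K] in
/-- A valuation ring with algebraic residue field over a finite prime field. -/
theorem exists_valuationSubring (S : Finset K) (D : K) (hD : D ≠ 0) :
    ∃ A : ValuationSubring K, ∃ p : ℕ, p.Prime ∧ (∀ x ∈ S, x ∈ A) ∧
      (∃ hDA : D ∈ A, IsUnit (⟨D, hDA⟩ : A)) ∧
      CharP (IsLocalRing.ResidueField A) p ∧
      ∀ a : IsLocalRing.ResidueField A, ∃ Q : Polynomial ℤ,
        Q.map (Int.castRingHom (IsLocalRing.ResidueField A)) ≠ 0 ∧
        Polynomial.aeval a Q = 0 := by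
  have := isJacobsonRing_int
  let R : Subalgebra ℤ K := Algebra.adjoin ℤ ((insert D (insert D⁻¹ S) : Finset K) : Set K)
  have : Algebra.FiniteType ℤ R :=
    (Subalgebra.fg_iff_finiteType R).mp (Subalgebra.fg_adjoin_finset _)
  obtain ⟨m, hm⟩ := Ideal.exists_maximal R
  let fq : Field (R ⧸ m) := Ideal.Quotient.field m
  have : Algebra.FiniteType ℤ (R ⧸ m) :=
    Algebra.FiniteType.of_surjective (Ideal.Quotient.mkₐ ℤ m) Ideal.Quotient.mk_surjective
  have hfinq : Module.Finite ℤ (R ⧸ m) := finite_of_finite_type_of_isJacobsonRing ℤ (R ⧸ m)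
  obtain ⟨p, hp⟩ := CharP.exists (R ⧸ m)
  have hp0 : p ≠ 0 := by
    rintro rfl
    have hinj : Function.Injective (algebraMap ℤ (R ⧸ m)) := by
      have := CharP.charP_to_charZero (R ⧸ m)
      exact Int.cast_injective
    have : IsField ℤ := isField_of_isIntegral_of_isField hinj (Field.toIsField (R ⧸ m))
    exact Int.not_isField this
  have hpp : p.Prime := (CharP.char_is_prime_or_zero (R ⧸ m) p).resolve_right hp0
  -- valuation rings dominating `(R, m)`
  let T : Set (ValuationSubring K) :=
    {A | (∀ x : R, (x : K) ∈ A) ∧ ∀ x : R, x ∈ m → (x : K) ∈ A.nonunits}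
  have hTne : ∃ A, A ∈ T := by
    obtain ⟨B, hB, hB'⟩ := Ideal.image_subset_nonunits_valuationSubring
      (A := R.toSubring) m hm.ne_top
    exact ⟨B, fun x => hB x.2, fun x hx => hB' ⟨x, hx, rfl⟩⟩
  obtain ⟨A, hAT, hmin⟩ : ∃ A ∈ T, ∀ B ∈ T, B ≤ A → A ≤ B := by
    have hchain : ∀ c ⊆ T, IsChain (· ≤ ·) c → c.Nonempty → ∃ lb ∈ T, ∀ s ∈ c, lb ≤ s := by
      exact fun c hcT hc hne => exists_le_of_isChain (fun A hA => hcT hA) hc hne
    obtain ⟨A0, hA0⟩ := hTne
    obtain ⟨A, hA, hAT, hmin⟩ := zorn_le_nonempty₀ (α := (ValuationSubring K)ᵒᵈ) T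
      (fun c hcT hc y hy => by
        obtain ⟨lb, hlb, hlb'⟩ := hchain c hcT hc.symm ⟨y, hy⟩
        exact ⟨lb, hlb, hlb'⟩) A0 hA0
    exact ⟨A, hAT, fun B hB hle => hmin hB hle⟩
  have hRA : ∀ x ∈ ((insert D (insert D⁻¹ S) : Finset K) : Set K), x ∈ A := fun x hx =>
    hAT.1 ⟨x, Algebra.subset_adjoin hx⟩
  set k := IsLocalRing.ResidueField A
  let ρ : R →+* k := (IsLocalRing.residue A).comp
    { toFun := fun x => ⟨x, hAT.1 x⟩
      map_one' := rfl
      map_mul' := fun _ _ => rfl
      map_zero' := rfl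
      map_add' := fun _ _ => rfl }
  have hρm : ∀ x ∈ m, ρ x = 0 := fun x hx => by
    obtain ⟨hxA, hxm⟩ :=
      (ValuationSubring.mem_nonunits_iff_exists_mem_maximalIdeal (A := A)).mp (hAT.2 x hx)
    exact (IsLocalRing.residue_eq_zero_iff _).mpr hxm
  let ρq : (R ⧸ m) →+* k := Ideal.Quotient.lift m ρ hρm
  have hcharP : CharP k p := charP_of_injective_ringHom ρq.injective p
  have hint : ∀ x : R, ∃ Q : Polynomial ℤ, Q.Monic ∧
      Q.eval₂ (Int.castRingHom k) (ρ x) = 0 := fun x => by
    obtain ⟨Q, hQ, hQx⟩ := Algebra.IsIntegral.isIntegral (R := ℤ) (Ideal.Quotient.mk m x)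
    refine ⟨Q, hQ, ?_⟩
    rw [show ρ x = ρq (Ideal.Quotient.mk m x) from rfl,
      show Int.castRingHom k = ρq.comp (algebraMap ℤ (R ⧸ m)) from RingHom.ext_int _ _,
      ← Polynomial.hom_eval₂, hQx, map_zero]
  refine ⟨A, p, hpp, fun x hx => hRA x (by simp [hx]), ⟨hRA D (by simp), ?_⟩, hcharP, fun a => ?_⟩
  · refine IsUnit.of_mul_eq_one ⟨D⁻¹, hRA D⁻¹ (by simp)⟩ (Subtype.ext ?_)
    exact mul_inv_cancel₀ hD
  have : Fact p.Prime := ⟨hpp⟩
  let _ : Algebra (ZMod p) k := ZMod.algebra k p
  by_contra hno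
  push Not at hno
  have htr : Transcendental (ZMod p) a := fun ⟨Q, hQ0, hQ⟩ => by
    obtain ⟨Q', rfl⟩ := Polynomial.map_surjective (Int.castRingHom (ZMod p))
      ZMod.intCast_surjective Q
    refine hno Q' ?_ ?_
    · intro h0
      apply hQ0
      rw [← Polynomial.map_eq_zero_iff (algebraMap (ZMod p) k).injective, Polynomial.map_map,
        show (algebraMap (ZMod p) k).comp (Int.castRingHom (ZMod p)) = Int.castRingHom k from
          RingHom.ext_int _ _]
      exact h0
    · rw [← hQ, Polynomial.aeval_def, Polynomial.aeval_def, Polynomial.eval₂_map]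
      congr 1
      exact RingHom.ext_int _ _
  obtain ⟨B, hainv⟩ := exists_valuationSubring_inv_notMem htr
  -- the composite valuation ring
  let V := compositeRing A B
  have hVA : V ≤ A := fun x hx => hx.1
  have hVT : V ∈ T := by
    refine ⟨fun x => ⟨hAT.1 x, ?_⟩, fun x hx => ?_⟩
    · obtain ⟨Q, hQ, hQx⟩ := hint x
      have h1 : IsIntegral B (ρ x) := ⟨Q.map (Int.castRingHom B), hQ.map _, by
        rw [Polynomial.eval₂_map, show (algebraMap B k).comp (Int.castRingHom B)
          = Int.castRingHom k from RingHom.ext_int _ _, hQx]⟩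
      obtain ⟨b, hb⟩ := IsIntegrallyClosed.isIntegral_iff.mp h1
      exact hb ▸ b.2
    · obtain ⟨hxA, hxm⟩ :=
        (ValuationSubring.mem_nonunits_iff_exists_mem_maximalIdeal (A := A)).mp (hAT.2 x hx)
      rcases eq_or_ne (x : K) 0 with h0 | h0
      · rw [h0]; exact V.nonunits.zero_mem
      rw [ValuationSubring.mem_nonunits_iff]
      by_contra hle
      rw [not_lt] at hle
      have h1 : (x : K)⁻¹ ∈ V := by
        rw [← ValuationSubring.valuation_le_one_iff, map_inv₀,
          inv_le_one₀ (zero_lt_iff.mpr (by simpa using h0))]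
        exact hle
      exact hxm (IsUnit.of_mul_eq_one ⟨(x : K)⁻¹, hVA h1⟩ (Subtype.ext (mul_inv_cancel₀ h0)))
  obtain ⟨b, hb⟩ := IsLocalRing.residue_surjective (R := A) a⁻¹
  obtain ⟨hbA, hbB⟩ := hmin V hVT hVA b.2
  exact hainv (hb ▸ hbB)

end Fermat.Agent.CurveTorsion
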