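import Fermat.Agent.CurveTorsion.Jacobian
import Fermat.Agent.CurveTorsion.Reduction

/-!
# Torsion classes lift from the residue field

The main theorem is `pow_le_natCard_torsion`: over an algebraically closed field of characteristic
zero, if only finitely many classes are killed by `l ^ j`, there are at least `l ^ (2 g j)` of
them.
-/

set_option autoImplicit false

noncomputable section

open scoped Classical

open Polynomial AlgebraicCurve

namespace Fermat.Agent.CurveTorsion

open FF

/-! ### The system and its zeros -/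

section Lift

section Generic

variable {n : ℕ}

/-- Evaluation of the generic system is the system over the ring of values. -/
private theorem eval₂_sysEq {R R' : Type*} [CommRing R] [CommRing R'] (D : CurveData R n)
    {L N d : ℕ} (g : R →+* R') (S : Finset (Fin d)) (e0 : CIdx D.m L) (t0 : Fin d → R)
    (a : Unk D.m S N L e0 → R') (q : (Fin d × Fin N) ⊕ (Fin d × Fin N)) :
    MvPolynomial.eval₂ g a
        (sysEq (D.h.map (mapRingHom MvPolynomial.C))
          (fun i => (D.U i).map (mapRingHom MvPolynomial.C)) S e0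
          (fun i => MvPolynomial.C (t0 i)) MvPolynomial.X q) =
      sysEq (D.h.map (mapRingHom g)) (fun i => (D.U i).map (mapRingHom g)) S e0
        (fun i => g (t0 i)) a q := by
  refine (sysEq_map_comp D.h D.U MvPolynomial.C (MvPolynomial.eval₂Hom g a) g
    (RingHom.ext fun b => MvPolynomial.eval₂Hom_C g a b) S e0 t0 MvPolynomial.X q).trans ?_
  simp only [MvPolynomial.eval₂Hom_X']

/-- The second equation after two changes of base is that of the curve data changed twice. -/
private theorem sum_cpoly_map_map {R₁ R₂ R₃ : Type*} [CommRing R₁] [CommRing R₂] [CommRing R₃]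
    (D : CurveData R₁ n) (f : R₁ →+* R₂) (g : R₂ →+* R₃) {L : ℕ} (c : CIdx D.m L → R₃) :
    ∑ l, C (cpoly c l) * (D.U l).map (mapRingHom (g.comp f)) =
      ((D.map f).map g).gpoly (c : CIdx ((D.map f).map g).m L → R₃) := by
  refine Finset.sum_congr rfl fun l _ => ?_
  simp [CurveData.map, Polynomial.map_map, mapRingHom_comp]

/-- A zero of a square system without nonzero first order deformations has nonzero Jacobian. -/
private theorem det_pderiv_ne_zero {R k D' ι : Type*} [CommRing R] [Field k] [CommRing D']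
    [Algebra k D'] [Fintype ι] [DecidableEq ι] (g : R →+* k) {ε : D'} (hε : ε * ε = 0) (a : ι → k)
    (G : ι → MvPolynomial ι R) (hG : ∀ u, MvPolynomial.eval₂ g a (G u) = 0)
    (hinj : ∀ v : ι → k, (∀ u, MvPolynomial.eval₂ ((algebraMap k D').comp g)
      (fun i => algebraMap k D' (a i) + ε * algebraMap k D' (v i)) (G u) = 0) → v = 0) :
    (Matrix.of fun u w => MvPolynomial.eval₂ g a (MvPolynomial.pderiv u (G w))).det ≠ 0 := by
  intro hdet
  obtain ⟨v, hv0, hvM⟩ := Matrix.exists_vecMul_eq_zero_iff.mpr hdet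
  refine hv0 (hinj v fun w => ?_)
  have h : ∑ u, v u * MvPolynomial.eval₂ g a (MvPolynomial.pderiv u (G w)) = 0 := congrFun hvM w
  rw [eval₂_eps hε g a v (G w), hG, h, map_zero, mul_zero, add_zero]

/-- Vanishing over the dual numbers to order `N` gives the linearised equations. -/
private theorem linearised_of_dual {k D' : Type*} [Field k] [CommRing D'] [Algebra k D'] {ε : D'}
    (hε : ε * ε = 0)
    (hsep : ∀ a b : k, algebraMap k D' a + ε * algebraMap k D' b = 0 → a = 0 ∧ b = 0)
    {L N : ℕ} (D : CurveData k n) {t τ : k} {z η : Fin N → k} {c φ : CIdx D.m L → k}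
    (h1 : X ^ N ∣ ev (algebraMap k D' t + ε * algebraMap k D' τ)
      (incl (zpoly z) + C ε * incl (zpoly η)) (D.h.map (mapRingHom (algebraMap k D'))))
    (h2 : X ^ N ∣ ev (algebraMap k D' t + ε * algebraMap k D' τ)
      (incl (zpoly z) + C ε * incl (zpoly η)) ((D.map (algebraMap k D')).gpoly
        (fun e : CIdx (D.map (algebraMap k D')).m L =>
          algebraMap k D' (c e) + ε * algebraMap k D' (φ e))))
    {ζ : k[X]} (hζ : X ^ N ∣ zpoly z - ζ) :
    X ^ N ∣ C τ * derivative (ev t ζ D.h)
        + (zpoly η - C τ * derivative ζ) * ev t ζ (derivative D.h) ∧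
      X ^ N ∣ C τ * derivative (ev t ζ (D.gpoly c))
        + (zpoly η - C τ * derivative ζ) * ev t ζ (derivative (D.gpoly c))
        + ev t ζ (D.gpoly φ) := by
  have hcong : (X : D'[X]) ^ N ∣ (incl (zpoly z) + C ε * incl (zpoly η))
      - (incl ζ + C ε * incl (zpoly η)) := by
    rw [add_sub_add_right_eq_sub, ← map_sub]
    simpa [incl] using X_pow_dvd_map (algebraMap k D') hζ
  rw [dvd_ev_congr le_rfl hcong] at h1 h2
  rw [ev_dual hε] at h1
  rw [ev_gpoly_dual hε] at h2
  exact ⟨X_pow_dvd_incl_add hsep h1, X_pow_dvd_incl_add hsep h2⟩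

/-- There are as many unknowns as equations when the moving points number the genus. -/
private theorem card_unk_eq {k F : Type*} [Field k] [Field F] [Algebra k F]
    [IsFunctionField k F] [IsAlgClosed k] {D : CurveData k n} {x θ : F} (H : Realizes D x θ)
    {N M : ℕ} (hm : ∀ i, D.m i ≤ N * M) {S : Finset (Fin (M * n))} (hSc : S.card = genusFF k F)
    (e0 : CIdx D.m (N * M)) :
    Fintype.card (Unk D.m S N (N * M) e0) =
      Fintype.card ((Fin (M * n) × Fin N) ⊕ (Fin (M * n) × Fin N)) := by
  have h1 := H.card_CIdx (M := N * M) hm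
  have h2 : Fintype.card {e : CIdx D.m (N * M) // e ≠ e0}
      = Fintype.card (CIdx D.m (N * M)) - 1 := Set.card_ne_eq e0
  have h3 : 0 < Fintype.card (CIdx D.m (N * M)) := Fintype.card_pos_iff.mpr ⟨e0⟩
  simp only [Unk, Fintype.card_sum, Fintype.card_prod, Fintype.card_fin, Fintype.card_coe, hSc]
  rw [h2]
  have h4 : ((N * M : ℕ) : ℤ) * n = ((M * n * N : ℕ) : ℤ) := by push_cast; ring
  rw [h4] at h1
  omega

end Generic

universe u

variable {K : Type u} [Field K] [IsAlgClosed K] (A : ValuationSubring K) {n : ℕ}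

theorem exists_lift_data {DA : CurveData A n}
    (hDA : (DA.map (IsLocalRing.residue A)).IsValid) {F : Type*} [Field F]
    [Algebra (IsLocalRing.ResidueField A) F] [IsFunctionField (IsLocalRing.ResidueField A) F]
    {x θ : F} (H : Realizes (DA.map (IsLocalRing.residue A)) x θ) {N M : ℕ} (hN : 0 < N)
    (hNk : (N : IsLocalRing.ResidueField A) ≠ 0) (hm : ∀ i, DA.m i ≤ N * M)
    {tk : Fin (M * n) → IsLocalRing.ResidueField A}
    {zk : Fin (M * n) → Fin N → IsLocalRing.ResidueField A}
    {ck : CIdx (DA.map (IsLocalRing.residue A)).m (N * M) → IsLocalRing.ResidueField A}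
    {e0 : CIdx DA.m (N * M)} (hg : GoodPts (DA.map (IsLocalRing.residue A)) tk zk)
    (he0 : ck e0 = 1)
    (hv : ∀ i, (DA.map (IsLocalRing.residue A)).Van ck N (tk i) (zk i))
    {S : Finset (Fin (M * n))} (hSc : S.card = genusFF (IsLocalRing.ResidueField A) F)
    (hS : ell (IsLocalRing.ResidueField A)
      (∑ i ∈ S, Finsupp.single (seriesPlace x θ (tk i) (zk i)) (1 : ℤ)) = 1) :
    ∃ (t : Fin (M * n) → A) (z : Fin (M * n) → Fin N → A) (c : CIdx DA.m (N * M) → A),
      c e0 = 1 ∧ (∀ i, DA.IsPt (t i) (z i) ∧ DA.Van c N (t i) (z i)) ∧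
      (∀ i, IsLocalRing.residue A (t i) = tk i) ∧
      (∀ i j, IsLocalRing.residue A (z i j) = zk i j) := by
  choose t0 ht0 using fun i => IsLocalRing.residue_surjective (tk i)
  let ι := Unk DA.m S N (N * M) e0
  let eq : ι ≃ (Fin (M * n) × Fin N) ⊕ (Fin (M * n) × Fin N) :=
    Fintype.equivOfCardEq (card_unk_eq H hm hSc e0)
  let res := IsLocalRing.residue A
  -- the reduced solution
  let a0 : ι → IsLocalRing.ResidueField A :=
    Sum.elim (fun i => tk i) (Sum.elim (fun p => zk p.1 p.2) fun e => ck e.1)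
  let G : ι → MvPolynomial ι A := fun u =>
    sysEq (DA.h.map (mapRingHom MvPolynomial.C))
      (fun i => (DA.U i).map (mapRingHom MvPolynomial.C)) S e0
      (fun i => MvPolynomial.C (t0 i)) MvPolynomial.X (eq u)
  have ht : ∀ i, tOf S (fun i => res (t0 i)) a0 i = tk i := fun i => by
    unfold tOf; split_ifs with h
    · rfl
    · exact ht0 i
  have hz : ∀ i, zOf S a0 i = zk i := fun i => rfl
  have hc : ∀ e : CIdx DA.m (N * M), cOf S a0 e = ck e := fun e => by
    by_cases h : e = e0
    · rw [cOf, dif_pos h, h]; exact he0.symm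
    · rw [cOf, dif_neg h]; rfl
  have hG : ∀ u, MvPolynomial.eval₂ res a0 (G u) = 0 := fun u => by
    refine (eval₂_sysEq DA res S e0 t0 a0 (eq u)).trans
      ((sysEq_eq_zero_iff _ _ S e0 _ _).mpr (fun i => ?_) (eq u))
    rw [show cOf S a0 = (ck : CIdx DA.m (N * M) → _) from funext hc, ht, hz]
    exact ⟨hg.isPt i, hv i⟩
  have hJ : (Matrix.of fun u w =>
      MvPolynomial.eval₂ res a0 (MvPolynomial.pderiv u (G w))).det ≠ 0 := by
    obtain ⟨D', _, _, ε, hε, hsep⟩ := exists_dual (IsLocalRing.ResidueField A)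
    set alg := algebraMap (IsLocalRing.ResidueField A) D'
    refine det_pderiv_ne_zero res hε a0 G hG fun v hdef => ?_
    -- a first order deformation is killed by the linearised system
    let τ : Fin (M * n) → IsLocalRing.ResidueField A := fun i =>
      if h : i ∈ S then v (Sum.inl ⟨i, h⟩) else 0
    let η : Fin (M * n) → Fin N → IsLocalRing.ResidueField A :=
      fun i j => v (Sum.inr (Sum.inl (i, j)))
    let φ : CIdx DA.m (N * M) → IsLocalRing.ResidueField A := fun e =>
      if h : e = e0 then 0 else v (Sum.inr (Sum.inr ⟨e, h⟩))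
    let a1 : ι → D' := fun u => alg (a0 u) + ε * alg (v u)
    have hzero := (sysEq_eq_zero_iff (DA.h.map (mapRingHom (alg.comp res)))
      (fun i => (DA.U i).map (mapRingHom (alg.comp res))) S e0
      (fun i => alg (res (t0 i))) a1).mp fun q => by
        have := (eval₂_sysEq DA (alg.comp res) S e0 t0 a1 (eq (eq.symm q))).symm.trans
          (hdef (eq.symm q))
        rwa [Equiv.apply_symm_apply] at this
    have htD : ∀ i, tOf S (fun i => alg (res (t0 i))) a1 i = alg (tk i) + ε * alg (τ i) :=
      fun i => by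
        unfold tOf; simp only [τ, a1]; split_ifs with h
        · rfl
        · rw [ht0, map_zero, mul_zero, add_zero]
    have hcD : ∀ e : CIdx DA.m (N * M), cOf S a1 e = alg (ck e) + ε * alg (φ e) := fun e => by
      by_cases h : e = e0
      · simp only [cOf, φ, dif_pos h]
        rw [h, he0, map_one, map_zero, mul_zero, add_zero]
      · simp only [cOf, φ, dif_neg h]
        rfl
    obtain ⟨h1, h2, h3⟩ := H.kernel_eq_zero hDA hN hNk hg rfl he0 hv hS (τ := τ)
      (fun i hi => dif_neg hi) (η := η) (φ := φ) (dif_pos rfl) (fun i ζ hζ => by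
        obtain ⟨h1, h2⟩ := hzero i
        rw [htD, show zpoly (zOf S a1 i) = incl (zpoly (zk i)) + C ε * incl (zpoly (η i)) from
          zpoly_incl ε (zk i) (η i)] at h1 h2
        rw [sum_cpoly_map_map DA res alg, show cOf S a1 = _ from funext hcD] at h2
        exact linearised_of_dual hε hsep (DA.map res) (by
          simpa [CurveData.map, Polynomial.map_map, mapRingHom_comp] using h1) h2 hζ)
    refine funext fun u => ?_
    rcases u with ⟨i, hi⟩ | ⟨i, j⟩ | ⟨e, he⟩
    · simpa [τ, dif_pos hi] using h1 i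
    · exact congrFun (h2 i) j
    · exact (dif_neg he).symm.trans (congrFun h3 e)
  obtain ⟨a, ha, hres⟩ := exists_lift A G a0 hG hJ
  have hsol : ∀ q, sysEq DA.h DA.U S e0 t0 a q = 0 := fun q => by
    have h2 := (eval₂_sysEq DA (RingHom.id A) S e0 t0 a (eq (eq.symm q))).symm.trans
      (ha (eq.symm q))
    simpa only [mapRingHom_id, Polynomial.map_id, Equiv.apply_symm_apply, RingHom.id_apply] using h2
  refine ⟨tOf S t0 a, zOf S a, cOf S a, dif_pos rfl,
    (sysEq_eq_zero_iff DA.h DA.U S e0 t0 a).mp hsol, fun i => ?_, fun i j => hres _⟩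
  · unfold tOf
    split_ifs with h
    · exact hres _
    · exact ht0 i

omit [IsAlgClosed K] in
/-- A nonzero vector can be scaled to be integral and primitive. -/
theorem exists_primitive {ι : Type*} [Fintype ι] {c : ι → K} (hc : c ≠ 0) :
    ∃ (b : K) (cA : ι → A), (∀ e, (cA e : K) = b * c e) ∧ ∃ e, cA e = 1 := by
  obtain ⟨i, hi⟩ := Function.ne_iff.mp hc
  obtain ⟨e, -, he⟩ := Finset.exists_max_image Finset.univ (fun e => A.valuation (c e))
    ⟨i, Finset.mem_univ i⟩
  have hce : c e ≠ 0 := fun h => hi (by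
    have := he i (Finset.mem_univ i)
    rw [h, map_zero, le_zero_iff, map_eq_zero] at this
    exact this)
  have hmem : ∀ l, (c e)⁻¹ * c l ∈ A := fun l => by
    rw [← A.valuation_le_one_iff, map_mul, map_inv₀]
    exact (inv_mul_le_one₀ (pos_iff_ne_zero.mpr ((map_ne_zero A.valuation).mpr hce))).mpr
      (he l (Finset.mem_univ l))
  exact ⟨(c e)⁻¹, fun l => ⟨_, hmem l⟩, fun l => rfl, e, Subtype.ext (inv_mul_cancel₀ hce)⟩

end Lift

/-! ### Lifts of representatives and the bound -/

/-- A representative of an `N`-torsion class as in `Rep`, to be used over the residue field, with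
a set `S` of `g` of its points, spanning a non-special divisor, which move in the lift. -/
structure RepLift {K F : Type*} [Field K] [Field F] [Algebra K F] [IsFunctionField K F]
    [IsAlgClosed K] {n : ℕ} (D : CurveData K n) (x θ : F) (M N : ℕ) where
  /-- The coordinates. -/
  t : Fin (M * n) → K
  /-- The series. -/
  z : Fin (M * n) → Fin N → K
  /-- The coefficients. -/
  c : CIdx D.m (N * M) → K
  /-- The normalised index. -/
  e : CIdx D.m (N * M)
  /-- The moving points. -/
  S : Finset (Fin (M * n))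
  good : GoodPts D t z
  one : c e = 1
  van : ∀ i, D.Van c N (t i) (z i)
  cardS : S.card = genusFF K F
  ellS : ell K (∑ i ∈ S, Finsupp.single (seriesPlace x θ (t i) (z i)) (1 : ℤ)) = 1

theorem exists_repLifts {K F : Type*} [Field K] [Field F] [Algebra K F] [IsFunctionField K F]
    [IsAlgClosed K] {n : ℕ} {D : CurveData K n} {x θ : F} (H : Realizes D x θ) (hD : D.IsValid)
    {N : ℕ} (hN : 0 < N) {M : ℕ} (hM : 2 * (genusFF K F : ℤ) + 2 ≤ (M : ℤ) * n)
    (P₀ : Place K F) (C' : Finset (Pic0.torsion K F N)) :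
    ∃ R : Pic0.torsion K F N → RepLift D x θ M N,
      (∀ c ∈ C', ptsClass P₀ x θ M (R c).t (R c).z = (c : Pic0 K F)) ∧
      ∀ c ∈ C', ∀ c' ∈ C', c ≠ c' → ∀ i i', (R c).t i ≠ (R c').t i' := by
  refine exists_choice_pairwise_ne (fun (c : Pic0.torsion K F N) (r : RepLift D x θ M N) =>
    ptsClass P₀ x θ M r.t r.z = (c : Pic0 K F)) (fun r i => r.t i) (fun cl T => ?_) C'
  obtain ⟨t, z, c, e, S, hg, hT, h1, hv, hcl, hS, hS'⟩ := H.exists_pts hD hN M hM P₀ cl cl.2 T
  exact ⟨⟨t, z, c, e, S, hg, h1, hv, hS, hS'⟩, hcl, hT⟩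

universe u

variable {K : Type u} [Field K] [IsAlgClosed K] [CharZero K]

theorem pow_le_natCard_torsion {n : ℕ} {F : Type*} [Field F] [Algebra K F] [IsFunctionField K F]
    {D : CurveData K n} {x θ : F} (H : Realizes D x θ) (hD : D.IsValid) (l : ℕ) [hl : Fact l.Prime]
    (j : ℕ) [Finite (Pic0.torsion K F (l ^ j))] :
    l ^ (2 * genusFF K F * j) ≤ Nat.card (Pic0.torsion K F (l ^ j)) := by
  set N := l ^ j
  have hN : 0 < N := pow_pos hl.out.pos j
  obtain ⟨A, -, hlk, DA, hDA, hmap, Fb, _, _, _, xb, θb, Hb, hcard⟩ := exists_reduction hD l j ∅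
  subst hmap
  have hg : genusFF (IsLocalRing.ResidueField A) Fb = genusFF K F := by
    have h1 := Hb.sum_m
    have h2 := H.sum_m
    simp only [CurveData.map] at h1 h2
    omega
  have hNk : (N : IsLocalRing.ResidueField A) ≠ 0 := by
    simp only [N, Nat.cast_pow]
    exact pow_ne_zero _ hlk
  -- `A` has residue characteristic other than `l`, and the torsion of the reduction has
  -- `l ^ (2 g j)` points. Lift their representing divisors to points over `K`.
  set M := 2 * genusFF K F + 2 + ∑ i, DA.m i
  have hn : 0 < n := lt_of_le_of_lt (Nat.zero_le _) DA.i0.2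
  have hM : 2 * (genusFF (IsLocalRing.ResidueField A) Fb : ℤ) + 2 ≤ (M : ℤ) * n := by
    have h2 : (2 * genusFF K F + 2 : ℤ) ≤ M := by
      have : 2 * genusFF K F + 2 ≤ M := Nat.le_add_right _ _
      exact_mod_cast this
    rw [hg]
    nlinarith
  have hm : ∀ i, DA.m i ≤ N * M := fun i =>
    ((Finset.single_le_sum (f := DA.m) (fun _ _ => Nat.zero_le _) (Finset.mem_univ i)).trans
      (Nat.le_add_left _ _)).trans (Nat.le_mul_of_pos_left M hN)
  obtain ⟨Q₀⟩ := FF.exists_place (K := IsLocalRing.ResidueField A) (F := Fb)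
  obtain ⟨P₀⟩ := FF.exists_place (K := K) (F := F)
  have hfin : Finite (Pic0.torsion (IsLocalRing.ResidueField A) Fb N) :=
    Nat.finite_of_card_ne_zero (by rw [hcard]; exact pow_ne_zero _ hl.out.ne_zero)
  have := Fintype.ofFinite (Pic0.torsion (IsLocalRing.ResidueField A) Fb N)
  have hDk := hDA.map (IsLocalRing.residue A)
  obtain ⟨R, hR, hdisj⟩ := exists_repLifts Hb hDk hN hM Q₀ Finset.univ
  have hlift := fun a => exists_lift_data A hDk Hb hN hNk hm (R a).good (R a).one (R a).van
    (R a).cardS (R a).ellS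
  choose tA zA cA hone hpt ht hz using hlift
  have hgood : ∀ a, GoodPts (DA.map A.subtype) (fun i => (tA a i : K))
      (fun i j => (zA a i j : K)) := fun a => by
    refine ⟨fun i h0 => (R a).good.Δ_ne i ?_, fun i => (hpt a i).1.map A.subtype, fun i i' h => ?_⟩
    · have h1 : (DA.map A.subtype).Δ.eval (tA a i : K) = A.subtype (DA.Δ.eval (tA a i)) :=
        eval_map_apply (f := A.subtype) (p := DA.Δ) (tA a i)
      rw [h1, ← map_zero A.subtype] at h0
      have h2 : (DA.map (IsLocalRing.residue A)).Δ.eval (IsLocalRing.residue A (tA a i))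
          = IsLocalRing.residue A (DA.Δ.eval (tA a i)) := eval_map_apply ..
      rw [← ht a i, h2, A.subtype_injective h0, map_zero]
    · obtain ⟨e1, e2⟩ := Prod.ext_iff.mp h
      simp only [coeff_zero_zpoly _ hN] at e1 e2
      refine (R a).good.inj (Prod.ext ?_ ?_)
      · simp only [← ht a, show tA a i = tA a i' from Subtype.ext e1]
      · simp only [coeff_zero_zpoly _ hN, ← hz a,
          show zA a i ⟨0, hN⟩ = zA a i' ⟨0, hN⟩ from Subtype.ext e2]
  have hcne : ∀ a, (fun e : CIdx (DA.map A.subtype).m (N * M) => (cA a e : K)) ≠ 0 := fun a h => by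
    have h1 := congrFun h ((R a).e : CIdx DA.m (N * M))
    rw [hone a] at h1
    exact one_ne_zero (α := K) h1
  have hvan : ∀ a i, (DA.map A.subtype).Van
      (fun e : CIdx (DA.map A.subtype).m (N * M) => (cA a e : K)) N (tA a i : K)
      (fun j => (zA a i j : K)) := fun a i => (hpt a i).2.map A.subtype
  let cl : Pic0.torsion (IsLocalRing.ResidueField A) Fb N → Pic0.torsion K F N := fun a =>
    ⟨ptsClass P₀ x θ M (fun i => (tA a i : K)) (fun i j => (zA a i j : K)),
      H.ptsClass_torsion hD hN (hgood a) (Fintype.card_fin _) (hcne a) (hvan a) P₀⟩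
  -- If two lifted classes agree, the function showing it, made primitive, reduces to one showing
  -- that the classes below agree.
  have hinj : Function.Injective cl := by
    intro a b hab
    by_contra hne
    have hdis : ∀ i i', ((R a).t i, (zpoly ((R a).z i)).coeff 0)
        ≠ ((R b).t i', (zpoly ((R b).z i')).coeff 0) := fun i i' h =>
      hdisj a (Finset.mem_univ a) b (Finset.mem_univ b) hne i i' (Prod.ext_iff.mp h).1
    have hdisK : ∀ i i', ((tA a i : K), (zpoly fun j => (zA a i j : K)).coeff 0)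
        ≠ ((tA b i' : K), (zpoly fun j => (zA b i' j : K)).coeff 0) := fun i i' h => by
      refine hdisj a (Finset.mem_univ a) b (Finset.mem_univ b) hne i i' ?_
      rw [← ht a, ← ht b, show tA a i = tA b i' from Subtype.ext (Prod.ext_iff.mp h).1]
    obtain ⟨w, hw, hw1, hw2⟩ := (H.ptsClass_eq_iff hD hN (hgood a) (hgood b) hdisK
      (Fintype.card_fin _) (Fintype.card_fin _) (hcne b) (hvan b) P₀).mp (congrArg Subtype.val hab)
    obtain ⟨s, wA, hwA, e, he⟩ := exists_primitive A hw
    have hws : (fun e : CIdx (DA.map A.subtype).m (N * M) => (wA e : K)) = s • w :=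
      funext fun e => hwA e
    have hred : ∀ (jj : ℕ) c i, (DA.map A.subtype).Van w jj (tA c i : K) (fun l => (zA c i l : K)) →
        (DA.map (IsLocalRing.residue A)).Van
          (fun e : CIdx (DA.map (IsLocalRing.residue A)).m (N * M) => IsLocalRing.residue A (wA e))
          jj ((R c).t i) ((R c).z i) := by
      intro jj c i h
      have h1 : (DA.map A.subtype).Van
          (fun e : CIdx (DA.map A.subtype).m (N * M) => (wA e : K)) jj (tA c i : K)
          (fun l => (zA c i l : K)) := hws ▸ h.smul s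
      have h3 : X ^ jj ∣ ev (tA c i) (zpoly (zA c i)) (DA.gpoly (wA : CIdx DA.m (N * M) → A)) := by
        rw [X_pow_dvd_iff]
        intro l hl'
        apply A.subtype_injective
        rw [map_zero, ← coeff_map, ev_map, map_zpoly, CurveData.map_gpoly]
        exact X_pow_dvd_iff.mp h1 l hl'
      have h4 := CurveData.Van.map (IsLocalRing.residue A)
        (c := (wA : CIdx DA.m (N * M) → A)) h3
      simp only [ht, hz] at h4
      exact h4
    refine hne (Subtype.ext ?_)
    rw [← hR a (Finset.mem_univ a), ← hR b (Finset.mem_univ b)]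
    refine (Hb.ptsClass_eq_iff hDk hN (R a).good (R b).good hdis (Fintype.card_fin _)
      (Fintype.card_fin _) (fun h => by simpa [h] using (R b).one) (R b).van Q₀).mpr
      ⟨_, fun h => ?_, fun i => hred 1 a i (hw1 i), fun i => hred (N - 1) b i (hw2 i)⟩
    have h5 := congrFun h e
    exact one_ne_zero (((map_one (IsLocalRing.residue A)).symm.trans
      (congrArg (IsLocalRing.residue A) he.symm)).trans h5)
  have h := Nat.card_le_card_of_injective cl hinj
  rw [hcard, hg] at h
  exact h

end Fermat.Agent.CurveTorsion
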