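import Fermat.Agent.CurveTorsion.UpperBound
import Fermat.Agent.CurveTorsion.LowerBound
import Fermat.Agent.CurveTorsion.CurveModel
import Fermat.Agent.FF.Kaehler

/-!
# The prime power torsion of the degree zero class group in characteristic zero

`natCard_torsion_pow_of_charZero`: a function field of genus `g` over an algebraically closed field
of characteristic zero has exactly `l ^ (2 g j)` divisor classes of degree zero killed by `l ^ j`.
`FromIsCurveOver` connects this to the prelude's `IsCurveOver`, as used in `S27`; `LT/Lower` uses
it too. No Jacobian variety and no topology is used; the count is reduced to finite fields: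

1. Model (`PlaneModel`, `ExistsData`, `CurveModel`): the field is given by finitely many elements of
   the constant field, a `CurveData`: a plane equation, a reduced basis of the regular functions
   with its table, and certificates that this order is maximal. `Model` goes back from valid data to
   a function field.
2. Reduction (`Spread`, `ValRing`, `Reduction`): valid data descends to a valuation ring containing
   any prescribed finite set, with residue field algebraic over `𝔽_p`, `p ≠ l`, and stays valid
   over the residue field, so the reduced curve has the same genus.
3. Count over `𝔽̄_p` (`Frob`, `EffDiv`, `Classes`, `Zeta`, `Norm`, `Growth`, `TorsionCount`): the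
   numbers of classes fixed by powers of Frobenius are the values `∏ (1 - αᵢ ^ r)` coming from the
   zeta function, and their `l`-adic growth gives `l ^ (2 g j)`.
4. Comparison (`Level`, `Jacobian`): torsion classes are described by series points and coefficient
   vectors. Any finitely many stay distinct after reduction for a suitable valuation ring
   (`UpperBound`), which gives finiteness and `≤`; those of the reduced curve lift by multivariate
   Hensel (`LowerBound`), which gives `≥`.

## References

* H. Stichtenoth, *Algebraic Function Fields and Codes*, chapters 1 and 5.
-/

set_option autoImplicit false

noncomputable section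

open AlgebraicCurve

namespace Fermat.Agent.CurveTorsion

open FF

/-- In characteristic zero a function field of genus `g` has `l ^ (2 * g * j)` divisor classes of
degree zero killed by `l ^ j`. -/
theorem natCard_torsion_pow_of_charZero (K F : Type*) [Field K] [Field F] [Algebra K F]
    [IsAlgClosed K] [CharZero K] [IsFunctionField K F] (l : ℕ) [Fact l.Prime] (j : ℕ) :
    Nat.card (Pic0.torsion K F (l ^ j)) = l ^ (2 * genusFF K F * j) := by
  -- Step 1: a model `D` of the field.
  obtain ⟨x, hx, -⟩ := IsFunctionField.exists_finite (K := K) (F := F)
  have := isSeparable_adjoin (K := K) hx
  obtain ⟨D, θ, hD, H⟩ := exists_curveData (K := K) hx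
  set N := l ^ j
  set B := l ^ (2 * genusFF K F * j)
  -- Steps 2-4, upper bound: every finite set of torsion classes has at most `B` elements.
  have hup : ∀ s : Finset (Pic0.torsion K F N), s.card ≤ B := fun s => by
    have := card_torsion_le H hD l j (s.map (Function.Embedding.subtype _)) fun c hc => by
      obtain ⟨d, -, rfl⟩ := Finset.mem_map.mp hc
      exact d.2
    rwa [Finset.card_map] at this
  have hfin : Finite (Pic0.torsion K F N) := by
    by_contra hinf
    rw [not_finite_iff_infinite] at hinf
    obtain ⟨s, hs⟩ := Infinite.exists_subset_card_eq (Pic0.torsion K F N) (B + 1)
    have := hup s
    omega
  have := Fintype.ofFinite (Pic0.torsion K F N)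
  -- Steps 2-4, lower bound.
  refine le_antisymm ?_ (pow_le_natCard_torsion H hD l j)
  rw [Nat.card_eq_fintype_card]
  exact hup Finset.univ

end Fermat.Agent.CurveTorsion
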