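import Fermat.Agent.CurveTorsion.TwoCharts
import Mathlib.Algebra.Polynomial.Eval.Degree
import Mathlib.Algebra.Polynomial.Bivariate
import Mathlib.FieldTheory.Separable
import Mathlib.RingTheory.AdjoinRoot

/-!
# Curve data: a plane equation, a basis with weights, a table and fibre certificates

`CurveData.IsValid` consists of identities only, so it passes along ring maps
(`CurveData.IsValid.map`); over an algebraically closed field it gives fibre data at every point
(`CurveData.exists_fibreData`).
-/

set_option autoImplicit false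

noncomputable section

open scoped Classical

open Polynomial
open scoped Polynomial.Bivariate

namespace Fermat.Agent.CurveTorsion

/-! ### Certificates -/

section Cert

variable {R : Type*} [CommRing R] {n : ℕ}

/-- The first order products of constant vectors. -/
def prodPoly (T : Fin n → Fin n → Fin n → R[X]) (v w : Fin n → R) : Fin n → R[X] :=
  tableMul T (fun i => C (v i)) (fun i => C (w i))

/-- A certificate of maximality at `c`, consisting of identities only. -/
structure Cert (T : Fin n → Fin n → Fin n → R[X]) (i0 : Fin n) (c : R) where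
  /-- Number of characters. -/
  e : ℕ
  /-- Size of the radical. -/
  s : ℕ
  /-- Characters. -/
  χ : Fin e → Fin n → R
  /-- Radical. -/
  r : Fin s → Fin n → R
  /-- Splitting, radical part. -/
  α : Fin n → Fin s → R
  /-- Splitting, character part. -/
  β : Fin n → Fin e → R
  /-- Left inverse, constant part. -/
  g0 : Fin s → Fin s → Fin n → R
  /-- Left inverse, first order part. -/
  g1 : Fin s → Fin s → Fin e → R
  χ_one : ∀ j, χ j i0 = 1
  χ_mul : ∀ j a b, ∑ l, χ j l * (T a b l).eval c = χ j a * χ j b
  χ_r : ∀ j a, ∑ l, χ j l * r a l = 0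
  split : ∀ i l, (if i = l then (1 : R) else 0) = ∑ a, α l a * r a i + ∑ j, χ j l * β i j
  nil : ∀ a, ∃ N, 0 < N ∧
    tablePow (fun i j l => (T i j l).eval c) (fun i => if i = i0 then 1 else 0) (r a) N = 0
  inj : ∀ a a', (if a = a' then (1 : R) else 0) =
    ∑ b, ∑ l, g0 a b l * (prodPoly T (r a') (r b) l).eval c +
    ∑ b, ∑ j, g1 a b j * ∑ l, χ j l * (derivative (prodPoly T (r a') (r b) l)).eval c

/-- Transport of a certificate. -/
def Cert.map {S : Type*} [CommRing S] (f : R →+* S) {T : Fin n → Fin n → Fin n → R[X]}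
    {i0 : Fin n} {c : R} (D : Cert T i0 c) :
    Cert (fun a b l => (T a b l).map f) i0 (f c) where
  e := D.e
  s := D.s
  χ j l := f (D.χ j l)
  r a l := f (D.r a l)
  α l a := f (D.α l a)
  β i j := f (D.β i j)
  g0 a b l := f (D.g0 a b l)
  g1 a b j := f (D.g1 a b j)
  χ_one j := by rw [D.χ_one, map_one]
  χ_mul j a b := by
    simpa [map_sum, map_mul, eval_map_apply] using congrArg f (D.χ_mul j a b)
  χ_r j a := by simpa [map_sum, map_mul] using congrArg f (D.χ_r j a)
  split i l := by
    simpa [map_sum, map_mul, map_add, apply_ite f] using congrArg f (D.split i l)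
  nil a := by
    obtain ⟨N, hN, h⟩ := D.nil a
    refine ⟨N, hN, funext fun k => ?_⟩
    have h1 := congrArg f (congrFun h k)
    rw [map_tablePow, Pi.zero_apply, map_zero] at h1
    simpa [apply_ite f, eval_map_apply] using h1
  inj a a' := by
    have hP : ∀ (v w : Fin n → R) (l : Fin n),
        prodPoly (fun a b l => (T a b l).map f) (fun i => f (v i)) (fun i => f (w i)) l
          = (prodPoly T v w l).map f := fun v w l => by
      have := map_tableMul (mapRingHom f) T (fun i => C (v i)) (fun i => C (w i)) l
      simpa [prodPoly] using this.symm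
    simpa [map_sum, map_mul, map_add, apply_ite f, hP, derivative_map, eval_map_apply] using
      congrArg f (D.inj a a')

theorem prodPoly_sum_left {ι : Type*} (s : Finset ι) (T : Fin n → Fin n → Fin n → R[X])
    (a : ι → R) (v : ι → Fin n → R) (w : Fin n → R) (l : Fin n) :
    tableMul T (fun i => C (∑ x ∈ s, a x * v x i)) (fun i => C (w i)) l
      = ∑ x ∈ s, C (a x) * prodPoly T (v x) w l := by
  simp only [tableMul, prodPoly, map_sum, map_mul, Finset.sum_mul, Finset.mul_sum]
  symm
  rw [Finset.sum_comm]
  refine Finset.sum_congr rfl fun i _ => ?_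
  rw [Finset.sum_comm]
  exact Finset.sum_congr rfl fun j _ => Finset.sum_congr rfl fun x _ => by ring

/-- A vector killed by the characters is a combination of the radical. -/
private theorem Cert.eq_sum_radical {T : Fin n → Fin n → Fin n → R[X]} {i0 : Fin n} {c : R}
    (D : Cert T i0 c) {v : Fin n → R} (hv : ∀ j, ∑ l, D.χ j l * v l = 0) :
    v = ∑ a, (∑ l, v l * D.α l a) • D.r a := by
  funext i
  have hexp : v i = ∑ l, v l * (if i = l then (1 : R) else 0) := by simp
  rw [hexp]
  simp only [D.split, mul_add, Finset.sum_add_distrib, Finset.sum_apply, Pi.smul_apply,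
    smul_eq_mul, Finset.mul_sum, Finset.sum_mul]
  rw [Finset.sum_comm]
  have hchar : ∑ l, ∑ j, v l * (D.χ j l * D.β i j) = 0 := by
    rw [Finset.sum_comm]
    refine Finset.sum_eq_zero fun j _ => ?_
    calc ∑ l, v l * (D.χ j l * D.β i j) = (∑ l, D.χ j l * v l) * D.β i j := by
          rw [Finset.sum_mul]; exact Finset.sum_congr rfl fun l _ => by ring
      _ = 0 := by rw [show ∑ l, D.χ j l * v l = 0 from hv j, zero_mul]
  rw [hchar, add_zero]
  exact Finset.sum_congr rfl fun a _ => Finset.sum_congr rfl fun l _ => by ring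

/-- A combination of the radical is `0` if its products with the radical vanish to first order. -/
private theorem Cert.eq_zero_of_products {T : Fin n → Fin n → Fin n → R[X]} {i0 : Fin n} {c : R}
    (D : Cert T i0 c) {a : Fin D.s → R}
    (hl : ∀ b l, ∑ a', a a' * (prodPoly T (D.r a') (D.r b) l).eval c = 0)
    (hj : ∀ b j, ∑ a', a a' *
      ∑ l, D.χ j l * (derivative (prodPoly T (D.r a') (D.r b) l)).eval c = 0) : a = 0 := by
  funext x
  -- expand `a x` by the left inverse of the two products
  have hexp : a x = ∑ a', a a' * (if x = a' then (1 : R) else 0) := by simp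
  rw [hexp, Pi.zero_apply]
  simp only [D.inj, mul_add, Finset.sum_add_distrib, Finset.mul_sum]
  have e1 : ∑ a', ∑ b, ∑ l, a a' * (D.g0 x b l * (prodPoly T (D.r a') (D.r b) l).eval c)
      = 0 := by
    rw [Finset.sum_comm]
    refine Finset.sum_eq_zero fun b _ => ?_
    rw [Finset.sum_comm]
    refine Finset.sum_eq_zero fun l _ => ?_
    calc ∑ a', a a' * (D.g0 x b l * (prodPoly T (D.r a') (D.r b) l).eval c)
        = D.g0 x b l * ∑ a', a a' * (prodPoly T (D.r a') (D.r b) l).eval c := by
          rw [Finset.mul_sum]; exact Finset.sum_congr rfl fun a' _ => by ring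
      _ = 0 := by rw [hl, mul_zero]
  have e2 : ∑ a', ∑ b, ∑ j, ∑ l, a a' * (D.g1 x b j *
      (D.χ j l * (derivative (prodPoly T (D.r a') (D.r b) l)).eval c)) = 0 := by
    rw [Finset.sum_comm]
    refine Finset.sum_eq_zero fun b _ => ?_
    rw [Finset.sum_comm]
    refine Finset.sum_eq_zero fun j _ => ?_
    calc ∑ a', ∑ l, a a' * (D.g1 x b j *
          (D.χ j l * (derivative (prodPoly T (D.r a') (D.r b) l)).eval c))
        = D.g1 x b j * ∑ a', a a' *
            ∑ l, D.χ j l * (derivative (prodPoly T (D.r a') (D.r b) l)).eval c := by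
          simp only [Finset.mul_sum]
          exact Finset.sum_congr rfl fun a' _ => Finset.sum_congr rfl fun l _ => by ring
      _ = 0 := by rw [hj, mul_zero]
  rw [e1, e2, add_zero]

/-- A certificate gives fibre data over a field. -/
def Cert.fibreData {k : Type*} [Field k] {T : Fin n → Fin n → Fin n → k[X]} {i0 : Fin n} {c : k}
    (D : Cert T i0 c) : FibreData T i0 c where
  e := D.e
  s := D.s
  χ j :=
    { toFun := fun v => ∑ l, D.χ j l * v l
      map_add' := fun v w => by simp [mul_add, Finset.sum_add_distrib]
      map_smul' := fun a v => by simp [Finset.mul_sum, mul_left_comm] }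
  r := D.r
  χ_one j := by simp [Pi.single_apply, D.χ_one]
  χ_mul j a b := by simpa [Pi.single_apply] using D.χ_mul j a b
  χ_r := D.χ_r
  span_r v hv := ⟨fun a => ∑ l, v l * D.α l a, D.eq_sum_radical hv⟩
  nil a := by
    obtain ⟨N, hN, h⟩ := D.nil a
    refine ⟨N, hN, ?_⟩
    rw [show (Pi.single i0 1 : Fin n → k) = fun i => if i = i0 then 1 else 0 from
      funext fun i => by rw [Pi.single_apply]]
    exact h
  inj a ha := by
    refine D.eq_zero_of_products (fun b l => ?_) fun b j => ?_
    · have hprod := congrFun (ha b).1 l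
      simp only [prodPoly_sum_left, eval_finsetSum, eval_mul, eval_C, Pi.zero_apply] at hprod
      exact hprod
    · have hder := (ha b).2 j
      simp only [prodPoly_sum_left, LinearMap.coe_mk, AddHom.coe_mk, derivative_sum,
        derivative_C_mul, eval_finsetSum, eval_mul, eval_C, Finset.mul_sum] at hder
      rw [Finset.sum_comm] at hder
      simp only [Finset.mul_sum]
      exact (Finset.sum_congr rfl fun a' _ => Finset.sum_congr rfl fun l _ => by ring).trans hder

end Cert

/-! ### Curve data -/

/-- Raw data of a plane curve `h(x, θ) = 0` with `n` functions `uᵢ = Uᵢ(x, θ) / Δ(x)`, meant to be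
a reduced basis over `k[x]` of the functions regular outside the poles of `x`; the pole order of
`uᵢ` is bounded by `mᵢ` times that of `x`, and `T` is the multiplication table of the `uᵢ`. -/
structure CurveData (R : Type*) [CommRing R] (n : ℕ) where
  /-- The weights, bounding the poles at infinity. -/
  m : Fin n → ℕ
  /-- The index of `1`. -/
  i0 : Fin n
  /-- The equation. -/
  h : R[X][Y]
  /-- The denominator. -/
  Δ : R[X]
  /-- Numerators of the basis. -/
  U : Fin n → R[X][Y]
  /-- The multiplication table. -/
  T : Fin n → Fin n → Fin n → R[X]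

/-- The conditions on curve data, all of them identities in the coefficients, so that they survive
ring homomorphisms: `h` is monic of degree `n` and separable off the zeros of `Δ`, the `Uᵢ / Δ`
include `1`, span and multiply by `T` respecting the weights, and `Cert`s at the roots of `Δ` and
at infinity show that the order they span is maximal. -/
structure CurveData.IsValid {R : Type*} [CommRing R] {n : ℕ} (D : CurveData R n) : Prop where
  /-- The equation is monic in `Y`, -/
  monic : D.h.Monic
  /-- of degree `n`. -/
  deg_h : D.h.natDegree = n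
  /-- The weight of `1` vanishes -/
  m_i0 : D.m D.i0 = 0
  /-- and the other weights are positive. -/
  m_pos : ∀ i, i ≠ D.i0 → 0 < D.m i
  /-- The basis element with index `i0` is `1`. -/
  U_i0 : D.U D.i0 = C D.Δ
  /-- `h` and its derivative generate `Δ`, so `h` is separable off the zeros of `Δ`. -/
  bez : ∃ a b, D.h * a + derivative D.h * b = C D.Δ
  /-- The table gives the products modulo `h`. -/
  mul : ∀ a b, ∃ Q, D.U a * D.U b = C D.Δ * (∑ c, C (D.T a b c) * D.U c) + D.h * Q
  /-- The powers of `Y` below `n` are combinations of the basis. -/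
  span : ∀ j, j < n → ∃ (P : Fin n → R[X]) (Q : R[X][Y]),
    C D.Δ * Y ^ j = ∑ l, C (P l) * D.U l + D.h * Q
  /-- The table respects the weights. -/
  degT : ∀ a b c, D.T a b c = 0 ∨ (D.T a b c).natDegree + D.m c ≤ D.m a + D.m b
  /-- `Δ` splits, and the order is maximal over its roots and at infinity. -/
  certs : ∃ (nr : ℕ) (root : Fin nr → R) (lc : R), IsUnit lc ∧
    D.Δ = C lc * ∏ j, (X - C (root j)) ∧ (∀ j, Nonempty (Cert D.T D.i0 (root j))) ∧
    Nonempty (Cert (tableInf D.m D.T) D.i0 0)

/-- The denominator of valid data is nonzero. -/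
theorem CurveData.IsValid.Δ_ne_zero {k : Type*} [Field k] {n : ℕ} {D : CurveData k n}
    (hD : D.IsValid) : D.Δ ≠ 0 := by
  obtain ⟨nr, root, lc, hlc, hfac, -⟩ := hD.certs
  rw [hfac]
  exact mul_ne_zero (C_ne_zero.mpr hlc.ne_zero)
    (Finset.prod_ne_zero_iff.mpr fun j _ => X_sub_C_ne_zero _)

/-- Transport of curve data. -/
def CurveData.map {R S : Type*} [CommRing R] [CommRing S] (f : R →+* S) {n : ℕ}
    (D : CurveData R n) : CurveData S n where
  m := D.m
  i0 := D.i0
  h := D.h.map (mapRingHom f)
  Δ := D.Δ.map f
  U i := (D.U i).map (mapRingHom f)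
  T a b c := (D.T a b c).map f

theorem CurveData.IsValid.map {R S : Type*} [CommRing R] [CommRing S] [Nontrivial S]
    {n : ℕ} {D : CurveData R n} (hD : D.IsValid) (f : R →+* S) : (D.map f).IsValid where
  monic := hD.monic.map _
  deg_h := by
    rw [CurveData.map, hD.monic.natDegree_map, hD.deg_h]
  m_i0 := hD.m_i0
  m_pos := hD.m_pos
  U_i0 := by simp [CurveData.map, hD.U_i0]
  bez := by
    obtain ⟨a, b, h⟩ := hD.bez
    refine ⟨a.map (mapRingHom f), b.map (mapRingHom f), ?_⟩
    have := congrArg (Polynomial.map (mapRingHom f)) h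
    simpa [CurveData.map, derivative_map] using this
  mul a b := by
    obtain ⟨Q, h⟩ := hD.mul a b
    refine ⟨Q.map (mapRingHom f), ?_⟩
    have := congrArg (Polynomial.map (mapRingHom f)) h
    simpa [CurveData.map, Polynomial.map_sum] using this
  span j hj := by
    obtain ⟨P, Q, h⟩ := hD.span j hj
    refine ⟨fun l => (P l).map f, Q.map (mapRingHom f), ?_⟩
    have := congrArg (Polynomial.map (mapRingHom f)) h
    simpa [CurveData.map, Polynomial.map_sum] using this
  degT a b c := by
    rcases hD.degT a b c with h | h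
    · exact Or.inl (by simp [CurveData.map, h])
    · exact Or.inr (le_trans (Nat.add_le_add_right natDegree_map_le _) h)
  certs := by
    obtain ⟨nr, root, lc, hlc, hfac, hc, ⟨cinf⟩⟩ := hD.certs
    refine ⟨nr, fun j => f (root j), f lc, hlc.map f, ?_, fun j => (hc j).map fun c => c.map f, ?_⟩
    · simp [CurveData.map, hfac, Polynomial.map_prod]
    · have h1 : (fun a b l => (tableInf D.m D.T a b l).map f)
          = tableInf D.m (D.map f).T := by
        funext a b l
        simp [tableInf, CurveData.map, reflect_map]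
      refine ⟨?_⟩
      have c' := cinf.map f
      rw [h1, map_zero] at c'
      exact c'

/-! ### Fibre data -/

/-- Fibre data at a point where the discriminant does not vanish. -/
theorem CurveData.exists_fibreData_good {k : Type*} [Field k] [IsAlgClosed k] {n : ℕ}
    {D : CurveData k n} (hD : D.IsValid) {c : k} (hc : D.Δ.eval c ≠ 0) :
    Nonempty (FibreData D.T D.i0 c) := by
  let e := evalRingHom c
  set hc' := D.h.map e with hc'def
  have hmon : hc'.Monic := hD.monic.map e
  have hsep : hc'.Separable := by
    obtain ⟨a, b, h⟩ := hD.bez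
    have h1 := congrArg (Polynomial.map e) h
    simp only [Polynomial.map_add, Polynomial.map_mul, Polynomial.map_C, ← derivative_map] at h1
    refine ⟨a.map e * C (e D.Δ)⁻¹, b.map e * C (e D.Δ)⁻¹, ?_⟩
    calc a.map e * C (e D.Δ)⁻¹ * hc' + b.map e * C (e D.Δ)⁻¹ * derivative hc'
        = (hc' * a.map e + derivative hc' * b.map e) * C (e D.Δ)⁻¹ := by ring
      _ = 1 := by
        rw [h1, ← C_mul, mul_inv_cancel₀ (show e D.Δ ≠ 0 from hc), C_1]
  have hnd : hc'.roots.Nodup := nodup_roots hsep
  set L := hc'.roots.toList
  have hL : ∀ j : Fin L.length, hc'.eval (L.get j) = 0 := fun j => by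
    have := Multiset.mem_toList.mp (List.get_mem L j)
    exact (mem_roots hmon.ne_zero).mp this
  -- The fibre at `c` is the separable algebra `k[Y] / h_c`, with basis the `U l`; the characters
  -- are the evaluations at its roots, divided by `Δ(c)`.
  let ψ : (Fin n → k) →ₗ[k] k[X] :=
    { toFun := fun v => ∑ l, C (v l) * (D.U l).map e
      map_add' := fun v w => by simp [add_mul, Finset.sum_add_distrib]
      map_smul' := fun a v => by simp [Finset.smul_sum, smul_eq_C_mul, mul_assoc] }
  let ψq : (Fin n → k) →ₗ[k] AdjoinRoot hc' :=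
    (AdjoinRoot.mkₐ hc').toLinearMap.comp ψ
  have hfin : FiniteDimensional k (AdjoinRoot hc') := (AdjoinRoot.powerBasis' hmon).finite
  have hdim : Module.finrank k (AdjoinRoot hc') = n := by
    rw [(AdjoinRoot.powerBasis' hmon).finrank, AdjoinRoot.powerBasis'_dim,
      hD.monic.natDegree_map, hD.deg_h]
  have hsurj : Function.Surjective ψq := by
    rw [← LinearMap.range_eq_top]
    refine eq_top_iff.mpr ((AdjoinRoot.powerBasis' hmon).basis.span_eq.ge.trans
      (Submodule.span_le.mpr ?_))
    rintro _ ⟨j, rfl⟩
    have hj : (j : ℕ) < n := by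
      have := j.2
      have hd : (AdjoinRoot.powerBasis' hmon).dim = n := by
        rw [AdjoinRoot.powerBasis'_dim, hD.monic.natDegree_map, hD.deg_h]
      omega
    obtain ⟨P, Q, hPQ⟩ := hD.span j hj
    have h1 := congrArg (fun p => AdjoinRoot.mk hc' (Polynomial.map e p)) hPQ
    simp only [Polynomial.map_add, Polynomial.map_mul, Polynomial.map_C, Polynomial.map_pow,
      Polynomial.map_X, Polynomial.map_sum, map_add, map_mul, map_pow, map_sum, AdjoinRoot.mk_X,
      ← hc'def, AdjoinRoot.mk_self, zero_mul, add_zero] at h1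
    rw [PowerBasis.basis_eq_pow, AdjoinRoot.powerBasis'_gen, SetLike.mem_coe, LinearMap.mem_range]
    refine ⟨(e D.Δ)⁻¹ • (fun l => e (P l)), ?_⟩
    rw [map_smul]
    have h2 : ψq (fun l => e (P l)) = AdjoinRoot.mk hc' (C (e D.Δ)) *
        AdjoinRoot.root hc' ^ (j : ℕ) := by
      rw [h1]
      simp [ψq, ψ]
    rw [h2, Algebra.smul_def, AdjoinRoot.algebraMap_eq, ← AdjoinRoot.mk_C, ← mul_assoc, ← map_mul,
      ← C_mul, inv_mul_cancel₀ (show e D.Δ ≠ 0 from hc), C_1, map_one, one_mul]
  have hinj : Function.Injective ψq :=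
    (LinearMap.injective_iff_surjective_of_finrank_eq_finrank (by simp [hdim])).mpr hsurj
  refine ⟨{
    e := L.length
    s := 0
    χ := fun j => (e D.Δ)⁻¹ • (Polynomial.leval (L.get j)).comp ψ
    r := fun a => Fin.elim0 a
    χ_one := fun j => ?_
    χ_mul := fun j a b => ?_
    χ_r := fun j a => Fin.elim0 a
    span_r := fun v hv => ⟨fun a => Fin.elim0 a, ?_⟩
    nil := fun a => Fin.elim0 a
    inj := fun a _ => funext fun x => Fin.elim0 x }⟩
  · simp only [LinearMap.smul_apply, LinearMap.comp_apply, leval_apply, ψ, LinearMap.coe_mk,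
      AddHom.coe_mk, eval_finsetSum, smul_eq_mul]
    rw [Finset.sum_eq_single D.i0 (fun l _ hl => by simp [Pi.single_eq_of_ne hl]) (by simp)]
    simp [hD.U_i0, e, inv_mul_cancel₀ hc]
  · obtain ⟨Q, hQ⟩ := hD.mul a b
    have h1 := congrArg (fun p => (Polynomial.map e p).eval (L.get j)) hQ
    simp only [Polynomial.map_add, Polynomial.map_mul, Polynomial.map_C, Polynomial.map_sum,
      eval_add, eval_mul, eval_C, eval_finsetSum, ← hc'def, hL, zero_mul, add_zero] at h1
    have hsingle : ∀ i : Fin n, ψ (Pi.single i 1) = (D.U i).map e := fun i => by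
      simp only [ψ, LinearMap.coe_mk, AddHom.coe_mk]
      rw [Finset.sum_eq_single i (fun l _ hl => by simp [Pi.single_eq_of_ne hl]) (by simp)]
      simp
    simp only [LinearMap.smul_apply, LinearMap.comp_apply, leval_apply, hsingle, smul_eq_mul]
    simp only [ψ, LinearMap.coe_mk, AddHom.coe_mk, eval_finsetSum, eval_mul, eval_C]
    have h3 : e D.Δ ≠ 0 := hc
    field_simp
    exact h1.symm
  · have hzero : ψ v = 0 ∨ hc' ∣ ψ v := by
      refine or_iff_not_imp_left.mpr fun hne => ?_
      rw [(IsAlgClosed.splits hc').dvd_iff_roots_le_roots hmon.ne_zero hne]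
      rw [Multiset.le_iff_count]
      intro y
      by_cases hy : y ∈ hc'.roots
      · rw [Multiset.count_eq_one_of_mem hnd hy]
        have hyL : y ∈ L := Multiset.mem_toList.mpr hy
        obtain ⟨i, hi⟩ := List.get_of_mem hyL
        have h1 := hv i
        simp only [LinearMap.smul_apply, LinearMap.comp_apply, leval_apply, hi, smul_eq_mul,
          mul_eq_zero, inv_eq_zero] at h1
        exact Multiset.one_le_count_iff_mem.mpr ((mem_roots hne).mpr (h1.resolve_left hc))
      · simp [Multiset.count_eq_zero_of_notMem hy]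
    have hz : ψq v = 0 := by
      rcases hzero with h | h
      · simp [ψq, h]
      · exact AdjoinRoot.mk_eq_zero.mpr h
    rw [hinj (hz.trans (map_zero ψq).symm)]
    simp

/-- Fibre data everywhere. -/
theorem CurveData.exists_fibreData {k : Type*} [Field k] [IsAlgClosed k] {n : ℕ}
    {D : CurveData k n} (hD : D.IsValid) (c : k) : Nonempty (FibreData D.T D.i0 c) := by
  by_cases hc : D.Δ.eval c = 0
  · obtain ⟨nr, root, lc, hlc, hfac, hcert, -⟩ := hD.certs
    rw [hfac, eval_mul, eval_C, eval_prod, mul_eq_zero, or_iff_right hlc.ne_zero,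
      Finset.prod_eq_zero_iff] at hc
    obtain ⟨j, -, hj⟩ := hc
    rw [eval_sub, eval_X, eval_C, sub_eq_zero] at hj
    subst hj
    exact (hcert j).map Cert.fibreData
  · exact D.exists_fibreData_good hD hc

end Fermat.Agent.CurveTorsion
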