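import Fermat.Agent.CurveTorsion.PlaneModel
import Mathlib.LinearAlgebra.Dimension.Free
import Mathlib.LinearAlgebra.Basis.VectorSpace

/-!
# Certificates for the fibres of a chart

A `Chart` of a function field is an affine basis; `Chart.exists_cert` certifies each of its fibres
by identities between constants, as curve data require.
-/

set_option autoImplicit false

noncomputable section

open scoped Classical

open Polynomial AlgebraicCurve IntermediateField

namespace Fermat.Agent.CurveTorsion

open FF

variable {K F : Type*} [Field K] [Field F] [Algebra K F] [IsFunctionField K F] [IsAlgClosed K]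
  {n : ℕ}

/-! ### Charts -/

/-- An affine chart: a free basis of the ring of functions regular where `x` is regular. -/
structure Chart (x : F) (u : Fin n → F) (T : Fin n → Fin n → Fin n → K[X]) (i0 : Fin n) :
    Prop where
  trans : Transcendental K x
  one : u i0 = 1
  table : ∀ a b, u a * u b = comb x u (T a b)
  inj : Function.Injective (comb x u : (Fin n → K[X]) →ₗ[K] F)
  reg : ∀ i (v : Place K F), 0 ≤ v.ord x → u i ∈ ordGe v 0
  range : ∀ y : F, (∀ v : Place K F, 0 ≤ v.ord x → y ∈ ordGe v 0) →
    ∃ w, y = comb (k := K) x u w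

/-- The constant vector. -/
def cvec {R : Type*} [CommRing R] (v : Fin n → R) : Fin n → R[X] := fun i => C (v i)

variable {x : F} {u : Fin n → F} {T : Fin n → Fin n → Fin n → K[X]} {i0 : Fin n}

omit [IsFunctionField K F] [IsAlgClosed K] in
theorem Chart.comb_mem (h : Chart x u T i0) (w : Fin n → K[X]) {v : Place K F}
    (hv : 0 ≤ v.ord x) : comb x u w ∈ ordGe v 0 := by
  rw [comb_apply]
  refine sum_mem fun i _ => ?_
  simpa using mul_mem_ordGe v ((mem_ordGe_zero v).mpr
    (aeval_mem_valuationSubring v ((mem_iff v).mpr (Or.inr hv)) (w i))) (h.reg i v hv)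

omit [IsFunctionField K F] [IsAlgClosed K] in
theorem ord_nonneg_of_sub_pos {v : Place K F} {c : K}
    (hv : 0 < v.ord (x - algebraMap K F c)) : 0 ≤ v.ord x := by
  exact ord_nonneg v (mem_of_sub_mem v (t := c) (j := 1)
    (mem_ordGe_of_le v (show ((1 : ℕ) : ℤ) ≤ _ by omega)))

omit [IsFunctionField K F] [IsAlgClosed K] in
theorem Chart.sub_res_mem (h : Chart x u T i0) {c : K} {v : Place K F}
    (hv : 0 < v.ord (x - algebraMap K F c)) {χ : Fin n → K}
    (hχ : ∀ l, u l - algebraMap K F (χ l) ∈ ordGe v 1) (w : Fin n → K[X]) :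
    comb x u w - algebraMap K F (∑ l, (w l).eval c * χ l) ∈ ordGe v 1 := by
  have hx0 := ord_nonneg_of_sub_pos hv
  have hxv : x ∈ v.toValuationSubring := (mem_iff v).mpr (Or.inr hx0)
  rw [comb_apply, map_sum, ← Finset.sum_sub_distrib]
  refine sum_mem fun l _ => ?_
  have h1 : aeval x (w l) - algebraMap K F ((w l).eval c) ∈ ordGe v 1 := by
    have := evalB_sub_mem_ordGe v hxv hxv (j := 1) (x' := algebraMap K F c) (θ' := x)
      (mem_ordGe_of_le v (by omega)) (by simp) (C (w l))
    rwa [evalB_C, evalB_C, aeval_algebraMap_apply, coe_aeval_eq_eval] at this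
  have h2 : aeval x (w l) * u l - algebraMap K F ((w l).eval c * χ l)
      = (aeval x (w l) - algebraMap K F ((w l).eval c)) * u l
        + algebraMap K F ((w l).eval c) * (u l - algebraMap K F (χ l)) := by
    rw [map_mul]; ring
  rw [h2]
  exact add_mem (by simpa using mul_mem_ordGe v h1 (h.reg l v hx0))
    (by simpa using mul_mem_ordGe v ((mem_ordGe_zero v).mpr (v.algebraMap_mem' _)) (hχ l))

omit [IsFunctionField K F] [IsAlgClosed K] in
theorem Chart.comb_single_one (h : Chart x u T i0) :
    comb x u (cvec fun i => if i = i0 then (1 : K) else 0) = 1 := by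
  rw [comb_apply, Finset.sum_eq_single i0 (fun i _ hi => by simp [cvec, hi]) (by simp)]
  simp [cvec, h.one]

omit [IsFunctionField K F] [IsAlgClosed K] in
theorem Chart.comb_tablePow (h : Chart x u T i0) (w : Fin n → K[X]) (N : ℕ) :
    comb x u (tablePow T (cvec fun i => if i = i0 then (1 : K) else 0) w N)
      = comb x u w ^ N := by
  induction N with
  | zero => simpa [tablePow] using h.comb_single_one
  | succ N ih => rw [tablePow, ← comb_mul_comb h.table, ih, pow_succ]

/-! ### Multipliers of the functions vanishing on a fibre -/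

omit [IsFunctionField K F] [IsAlgClosed K] in
/-- A multiplier of the functions vanishing on a fibre is regular: otherwise its product with one
of least order at a point of the fibre would have lower order. -/
private theorem Chart.div_sub_mem_ordGe (h : Chart x u T i0) {c : K} {e : ℕ}
    (pt : Fin e → Place K F)
    (hpt : ∀ j, 0 < (pt j).ord (x - algebraMap K F c))
    (hall : ∀ v : Place K F, 0 < v.ord (x - algebraMap K F c) → ∃ j, pt j = v) (w₀ : Fin n → K[X])
    (hmul : ∀ y, (∀ v : Place K F, 0 ≤ v.ord x → y ∈ ordGe v 0) ∧ (∀ j, y ∈ ordGe (pt j) 1) →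
      (∀ v : Place K F, 0 ≤ v.ord x →
          comb x u w₀ / (x - algebraMap K F c) * y ∈ ordGe v 0) ∧
        ∀ j, comb x u w₀ / (x - algebraMap K F c) * y ∈ ordGe (pt j) 1)
    (v : Place K F) (hv : 0 ≤ v.ord x) :
    comb x u w₀ / (x - algebraMap K F c) ∈ ordGe v 0 := by
  set π := x - algebraMap K F c
  have hπ0 : π ≠ 0 := fun h0 => h.trans (by
    rw [sub_eq_zero.mp h0]; exact isAlgebraic_algebraMap c)
  let InI : F → Prop := fun y =>
    (∀ v : Place K F, 0 ≤ v.ord x → y ∈ ordGe v 0) ∧ ∀ j, y ∈ ordGe (pt j) 1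
  set z := comb x u w₀
  rcases eq_or_ne z 0 with hz0 | hz0
  · simp [hz0]
  have hπv : 0 ≤ v.ord π := le_ord_of_mem_ordGe v hπ0
    (sub_mem (mem_ordGe_of_le v hv) ((mem_ordGe_zero v).mpr (v.algebraMap_mem' c)))
  refine mem_ordGe_of_le v ?_
  rcases eq_or_lt_of_le hπv with h0 | h0
  · rw [FF.ord_div v hz0 hπ0, ← h0, sub_zero]
    exact le_ord_of_mem_ordGe v hz0 (h.comb_mem w₀ hv)
  obtain ⟨j, rfl⟩ := hall v h0
  have hIπ : InI π := ⟨fun w hw => sub_mem (mem_ordGe_of_le w hw)
      ((mem_ordGe_zero w).mpr (w.algebraMap_mem' c)),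
    fun i => mem_ordGe_of_le _ (by have := hpt i; omega)⟩
  have hex : ∃ m : ℕ, ∃ y, InI y ∧ y ≠ 0 ∧ (pt j).ord y = m :=
    ⟨((pt j).ord π).toNat, π, hIπ, hπ0, by omega⟩
  obtain ⟨y, hy, hy0, hym⟩ := Nat.find_spec hex
  have h1 := hmul y hy
  have hq0 : z / π * y ≠ 0 := mul_ne_zero (div_ne_zero hz0 hπ0) hy0
  have h2 : 0 ≤ (pt j).ord (z / π * y) := le_ord_of_mem_ordGe _ hq0 (h1.1 _ hv)
  have h3 := Nat.find_min' hex (m := ((pt j).ord (z / π * y)).toNat)
    ⟨_, h1, hq0, by omega⟩
  rw [(pt j).ord_mul (div_ne_zero hz0 hπ0) hy0] at h2 h3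
  omega

omit [IsFunctionField K F] [IsAlgClosed K] in
/-- A radical vector at `c` is nilpotent in the fibre: a high power is divisible by `x - c`. -/
private theorem Chart.exists_tablePow_eq_zero (h : Chart x u T i0) {c : K} {e : ℕ}
    (pt : Fin e → Place K F)
    (hall : ∀ v : Place K F, 0 < v.ord (x - algebraMap K F c) → ∃ j, pt j = v) {w : Fin n → K}
    (hr : ∀ j, comb x u (cvec w) ∈ ordGe (pt j) 1) :
    ∃ N, 0 < N ∧
      tablePow (fun i j l => (T i j l).eval c) (fun i => if i = i0 then 1 else 0) w N = 0 := by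
  set π := x - algebraMap K F c
  have hπ0 : π ≠ 0 := fun h0 => h.trans (by
    rw [sub_eq_zero.mp h0]; exact isAlgebraic_algebraMap c)
  have hπ : aeval x (X - C c) = π := by simp [π]
  set z := comb x u (cvec w)
  let N : ℕ := (∑ j, ((pt j).ord π).toNat) + 1
  refine ⟨N, by omega, ?_⟩
  obtain ⟨W, hW⟩ := h.range (z ^ N / π) fun v hv => by
    rcases eq_or_ne z 0 with hz0 | hz0
    · simp [hz0, N]
    refine mem_ordGe_of_le v ?_
    rw [FF.ord_div v (pow_ne_zero _ hz0) hπ0, FF.ord_pow]
    have h1 := le_ord_of_mem_ordGe v hz0 (h.comb_mem (cvec w) hv)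
    by_cases hvπ : 0 < v.ord π
    · obtain ⟨j, rfl⟩ := hall v hvπ
      have h2 := le_ord_of_mem_ordGe _ hz0 (hr j)
      have h3 : ((pt j).ord π).toNat ≤ N := (Finset.single_le_sum
        (f := fun i => ((pt i).ord π).toNat) (fun _ _ => Nat.zero_le _) (Finset.mem_univ j)).trans
        (Nat.le_succ _)
      have h4 : (pt j).ord π ≤ N := by omega
      nlinarith
    · nlinarith
  rw [eq_comm, eq_div_iff hπ0, mul_comm, ← hπ, aeval_mul_comb, ← h.comb_tablePow] at hW
  funext l
  have h1 := congrArg (Polynomial.eval c) (congrFun (h.inj hW) l)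
  rw [← coe_evalRingHom, map_tablePow] at h1
  simpa [cvec] using h1.symm

omit [IsFunctionField K F] [IsAlgClosed K] in
/-- The product of two radical vectors, divided by `x - c`, is again regular and radical when the
first order products vanish. -/
private theorem Chart.exists_comb_eq_div_mul (h : Chart x u T i0) {c : K} {e s : ℕ}
    (pt : Fin e → Place K F) {χ : Fin e → Fin n → K}
    (hχiff : ∀ (w : Fin n → K[X]) j, comb x u w ∈ ordGe (pt j) 1 ↔
      ∑ l, (w l).eval c * χ j l = 0) (r : Fin s → Fin n → K) (a : Fin s → K) (rb : Fin n → K)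
    (h0 : ∀ l, ∑ a', a a' * (prodPoly T (r a') rb l).eval c = 0)
    (h1' : ∀ j, ∑ a', a a' * ∑ l, χ j l * (derivative (prodPoly T (r a') rb l)).eval c = 0) :
    ∃ Q : Fin n → K[X],
      comb x u (cvec fun i => ∑ a', a a' * r a' i) / (x - algebraMap K F c) * comb x u (cvec rb) =
          comb x u Q ∧ ∀ j, comb x u Q ∈ ordGe (pt j) 1 := by
  set π := x - algebraMap K F c
  have hπ0 : π ≠ 0 := fun h0 => h.trans (by
    rw [sub_eq_zero.mp h0]; exact isAlgebraic_algebraMap c)
  have hπ : aeval x (X - C c) = π := by simp [π]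
  set W := tableMul T (cvec fun i => ∑ a', a a' * r a' i) (cvec rb)
  have hW : ∀ l, W l = ∑ a', C (a a') * prodPoly T (r a') rb l := fun l =>
    prodPoly_sum_left Finset.univ T a r rb l
  have hWc : ∀ l, (W l).IsRoot c := fun l => by
    have := h0 l
    simpa [IsRoot, hW, eval_finsetSum] using this
  choose Q hQ using fun l => dvd_iff_isRoot.mpr (hWc l)
  refine ⟨Q, ?_, fun j => ?_⟩
  · rw [div_mul_eq_mul_div, comb_mul_comb h.table, div_eq_iff hπ0, mul_comm, ← hπ,
      aeval_mul_comb]
    exact congrArg _ (funext hQ)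
  · rw [hχiff]
    have h1 : ∀ l, (derivative (W l)).eval c = (Q l).eval c := fun l => by
      simp [hQ, derivative_mul]
    have := h1' j
    simp only [Finset.mul_sum] at this
    rw [Finset.sum_comm] at this
    show ∑ l, (Q l).eval c * χ j l = 0
    rw [← this]
    refine Finset.sum_congr rfl fun l _ => ?_
    rw [← h1, hW, map_sum, eval_finsetSum, Finset.sum_mul]
    exact Finset.sum_congr rfl fun a' _ => by simp; ring

omit [IsFunctionField K F] [IsAlgClosed K] in
/-- If `z / (x - c)` carries spanning radical vectors to radical functions, it multiplies all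
functions vanishing on the fibre into themselves. -/
private theorem Chart.div_mul_mem_of_span (h : Chart x u T i0) {c : K} {e s : ℕ}
    (pt : Fin e → Place K F) (hx0 : ∀ j, 0 ≤ (pt j).ord x) (r : Fin s → Fin n → K)
    (hspan : ∀ w : Fin n → K[X], (∀ j, comb x u w ∈ ordGe (pt j) 1) →
      ∃ co : Fin s → K, ∀ l, (w l).eval c = ∑ b, co b * r b l) {v : Fin n → K}
    (hz1 : ∀ j, comb x u (cvec v) ∈ ordGe (pt j) 1)
    (hQ : ∀ b, ∃ Q : Fin n → K[X],
      comb x u (cvec v) / (x - algebraMap K F c) * comb x u (cvec (r b)) = comb x u Q ∧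
        ∀ j, comb x u Q ∈ ordGe (pt j) 1)
    {y : F} (hy : (∀ v : Place K F, 0 ≤ v.ord x → y ∈ ordGe v 0) ∧ ∀ j, y ∈ ordGe (pt j) 1) :
    (∀ w : Place K F, 0 ≤ w.ord x →
        comb x u (cvec v) / (x - algebraMap K F c) * y ∈ ordGe w 0) ∧
      ∀ j, comb x u (cvec v) / (x - algebraMap K F c) * y ∈ ordGe (pt j) 1 := by
  set π := x - algebraMap K F c
  have hπ0 : π ≠ 0 := fun h0 => h.trans (by
    rw [sub_eq_zero.mp h0]; exact isAlgebraic_algebraMap c)
  have hπ : aeval x (X - C c) = π := by simp [π]
  set z := comb x u (cvec v)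
  obtain ⟨w, rfl⟩ := h.range y hy.1
  -- Reduce the coordinates of `y` modulo `x - c`.
  choose w' hw' using fun l => dvd_iff_isRoot.mpr
    (show (w l - C ((w l).eval c)).IsRoot c by simp)
  obtain ⟨co, hco⟩ := hspan w hy.2
  choose Q hQ1 hQ2 using hQ
  -- So the product is a combination of the given functions plus `z` times a regular one.
  have heq : z / π * comb x u w
      = ∑ b, algebraMap K F (co b) * comb x u (Q b) + z * comb x u w' := by
    have h1 : comb x u w
        = ∑ b, algebraMap K F (co b) * comb x u (cvec (r b)) + π * comb x u w' := by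
      rw [← hπ, aeval_mul_comb]
      simp only [comb_apply, Finset.mul_sum]
      rw [Finset.sum_comm, ← Finset.sum_add_distrib]
      refine Finset.sum_congr rfl fun l _ => ?_
      rw [← hw' l, map_sub, aeval_C, hco, map_sum, sub_mul, Finset.sum_mul]
      simp only [cvec, aeval_C, map_mul, mul_assoc]
      ring
    rw [h1, mul_add, Finset.mul_sum, ← mul_assoc, div_mul_cancel₀ _ hπ0]
    congr 1
    exact Finset.sum_congr rfl fun b _ => by rw [← hQ1]; ring
  refine ⟨fun v hv => ?_, fun j => ?_⟩
  · rw [heq]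
    refine add_mem (sum_mem fun b _ => ?_) ?_
    · simpa using mul_mem_ordGe v ((mem_ordGe_zero v).mpr (v.algebraMap_mem' (co b)))
        (h.comb_mem (Q b) hv)
    · simpa using mul_mem_ordGe v (h.comb_mem (cvec _) hv) (h.comb_mem w' hv)
  · rw [heq]
    refine add_mem (sum_mem fun b _ => ?_) ?_
    · simpa using mul_mem_ordGe (pt j)
        ((mem_ordGe_zero _).mpr ((pt j).algebraMap_mem' (co b))) (hQ2 b j)
    · simpa using mul_mem_ordGe (pt j) (hz1 j) (h.comb_mem w' (hx0 j))

/-! ### First order products -/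

omit [IsFunctionField K F] [IsAlgClosed K] in
/-- The residues of the basis multiply by the table. -/
private theorem Chart.res_table (h : Chart x u T i0) {c : K} {v : Place K F}
    (hv : 0 < v.ord (x - algebraMap K F c)) {χ : Fin n → K}
    (hχ : ∀ l, u l - algebraMap K F (χ l) ∈ ordGe v 1) (a b : Fin n) :
    ∑ l, (T a b l).eval c * χ l = χ a * χ b := by
  have h1 := h.sub_res_mem hv hχ (T a b)
  rw [← h.table] at h1
  have h2 : u a * u b - algebraMap K F (χ a * χ b) ∈ ordGe v 1 := by
    rw [show u a * u b - algebraMap K F (χ a * χ b)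
        = (u a - algebraMap K F (χ a)) * u b
          + algebraMap K F (χ a) * (u b - algebraMap K F (χ b)) by rw [map_mul]; ring]
    have ha := (mem_ordGe_zero _).mpr (v.algebraMap_mem' (χ a))
    exact add_mem
      (by simpa using mul_mem_ordGe v (hχ a) (h.reg b _ (ord_nonneg_of_sub_pos hv)))
      (by simpa using mul_mem_ordGe v ha (hχ b))
  have h3 := sub_mem h2 h1
  rw [sub_sub_sub_cancel_left, ← map_sub, RedTorsion.algebraMap_mem_ordGe_one_iff,
    sub_eq_zero] at h3
  exact h3

/-- A coefficient vector to its values at points with residues `χ`. -/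
private def resMap {e : ℕ} (χ : Fin e → Fin n → K) : (Fin n → K) →ₗ[K] (Fin e → K) where
  toFun v j := ∑ l, v l * χ j l
  map_add' v w := by ext j; simp [add_mul, Finset.sum_add_distrib]
  map_smul' a v := by ext j; simp [Finset.mul_sum, mul_assoc]

/-- For the products of a combination of the vectors `r` with each of them: the values at `c`, and
the values at the residues `χ` of their first derivatives at `c`. -/
private def firstOrder {e s : ℕ} (T : Fin n → Fin n → Fin n → K[X]) (c : K)
    (χ : Fin e → Fin n → K) (r : Fin s → Fin n → K) :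
    (Fin s → K) →ₗ[K] ((Fin s × Fin n) ⊕ (Fin s × Fin e) → K) where
  toFun a := Sum.elim (fun p => ∑ a', a a' * (prodPoly T (r a') (r p.1) p.2).eval c)
    (fun p => ∑ a', a a' * ∑ l, χ p.2 l * (derivative (prodPoly T (r a') (r p.1) l)).eval c)
  map_add' a b := by ext (p | p) <;> simp [add_mul, Finset.sum_add_distrib]
  map_smul' m a := by ext (p | p) <;> simp [Finset.mul_sum, mul_assoc]

omit [IsFunctionField K F] [IsAlgClosed K] in
/-- A polynomial vector gives a function vanishing at a point exactly when its value is killed by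
the residues there. -/
private theorem Chart.comb_mem_iff (h : Chart x u T i0) {c : K} {v : Place K F}
    (hv : 0 < v.ord (x - algebraMap K F c)) {χ : Fin n → K}
    (hχ : ∀ l, u l - algebraMap K F (χ l) ∈ ordGe v 1) (w : Fin n → K[X]) :
    comb x u w ∈ ordGe v 1 ↔ ∑ l, (w l).eval c * χ l = 0 := by
  have h1 := h.sub_res_mem hv hχ w
  rw [← RedTorsion.algebraMap_mem_ordGe_one_iff v]
  exact ⟨fun h2 => by simpa using sub_mem h2 h1, fun h2 => by simpa using add_mem h1 h2⟩

omit [IsFunctionField K F] [IsAlgClosed K] in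
/-- No combination of a basis of the radical at `c` has all first order products zero. -/
private theorem Chart.ker_firstOrder_eq_bot (h : Chart x u T i0) {c : K} {e s : ℕ}
    (pt : Fin e → Place K F) (hpt : ∀ j, 0 < (pt j).ord (x - algebraMap K F c))
    (hall : ∀ v : Place K F, 0 < v.ord (x - algebraMap K F c) → ∃ j, pt j = v)
    {χ : Fin e → Fin n → K} (hχ : ∀ j l, u l - algebraMap K F (χ j l) ∈ ordGe (pt j) 1)
    (bk : Module.Basis (Fin s) K (LinearMap.ker (resMap χ))) :
    LinearMap.ker (firstOrder T c χ fun a => (bk a : Fin n → K)) = ⊥ := by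
  set π := x - algebraMap K F c
  have hπ0 : π ≠ 0 := fun h0 => h.trans (by
    rw [sub_eq_zero.mp h0]; exact isAlgebraic_algebraMap c)
  have hπ : aeval x (X - C c) = π := by simp [π]
  have hiff := fun w j => h.comb_mem_iff (hpt j) (hχ j) w
  have hx0 : ∀ j, 0 ≤ (pt j).ord x := fun j => ord_nonneg_of_sub_pos (hpt j)
  rw [LinearMap.ker_eq_bot']
  intro a ha
  set r : Fin s → Fin n → K := fun a => bk a
  set v : Fin n → K := fun i => ∑ a', a a' * r a' i
  have hvker : resMap χ v = 0 := by
    have : v = ∑ a', a a' • r a' := by ext i; simp [v]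
    rw [this, map_sum]
    simp [map_smul, r]
  have hz1 : ∀ j, comb x u (cvec v) ∈ ordGe (pt j) 1 := fun j => by
    rw [hiff]
    simpa [cvec, resMap] using congrFun hvker j
  have hQ : ∀ b, ∃ Q : Fin n → K[X],
      comb x u (cvec v) / π * comb x u (cvec (r b)) = comb x u Q ∧
        ∀ j, comb x u Q ∈ ordGe (pt j) 1 := fun b =>
    h.exists_comb_eq_div_mul pt (χ := χ) hiff r a (r b)
      (fun l => by simpa [firstOrder] using congrFun ha (Sum.inl (b, l)))
      (fun j => by simpa [firstOrder] using congrFun ha (Sum.inr (b, j)))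
  -- so the multiplier is regular
  have hreg : ∀ w : Place K F, 0 ≤ w.ord x → comb x u (cvec v) / π ∈ ordGe w 0 :=
    h.div_sub_mem_ordGe pt hpt hall (cvec v) fun y hy =>
      h.div_mul_mem_of_span pt hx0 r (fun w hwj => by
        have hw : (fun l => (w l).eval c) ∈ LinearMap.ker (resMap χ) :=
          LinearMap.mem_ker.mpr (funext fun j => (hiff w j).mp (hwj j))
        refine ⟨fun b => bk.repr ⟨_, hw⟩ b, fun l => ?_⟩
        have h2 := congrFun (congrArg Subtype.val (bk.sum_repr ⟨_, hw⟩)) l
        simp only [Submodule.coe_sum, Submodule.coe_smul, Finset.sum_apply, Pi.smul_apply,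
          smul_eq_mul] at h2
        exact h2.symm) hz1 hQ hy
  obtain ⟨W, hW⟩ := h.range _ hreg
  have hzW : comb x u (cvec v) = comb x u (fun i => (X - C c) * W i) := by
    rw [← aeval_mul_comb, hπ, ← hW, mul_div_cancel₀ _ hπ0]
  have hv0 : v = 0 := funext fun i => by
    have := congrArg (Polynomial.eval c) (congrFun (h.inj hzW) i)
    simpa [cvec] using this
  have : ∑ a', a a' • bk a' = 0 := by
    refine Subtype.ext (funext fun i => ?_)
    simpa [v, r, Finset.sum_apply] using congrFun hv0 i
  exact funext (Fintype.linearIndependent_iff.mp bk.linearIndependent a this)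

omit [IsAlgClosed K] in
/-- A linear map has a section on its image. -/
private theorem exists_section {V W : Type*} [AddCommGroup V] [Module K V] [AddCommGroup W]
    [Module K W] (Φ : V →ₗ[K] W) : ∃ ψ : W →ₗ[K] V, ∀ v, Φ (ψ (Φ v)) = Φ v := by
  obtain ⟨P, hP⟩ := LinearMap.exists_rightInverse_of_surjective Φ.rangeRestrict
    Φ.range_rangeRestrict
  obtain ⟨ψ, hψ⟩ := LinearMap.exists_extend P
  refine ⟨ψ, fun v => ?_⟩
  have h1 := LinearMap.congr_fun hψ ⟨Φ v, LinearMap.mem_range_self Φ v⟩
  have h2 := LinearMap.congr_fun hP ⟨Φ v, LinearMap.mem_range_self Φ v⟩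
  simp only [LinearMap.comp_apply, Submodule.coe_subtype] at h1 h2
  rw [h1]
  exact congrArg Subtype.val h2

omit [IsAlgClosed K] in
/-- The matrix of a left inverse times the matrix of the map is the identity. -/
private theorem sum_apply_single_mul {ι κ : Type*} [Fintype κ] [DecidableEq ι] [DecidableEq κ]
    {Ψ : (ι → K) →ₗ[K] κ → K}
    {Li : (κ → K) →ₗ[K] ι → K} (hLi : Li ∘ₗ Ψ = LinearMap.id) (a a' : ι) :
    ∑ p, Ψ (Pi.single a' 1) p * Li (Pi.single p 1) a = if a = a' then 1 else 0 := by
  have h1 := congrFun (LinearMap.congr_fun hLi (Pi.single a' 1)) a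
  rw [LinearMap.comp_apply, pi_eq_sum_univ' (Ψ (Pi.single a' 1)), map_sum] at h1
  simpa [map_smul, Finset.sum_apply, Pi.single_apply] using h1

/-! ### Certificates -/

/-- Every fibre of a chart is certified by finitely many constants. -/
theorem Chart.exists_cert (h : Chart x u T i0) (c : K) : Nonempty (Cert T i0 c) := by
  set π := x - algebraMap K F c
  set Fb := (finite_zeros (K := K) π).toFinset
  let e := Fb.card
  let pt : Fin e → Place K F := fun j => (Fb.equivFin.symm j : Place K F)
  have hpt : ∀ j, 0 < (pt j).ord π := fun j => by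
    have := (Fb.equivFin.symm j).2
    exact (Set.Finite.mem_toFinset (finite_zeros (K := K) π)).mp this
  have hall : ∀ v : Place K F, 0 < v.ord π → ∃ j, pt j = v := fun v hv =>
    ⟨Fb.equivFin ⟨v, by simpa [Fb] using hv⟩, by simp [pt]⟩
  have hx0 : ∀ j, 0 ≤ (pt j).ord x := fun j => ord_nonneg_of_sub_pos (hpt j)
  have hres := fun j l =>
    FF.exists_sub_mem_ordGe_one (pt j) ((mem_ordGe_zero _).mp (h.reg l _ (hx0 j)))
  -- `χ` gives the residues at the places over `c`, `r` a basis of their common kernel. A section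
  -- of `resMap χ` and a left inverse of the first order map supply the remaining constants.
  choose χ hχ using hres
  let s := Module.finrank K (LinearMap.ker (resMap χ))
  let bk : Module.Basis (Fin s) K (LinearMap.ker (resMap χ)) := Module.finBasis K _
  let r : Fin s → Fin n → K := fun a => bk a
  have hr0 : ∀ a j, ∑ l, r a l * χ j l = 0 := fun a => congrFun (bk a).2
  have hr : ∀ a j, comb x u (cvec (r a)) ∈ ordGe (pt j) 1 := fun a j => by
    rw [h.comb_mem_iff (hpt j) (hχ j)]
    simpa [cvec] using hr0 a j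
  obtain ⟨ψ, hψΦ⟩ := exists_section (resMap χ)
  let proj : (Fin n → K) →ₗ[K] LinearMap.ker (resMap χ) :=
    (LinearMap.id - ψ.comp (resMap χ)).codRestrict _ fun v => by simp [hψΦ]
  obtain ⟨Li, hLi⟩ := LinearMap.exists_leftInverse_of_injective _
    (h.ker_firstOrder_eq_bot pt hpt hall hχ bk)
  refine ⟨⟨e, s, χ, r, fun l a => bk.repr (proj (Pi.single l 1)) a,
    fun i j => ψ (Pi.single j 1) i,
    fun a b l => Li (Pi.single (Sum.inl (b, l)) 1) a,
    fun a b j => Li (Pi.single (Sum.inr (b, j)) 1) a, ?_, ?_, ?_, ?_, ?_, ?_⟩⟩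
  · intro j
    have h1 := hχ j i0
    rw [h.one, ← map_one (algebraMap K F), ← map_sub, RedTorsion.algebraMap_mem_ordGe_one_iff,
      sub_eq_zero] at h1
    exact h1.symm
  · intro j a b
    rw [← h.res_table (hpt j) (hχ j) a b]
    exact Finset.sum_congr rfl fun l _ => mul_comm _ _
  · intro j a
    rw [← hr0 a j]
    exact Finset.sum_congr rfl fun l _ => mul_comm _ _
  · intro i l
    have h1 := congrArg (fun y : LinearMap.ker (resMap χ) => (y : Fin n → K) i)
      (bk.sum_repr (proj (Pi.single l 1)))
    have h2 : ψ (resMap χ (Pi.single l 1)) = ∑ j, χ j l • ψ (Pi.single j 1) := by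
      conv_lhs => rw [pi_eq_sum_univ' (resMap χ (Pi.single l 1))]
      rw [map_sum]
      refine Finset.sum_congr rfl fun j _ => ?_
      rw [map_smul]
      congr 1
      simp [resMap, Pi.single_apply]
    simp only [proj, LinearMap.codRestrict_apply, LinearMap.sub_apply, LinearMap.id_coe, id_eq,
      LinearMap.comp_apply, Pi.sub_apply, h2, Finset.sum_apply, Pi.smul_apply, smul_eq_mul,
      Submodule.coe_sum, Submodule.coe_smul, Pi.single_apply] at h1
    simp only [r]
    rw [h1]
    ring
  · intro a
    exact h.exists_tablePow_eq_zero pt hall (hr a)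
  · intro a a'
    refine (sum_apply_single_mul hLi a a').symm.trans ?_
    have hl : ∀ b l, firstOrder T c χ r (Pi.single a' 1) (Sum.inl (b, l)) =
        (prodPoly T (r a') (r b) l).eval c := fun b l => by
      simp [firstOrder, Pi.single_apply]
    have hr' : ∀ b j, firstOrder T c χ r (Pi.single a' 1) (Sum.inr (b, j)) =
        ∑ l, χ j l * (derivative (prodPoly T (r a') (r b) l)).eval c := fun b j => by
      simp [firstOrder, Pi.single_apply]
    rw [Fintype.sum_sum_type, Fintype.sum_prod_type, Fintype.sum_prod_type]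
    congr 1
    · exact Finset.sum_congr rfl fun b _ => Finset.sum_congr rfl fun l _ => by rw [hl, mul_comm]
    · exact Finset.sum_congr rfl fun b _ => Finset.sum_congr rfl fun j _ => by rw [hr', mul_comm]

end Fermat.Agent.CurveTorsion
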