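import Fermat.Agent.CurveTorsion.PlaneModel
import Fermat.Agent.CurveTorsion.WeilDiff
import Mathlib.GroupTheory.CosetCover

/-!
# Divisors in general position in a linear system
-/

set_option autoImplicit false

noncomputable section

open scoped Classical

open Polynomial AlgebraicCurve IntermediateField

namespace Fermat.Agent.CurveTorsion

open FF

variable {L F : Type*} [Field L] [Field F] [Algebra L F] [IsFunctionField L F] [IsAlgClosed L]

theorem exists_mem_avoid {M : Type*} [AddCommGroup M] [Module L M] (V : Submodule L M)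
    {ι : Type*} [Finite ι] (W : ι → Submodule L M) (h : ∀ i, ¬ V ≤ W i) :
    ∃ w ∈ V, ∀ i, w ∉ W i := by
  have : Infinite L := IsAlgClosed.instInfinite
  by_contra! hc
  obtain ⟨i, hi⟩ := Subspace.exists_eq_top_of_iUnion_eq_univ
    (p := fun i => (W i).comap V.subtype) (Set.eq_univ_of_forall fun w => by
      simpa using hc w w.2)
  exact h i (Submodule.comap_subtype_eq_top.mp hi)

theorem ell_eq_of_two_mul_genus_le (D : Divisor L F)
    (hD : 2 * (genusFF L F : ℤ) - 1 ≤ Divisor.degree D) :
    ell L D = Divisor.degree D + 1 - genusFF L F := by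
  obtain ⟨W, hW, hRR⟩ := exists_canonical (K := L) (F := F)
  have h := hRR D
  rw [ell_eq_zero_of_degree_neg (D := W - D) (by rw [map_sub, hW]; omega)] at h
  omega

theorem not_le_sub_single (D : Divisor L F) (P : Place L F)
    (hD : 2 * (genusFF L F : ℤ) ≤ Divisor.degree D) :
    ¬ riemannRochSpace D ≤ riemannRochSpace (D - Finsupp.single P 1) := by
  intro hle
  have hdeg : Divisor.degree (D - Finsupp.single P 1) = Divisor.degree D - 1 := by
    simp [deg_eq_one]
  have h1 := ell_eq_of_two_mul_genus_le D (by omega)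
  have h2 := ell_eq_of_two_mul_genus_le (D - Finsupp.single P 1) (by omega)
  have heq : riemannRochSpace (D - Finsupp.single P 1) = riemannRochSpace D :=
    le_antisymm (riemannRochSpace_mono (sub_le_self D (Finsupp.single_nonneg.mpr zero_le_one))) hle
  have h3 := (LinearEquiv.ofEq _ _ heq).finrank_eq
  simp only [ell] at h1 h2
  omega

/-- The sum of the places in a finite set. -/
def sumPlaces (E : Finset (Place L F)) : Divisor L F := ∑ v ∈ E, Finsupp.single v 1

omit [IsFunctionField L F] [IsAlgClosed L] in
theorem sumPlaces_apply (E : Finset (Place L F)) (v : Place L F) :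
    sumPlaces E v = if v ∈ E then 1 else 0 := by
  simp [sumPlaces, Finsupp.finsetSum_apply, Finsupp.single_apply]

theorem degree_sumPlaces (E : Finset (Place L F)) :
    Divisor.degree (sumPlaces E) = E.card := by
  simp [sumPlaces, deg_eq_one]

omit [IsAlgClosed L] in
theorem mem_riemannRochSpace_iff_nonneg (D : Divisor L F) {w : F} (hw : w ≠ 0) :
    w ∈ riemannRochSpace D ↔ ∀ v, 0 ≤ (D + div L w) v := by
  rw [mem_riemannRochSpace']
  refine forall_congr' fun v => ?_
  rw [mem_ordGe, Finsupp.add_apply, div_apply]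
  simp only [hw, false_or]
  omega

/-- A member of a linear system missing finitely many places. -/
theorem exists_rep_avoid (R : Divisor L F) (hR : 2 * (genusFF L F : ℤ) ≤ Divisor.degree R)
    {Q : Place L F} (S : Finset (Place L F)) (hQ : Q ∈ S) :
    ∃ w : F, w ≠ 0 ∧ (∀ v, 0 ≤ (R + div L w) v) ∧ ∀ v ∈ S, (R + div L w) v = 0 := by
  obtain ⟨w1, hw1, hw1S⟩ := exists_mem_avoid (riemannRochSpace R)
    (fun P : S => riemannRochSpace (R - Finsupp.single (P : Place L F) 1))
    (fun P => not_le_sub_single R P hR)
  have hw10 : w1 ≠ 0 := fun h => hw1S ⟨Q, hQ⟩ (by simp [h])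
  have hE1 := (mem_riemannRochSpace_iff_nonneg R hw10).mp hw1
  refine ⟨w1, hw10, hE1, fun v hv => ?_⟩
  have h1 := hw1S ⟨v, hv⟩
  rw [mem_riemannRochSpace_iff_nonneg _ hw10] at h1
  push Not at h1
  obtain ⟨u, hu⟩ := h1
  have h2 := hE1 u
  simp only [Finsupp.add_apply, Finsupp.sub_apply] at hu h2 ⊢
  rcases eq_or_ne v u with rfl | hne
  · rw [Finsupp.single_eq_same] at hu; omega
  · rw [Finsupp.single_eq_of_ne hne.symm] at hu; omega

/-- A member of a linear system of large degree with a simple zero at `Q`, missing the other given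
places. -/
theorem exists_rep_simple (R : Divisor L F) (hR : 2 * (genusFF L F : ℤ) + 1 ≤ Divisor.degree R)
    {Q : Place L F} (S : Finset (Place L F)) (hQ : Q ∈ S) :
    ∃ w : F, w ≠ 0 ∧ (∀ v, 0 ≤ (R + div L w) v) ∧
      ∀ v ∈ S, (R + div L w) v = if v = Q then 1 else 0 := by
  obtain ⟨w, hw0, hpos, hS⟩ := exists_rep_avoid (R - Finsupp.single Q 1)
    (by simp [deg_eq_one]; omega) S hQ
  refine ⟨w, hw0, fun v => ?_, fun v hv => ?_⟩
  · have h1 := hpos v
    simp only [Finsupp.add_apply, Finsupp.sub_apply, Finsupp.single_apply] at h1 ⊢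
    split_ifs at h1 <;> omega
  · have h1 := hS v hv
    simp only [Finsupp.add_apply, Finsupp.sub_apply, Finsupp.single_apply] at h1 ⊢
    by_cases hvQ : v = Q
    · rw [if_pos hvQ]; rw [if_pos hvQ.symm] at h1; omega
    · rw [if_neg hvQ]; rw [if_neg (Ne.symm hvQ)] at h1; omega

/-- A linear system of large degree contains a pencil with a simple zero. -/
theorem exists_pencil (R : Divisor L F) (hR : 2 * (genusFF L F : ℤ) + 1 ≤ Divisor.degree R)
    {Q : Place L F} (S : Finset (Place L F)) (hQ : Q ∈ S) :
    ∃ w z : F, w ≠ 0 ∧ Q.ord z = 1 ∧ poles L z = R + div L w := by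
  obtain ⟨w1, hw10, hE1, hE1S⟩ := exists_rep_avoid R (by omega) S hQ
  obtain ⟨w2, hw20, hE2, hE2S⟩ := exists_rep_simple R hR
    (insert Q (R + div L w1).support) (Finset.mem_insert_self _ _)
  refine ⟨w1, w2 / w1, hw10, ?_, ?_⟩
  · have h1 := hE1S Q hQ
    have h2 := hE2S Q (Finset.mem_insert_self _ _)
    rw [if_pos rfl, Finsupp.add_apply, div_apply] at h2
    rw [Finsupp.add_apply, div_apply] at h1
    rw [FF.ord_div Q hw20 hw10]
    omega
  · ext v
    have h1 := hE1 v
    have h2 := hE2 v
    rw [poles_apply, FF.ord_div v hw20 hw10]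
    simp only [Finsupp.add_apply, div_apply] at h1 h2 ⊢
    by_cases hv : v ∈ (R + div L w1).support
    · have h3 := hE2S v (Finset.mem_insert_of_mem hv)
      rw [Finsupp.add_apply, div_apply] at h3
      by_cases hvQ : v = Q
      · subst hvQ
        exact absurd (hE1S v hQ) (Finsupp.mem_support_iff.mp hv)
      · rw [if_neg hvQ] at h3
        omega
    · have h3 := Finsupp.notMem_support_iff.mp hv
      rw [Finsupp.add_apply, div_apply] at h3
      omega

/-- A function with a simple zero has a reduced fibre avoiding given finitely many places. -/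
theorem exists_simple_fibre {z : F} {Q : Place L F} (hQ : Q.ord z = 1) {Bad : Set (Place L F)}
    (hBad : Bad.Finite) :
    ∃ c : L, ∀ v : Place L F,
      (v.ord z < 0 → v.ord (z - algebraMap L F c) = v.ord z) ∧
      (0 ≤ v.ord z → 0 ≤ v.ord (z - algebraMap L F c) ∧ v.ord (z - algebraMap L F c) ≤ 1) ∧
      (0 < v.ord (z - algebraMap L F c) → v ∉ Bad) := by
  have hzt : Transcendental L z := transcendental_of_ord_pos Q (by omega)
  have hz0 : z ≠ 0 := fun h => by simp [h] at hQ
  have := isSeparable_of_ord_eq_one hQ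
  obtain ⟨θ, h, H⟩ := exists_isPlane hzt
  obtain ⟨a, b, Δ, hΔ, hbez⟩ := H.exists_bez
  -- finitely many values to avoid
  choose! val hval using fun (v : Place L F) (hv : z ∈ v.toValuationSubring) =>
    FF.exists_sub_mem_ordGe_one v hv
  obtain ⟨c, hc⟩ := (((Δ.roots.toFinset : Set L).toFinite).union
    ((hBad.image val).union (Set.finite_singleton 0))).exists_notMem
  simp only [Set.mem_union, Finset.mem_coe, Multiset.mem_toFinset, Set.mem_image,
    Set.mem_singleton_iff, not_or, not_exists, not_and] at hc
  obtain ⟨hcΔ, hcBad, hc0⟩ := hc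
  have hΔc : Δ.eval c ≠ 0 := fun h0 => hcΔ ((mem_roots hΔ).mpr h0)
  have hsep : (h.map (evalRingHom c)).Separable := by
    have h1 := congrArg (Polynomial.map (evalRingHom c)) hbez
    simp only [Polynomial.map_add, Polynomial.map_mul, Polynomial.map_C, ← derivative_map,
      coe_evalRingHom] at h1
    refine ⟨C (Δ.eval c)⁻¹ * a.map (evalRingHom c), C (Δ.eval c)⁻¹ * b.map (evalRingHom c), ?_⟩
    calc _ = C (Δ.eval c)⁻¹ * (h.map (evalRingHom c) * a.map (evalRingHom c)
          + derivative (h.map (evalRingHom c)) * b.map (evalRingHom c)) := by ring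
      _ = 1 := by rw [h1, ← C_mul, inv_mul_cancel₀ hΔc, C_1]
  set u := z - algebraMap L F c
  have hu0 : u ≠ 0 := fun h0 => hzt (by rw [sub_eq_zero.mp h0]; exact isAlgebraic_algebraMap c)
  have hneg : ∀ v : Place L F, v.ord z < 0 → v.ord u = v.ord z := fun v hv => by
    rw [show u = z + -algebraMap L F c from sub_eq_add_neg _ _]
    exact (ord_add_eq_left v hz0 (Or.inr (by rw [FF.ord_neg, ord_algebraMap]; omega))).2
  have hnonneg : ∀ v : Place L F, 0 ≤ v.ord z → 0 ≤ v.ord u ∧ v.ord u ≤ 1 := fun v hv => by
    have h1 : 0 ≤ v.ord u := le_ord_of_mem_ordGe v hu0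
      (sub_mem (mem_ordGe_of_le v hv) ((mem_ordGe_zero v).mpr (v.algebraMap_mem' c)))
    refine ⟨h1, ?_⟩
    by_contra hlt
    obtain ⟨_, -, -, h2⟩ := H.fibre hsep (v := v) (show 0 < v.ord u by omega)
    change v.ord u = 1 at h2
    omega
  refine ⟨c, fun v => ⟨hneg v, hnonneg v, fun hv hvB => ?_⟩⟩
  have hzv : 0 ≤ v.ord z := by
    by_contra hlt
    have := hneg v (not_le.mp hlt)
    change v.ord u = v.ord z at this
    change 0 < v.ord u at hv
    omega
  have h1 := hval v ((mem_iff v).mpr (Or.inr hzv))
  have h2 : u ∈ ordGe v 1 := mem_ordGe_of_le v (by change 0 < v.ord u at hv; omega)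
  have h3 := sub_mem h1 h2
  rw [sub_sub_sub_cancel_left, ← map_sub, RedTorsion.algebraMap_mem_ordGe_one_iff,
    sub_eq_zero] at h3
  exact hcBad v hvB h3.symm

/-- A linear system of large degree contains a reduced divisor avoiding given places. -/
theorem exists_reduced_rep (R : Divisor L F)
    (hR : 2 * (genusFF L F : ℤ) + 2 ≤ Divisor.degree R) {Bad : Set (Place L F)}
    (hBad : Bad.Finite) :
    ∃ E : Finset (Place L F), (∀ v ∈ E, v ∉ Bad) ∧
      ∃ f : F, f ≠ 0 ∧ R + div L f = sumPlaces E := by
  obtain ⟨Q⟩ := FF.exists_place (K := L) (F := F)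
  obtain ⟨w, z, hw0, hQz, hpol⟩ := exists_pencil R (by omega) {Q} (Finset.mem_singleton_self Q)
  obtain ⟨c, hc⟩ := exists_simple_fibre hQz hBad
  set u := z - algebraMap L F c
  have hzt : Transcendental L z := transcendental_of_ord_pos Q (by omega)
  have hu0 : u ≠ 0 := fun h0 => hzt (by rw [sub_eq_zero.mp h0]; exact isAlgebraic_algebraMap c)
  refine ⟨(finite_zeros (K := L) u).toFinset, fun v hv => (hc v).2.2 (by simpa using hv),
    u * w, mul_ne_zero hu0 hw0, ?_⟩
  ext v
  rw [Finsupp.add_apply, div_apply, v.ord_mul hu0 hw0, sumPlaces_apply]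
  simp only [Set.Finite.mem_toFinset, Set.mem_ofPred_eq]
  have h5 : poles L z v = R v + v.ord w := by rw [hpol, Finsupp.add_apply, div_apply]
  rw [poles_apply] at h5
  obtain ⟨hneg, hnonneg, -⟩ := hc v
  by_cases hv : v.ord z < 0
  · have h4 := hneg hv
    rw [if_neg (by omega)]
    omega
  · obtain ⟨h6, h7⟩ := hnonneg (not_lt.mp hv)
    split_ifs <;> omega

/-- A reduced divisor of large degree contains a nonspecial subset of size the genus. -/
theorem exists_nonspecial_subset (E : Finset (Place L F))
    (hE : 2 * (genusFF L F : ℤ) - 2 < E.card) :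
    ∃ S ⊆ E, S.card = genusFF L F ∧ ell L (sumPlaces S) = 1 := by
  obtain ⟨W, hW, hRR⟩ := exists_canonical (K := L) (F := F)
  set g := genusFF L F
  have hell0 : ell L W = g := by
    have := hRR 0
    rw [ell_zero, sub_zero, map_zero] at this
    omega
  -- Choose points of `E` one at a time, each lowering `ℓ(W - S)` by one.
  have key : ∀ j ≤ g, ∃ S ⊆ E, S.card = j ∧ ell L (W - sumPlaces S) = (g : ℤ) - j := by
    intro j
    induction j with
    | zero => exact fun _ => ⟨∅, Finset.empty_subset _, rfl, by simp [sumPlaces, hell0]⟩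
    | succ j ih =>
      intro hj
      obtain ⟨S, hSE, hSc, hS⟩ := ih (by omega)
      have hex : ∃ P ∈ E, P ∉ S ∧
          ell L (W - sumPlaces (insert P S)) ≠ ell L (W - sumPlaces S) := by
        -- Otherwise a function would vanish on all of `E`, which has too large a degree.
        by_contra! hc
        have hzero : ell L (W - sumPlaces E) = 0 :=
          ell_eq_zero_of_degree_neg (by rw [map_sub, hW, degree_sumPlaces]; omega)
        have hmono : ∀ T T' : Finset (Place L F), T ⊆ T' → W - sumPlaces T' ≤ W - sumPlaces T :=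
          fun T T' h => sub_le_sub_left (Finset.sum_le_sum_of_subset_of_nonneg h fun v _ _ =>
            Finsupp.single_nonneg.mpr zero_le_one) _
        have heq : riemannRochSpace (W - sumPlaces S) ≤ riemannRochSpace (W - sumPlaces E) := by
          intro f hf
          rw [mem_riemannRochSpace'] at hf ⊢
          intro v
          by_cases hv : v ∈ E ∧ v ∉ S
          · have h1 := hc v hv.1 hv.2
            have h2 : riemannRochSpace (W - sumPlaces (insert v S))
                = riemannRochSpace (W - sumPlaces S) :=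
              Submodule.eq_of_le_of_finrank_eq
                (riemannRochSpace_mono (hmono _ _ (Finset.subset_insert _ _)))
                (by simpa [ell] using h1)
            have h3 : f ∈ riemannRochSpace (W - sumPlaces (insert v S)) := by
              rw [h2]; exact mem_riemannRochSpace'.mpr hf
            have h4 := mem_riemannRochSpace'.mp h3 v
            simpa [sumPlaces_apply, hv.1] using h4
          · have h4 := hf v
            simp only [Finsupp.sub_apply, sumPlaces_apply] at h4 ⊢
            by_cases hvE : v ∈ E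
            · have hvS : v ∈ S := by tauto
              simpa [hvE, hvS] using h4
            · have hvS : v ∉ S := fun h => hvE (hSE h)
              simpa [hvE, hvS] using h4
        have h5 := Submodule.finrank_mono heq
        simp only [ell] at hzero hS
        omega
      obtain ⟨P, hPE, hPS, hne⟩ := hex
      refine ⟨insert P S, Finset.insert_subset hPE hSE, by simp [hPS, hSc], ?_⟩
      have h1 := hRR (sumPlaces (insert P S))
      have h2 := hRR (sumPlaces S)
      simp only [degree_sumPlaces, Finset.card_insert_of_notMem hPS, hS] at h1 h2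
      push_cast at h1 h2
      have h3 : ell L (sumPlaces S) ≤ ell L (sumPlaces (insert P S)) :=
        ell_mono (Finset.sum_le_sum_of_subset_of_nonneg (Finset.subset_insert _ _) fun v _ _ =>
          Finsupp.single_nonneg.mpr zero_le_one)
      have h4 : ell L (W - sumPlaces (insert P S)) ≤ ell L (W - sumPlaces S) :=
        ell_mono (sub_le_sub_left (Finset.sum_le_sum_of_subset_of_nonneg
          (Finset.subset_insert _ _) fun v _ _ => Finsupp.single_nonneg.mpr zero_le_one) _)
      omega
  -- With `g` of them, Riemann–Roch gives `ℓ(S) = 1`.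
  obtain ⟨S, hSE, hSc, hS⟩ := key g le_rfl
  refine ⟨S, hSE, hSc, ?_⟩
  have := hRR (sumPlaces S)
  rw [hS, degree_sumPlaces, hSc] at this
  omega

end Fermat.Agent.CurveTorsion
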