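import Fermat.Agent.CurveTorsion.GeneralPosition
import Fermat.Agent.CurveTorsion.Classes

/-!
# Torsion classes given by points and coefficient vectors

The main theorems are `Realizes.ptsClass_torsion`, `Realizes.ptsClass_eq_iff` and
`Realizes.exists_pts`.
-/

set_option autoImplicit false

noncomputable section

open scoped Classical

open Polynomial AlgebraicCurve

namespace Fermat.Agent.CurveTorsion

open FF

/-! ### Series points and vanishing -/

section Ring

variable {R S : Type*} [CommRing R] [CommRing S] {n N : ℕ} (D : CurveData R n)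

/-- A series point. -/
def CurveData.IsPt (t : R) (z : Fin N → R) : Prop := X ^ N ∣ ev t (zpoly z) D.h

/-- Vanishing to order `j` of the element with coefficients `c` at a series point. -/
def CurveData.Van {M : ℕ} (c : CIdx D.m M → R) (j : ℕ) (t : R) (z : Fin N → R) : Prop :=
  X ^ j ∣ ev t (zpoly z) (D.gpoly c)

variable {D}

theorem X_pow_dvd_map (f : R →+* S) {j : ℕ} {p : R[X]} (h : X ^ j ∣ p) : X ^ j ∣ p.map f := by
  have := map_dvd (mapRingHom f) h
  simpa using this

theorem CurveData.IsPt.map (f : R →+* S) {t : R} {z : Fin N → R} (h : D.IsPt t z) :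
    (D.map f).IsPt (f t) (fun j => f (z j)) := by
  have := X_pow_dvd_map f h
  rwa [ev_map, map_zpoly] at this

theorem CurveData.Van.map (f : R →+* S) {M j : ℕ} {c : CIdx D.m M → R} {t : R}
    {z : Fin N → R} (h : D.Van c j t z) :
    (D.map f).Van (fun e : CIdx (D.map f).m M => f (c e)) j (f t) (fun j => f (z j)) := by
  have := X_pow_dvd_map f h
  rwa [ev_map, map_zpoly, CurveData.map_gpoly] at this

theorem CurveData.Van.smul (a : R) {M j : ℕ} {c : CIdx D.m M → R} {t : R} {z : Fin N → R}
    (h : D.Van c j t z) : D.Van (a • c) j t z := by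
  rw [CurveData.Van, D.gpoly_smul, map_mul]
  exact h.mul_left _

theorem coeff_zero_zpoly (z : Fin N → R) (hN : 0 < N) : (zpoly z).coeff 0 = z ⟨0, hN⟩ :=
  coeff_zpoly z ⟨0, hN⟩

end Ring

/-! ### Good points and their classes -/

section Field

variable {L F : Type*} [Field L] [Field F] [Algebra L F] [IsFunctionField L F] [IsAlgClosed L]
  {n N : ℕ} {D : CurveData L n} {x θ : F}

/-- Good series points: distinct, lying over the unramified part. -/
structure GoodPts (D : CurveData L n) {ι : Type*} (t : ι → L) (z : ι → Fin N → L) : Prop where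
  Δ_ne : ∀ i, D.Δ.eval (t i) ≠ 0
  isPt : ∀ i, D.IsPt (t i) (z i)
  inj : Function.Injective fun i => (t i, (zpoly (z i)).coeff 0)

/-- The divisor of points. -/
def ptsDiv (x θ : F) {ι : Type*} [Fintype ι] (t : ι → L) (z : ι → Fin N → L) : Divisor L F :=
  ∑ i, Finsupp.single (seriesPlace x θ (t i) (z i)) 1

/-- The class of the divisor of points minus `M` times the poles of `x`. -/
def ptsClass (P₀ : Place L F) (x θ : F) (M : ℕ) {ι : Type*} [Fintype ι] (t : ι → L)
    (z : ι → Fin N → L) : Pic0 L F :=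
  cls P₀ (ptsDiv x θ t z - M • poles L x)

variable {ι : Type*} [Fintype ι] {t : ι → L} {z : ι → Fin N → L}

theorem degree_ptsDiv : Divisor.degree (ptsDiv x θ t z) = Fintype.card ι := by
  simp [ptsDiv, deg_eq_one]

theorem eq_of_le_of_degree_eq {D E : Divisor L F} (h : D ≤ E)
    (hd : Divisor.degree D = Divisor.degree E) : D = E := by
  refine Finsupp.ext fun v => ?_
  have h0 : (0 : Divisor L F) ≤ E - D := sub_nonneg.mpr h
  have h2 := le_degree h0 v
  rw [map_sub, hd, sub_self] at h2
  have h3 : D v ≤ E v := Finsupp.le_def.mp h v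
  simp only [Finsupp.sub_apply] at h2
  omega

omit [IsAlgClosed L] in
theorem Realizes.evalB_coeff_zero (hN : 0 < N) {t : L} {z : Fin N → L}
    (hz : D.IsPt t z) : evalB t ((zpoly z).coeff 0) D.h = 0 := by
  rw [← coeff_zero_ev]
  exact X_pow_dvd_iff.mp hz 0 hN

omit [IsAlgClosed L] in
theorem Realizes.seriesPlace_eq_iff (H : Realizes D x θ) (hD : D.IsValid) (hN : 0 < N)
    {t t' : L} {z z' : Fin N → L} (hz : D.IsPt t z) (hz' : D.IsPt t' z') :
    seriesPlace x θ t z = seriesPlace x θ t' z' ↔
      t = t' ∧ (zpoly z).coeff 0 = (zpoly z').coeff 0 := by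
  refine ⟨fun h => (H.isPlane hD).ptPlace_inj (Realizes.evalB_coeff_zero hN hz)
    (Realizes.evalB_coeff_zero hN hz') h, fun ⟨h1, h2⟩ => ?_⟩
  rw [seriesPlace, seriesPlace, h1, h2]

omit [IsAlgClosed L] in
theorem ptsDiv_apply (H : Realizes D x θ) (hD : D.IsValid) (hN : 0 < N) (hg : GoodPts D t z)
    (v : Place L F) :
    ptsDiv x θ t z v = if ∃ i, seriesPlace x θ (t i) (z i) = v then 1 else 0 := by
  rw [ptsDiv, Finsupp.finsetSum_apply]
  split_ifs with h
  · obtain ⟨i, rfl⟩ := h
    rw [Finset.sum_eq_single i (fun j _ hj => ?_) (by simp), Finsupp.single_eq_same]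
    refine Finsupp.single_eq_of_ne fun he => hj (hg.inj ?_)
    obtain ⟨h1, h2⟩ := (H.seriesPlace_eq_iff hD hN (hg.isPt i) (hg.isPt j)).mp he
    exact Prod.ext h1.symm h2.symm
  · exact Finset.sum_eq_zero fun i _ => Finsupp.single_eq_of_ne fun he => h ⟨i, he.symm⟩

theorem cls_nsmul_eq (P₀ : Place L F) (A : Divisor L F) (k : ℕ) :
    cls P₀ (k • A) = k • cls P₀ A := map_nsmul _ _ _

/-- The divisor of an element vanishing maximally. -/
theorem Realizes.div_cfun (H : Realizes D x θ) (hD : D.IsValid) (hN : 0 < N)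
    (hg : GoodPts D t z) {M : ℕ} (hcard : Fintype.card ι = M * n)
    {c : CIdx D.m (N * M) → L} (hc : c ≠ 0) (hv : ∀ i, D.Van c N (t i) (z i)) :
    D.cfun x θ c ≠ 0 ∧
      (N * M) • poles L x + div L (D.cfun x θ c) = N • ptsDiv x θ t z := by
  have hf0 : D.cfun x θ c ≠ 0 := fun h => hc (H.cfun_eq_zero h)
  refine ⟨hf0, (eq_of_le_of_degree_eq (Finsupp.le_def.mpr fun v => ?_) ?_).symm⟩
  · have hpos := (mem_riemannRochSpace_iff_nonneg _ hf0).mp (H.cfun_mem c) v
    rw [Finsupp.smul_apply, ptsDiv_apply H hD hN hg v]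
    split_ifs with h
    · obtain ⟨i, rfl⟩ := h
      have h1 := le_ord_of_mem_ordGe _ hf0
        ((H.cfun_mem_ordGe_iff hD hN (hg.Δ_ne i) (hg.isPt i) c le_rfl).mpr (hv i))
      have h2 := (H.isPlane hD).ptPlace_spec (Realizes.evalB_coeff_zero hN (hg.isPt i))
      have h3 : x ∈ (seriesPlace x θ (t i) (z i)).toValuationSubring :=
        mem_of_sub_mem _ (j := 1) h2.1
      have h4 := ord_nonneg _ h3
      simp only [Finsupp.add_apply, Finsupp.smul_apply, div_apply, poles_apply,
        max_eq_left (show -(seriesPlace x θ (t i) (z i)).ord x ≤ 0 by omega), smul_zero,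
        zero_add, nsmul_eq_mul, mul_one]
      exact h1
    · simpa using hpos
  · rw [map_add, degree_div, add_zero, map_nsmul, map_nsmul, degree_ptsDiv, H.degree_poles, hcard,
      nsmul_eq_mul, nsmul_eq_mul]
    push_cast
    ring

/-- Series points at which a nonzero function vanishes to order `N` give an `N`-torsion class. -/
theorem Realizes.ptsClass_torsion (H : Realizes D x θ) (hD : D.IsValid) (hN : 0 < N)
    (hg : GoodPts D t z) {M : ℕ} (hcard : Fintype.card ι = M * n)
    {c : CIdx D.m (N * M) → L} (hc : c ≠ 0) (hv : ∀ i, D.Van c N (t i) (z i)) (P₀ : Place L F) :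
    ptsClass P₀ x θ M t z ∈ Pic0.torsion L F N := by
  obtain ⟨hf, hdiv⟩ := H.div_cfun hD hN hg hcard hc hv
  rw [Pic0.mem_torsion, natCast_zsmul, ptsClass, ← cls_nsmul_eq, smul_sub, ← hdiv, mul_smul,
    add_sub_cancel_left, cls_div P₀ hf]

omit [IsAlgClosed L] in
/-- The poles of `x` avoid the series points. -/
private theorem Realizes.poles_seriesPlace (H : Realizes D x θ) (hD : D.IsValid) (hN : 0 < N)
    {s : L} {w : Fin N → L} (hw : D.IsPt s w) : poles L x (seriesPlace x θ s w) = 0 := by
  have hspec := (H.isPlane hD).ptPlace_spec (Realizes.evalB_coeff_zero hN hw)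
  have hord := ord_nonneg _ (mem_of_sub_mem (seriesPlace x θ s w) (j := 1) hspec.1)
  rw [poles_apply]
  omega

/-- If the classes agree, some element vanishes simply at the one points and to order `N - 1` at
the others. -/
private theorem Realizes.exists_witness_of_eq (H : Realizes D x θ) (hD : D.IsValid) (hN : 0 < N)
    {ι' : Type*} [Fintype ι'] {t' : ι' → L} {z' : ι' → Fin N → L}
    (hg : GoodPts D t z) (hg' : GoodPts D t' z')
    {M : ℕ} (hcard : Fintype.card ι = M * n) (hcard' : Fintype.card ι' = M * n)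
    {c' : CIdx D.m (N * M) → L} (hc' : c' ≠ 0) (hv' : ∀ i, D.Van c' N (t' i) (z' i))
    (P₀ : Place L F) (h : ptsClass P₀ x θ M t z = ptsClass P₀ x θ M t' z') :
    ∃ c : CIdx D.m (N * M) → L, c ≠ 0 ∧ (∀ i, D.Van c 1 (t i) (z i)) ∧
      ∀ i, D.Van c (N - 1) (t' i) (z' i) := by
  obtain ⟨hf', hdiv'⟩ := H.div_cfun hD hN hg' hcard' hc' hv'
  set A := ptsDiv x θ t z
  set A' := ptsDiv x θ t' z'
  have hN1 : (N - 1) + 1 = N := by omega
  rw [ptsClass, ptsClass, map_sub, map_sub, sub_left_inj] at h
  obtain ⟨f, hf, hfe⟩ := exists_eq_add_div (P₀ := P₀)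
    (by rw [degree_ptsDiv, degree_ptsDiv, hcard, hcard']) h.symm
  -- `f D.cfun c'` has divisor `A + (N - 1) A' - N M (x)_∞`, so it is some `D.cfun c`
  set f2 := f * D.cfun x θ c'
  have hf2 : f2 ≠ 0 := mul_ne_zero hf hf'
  have hdiv : (N * M) • poles L x + div L f2 = A + (N - 1) • A' := by
    rw [FF.div_mul hf hf', ← add_assoc, add_right_comm, hdiv', show A = A' + div L f from hfe]
    conv_lhs => rw [← hN1, add_smul, one_smul]
    abel
  have hnn : ∀ v, 0 ≤ A v ∧ 0 ≤ A' v := fun v => by
    rw [ptsDiv_apply H hD hN hg, ptsDiv_apply H hD hN hg']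
    constructor <;> split_ifs <;> norm_num
  obtain ⟨c, hcf⟩ := H.exists_cfun (M := N * M) (f := f2)
    ((mem_riemannRochSpace_iff_nonneg _ hf2).mpr fun v => by
      rw [hdiv, Finsupp.add_apply, Finsupp.smul_apply, nsmul_eq_mul]
      have := hnn v
      have : 0 ≤ ((N - 1 : ℕ) : ℤ) * A' v := mul_nonneg (Int.natCast_nonneg _) this.2
      omega)
  -- whose orders at the points give the vanishing
  refine ⟨c, fun h0 => hf2 (by simp [← hcf, h0, CurveData.cfun, cpoly, zpoly]), fun i => ?_,
    fun i => ?_⟩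
  · refine (H.cfun_mem_ordGe_iff hD hN (hg.Δ_ne i) (hg.isPt i) c (by omega)).mp ?_
    refine mem_ordGe_of_le _ ?_
    rw [hcf]
    have hat := congrArg (fun E : Divisor L F => E (seriesPlace x θ (t i) (z i))) hdiv
    simp only [Finsupp.add_apply, Finsupp.smul_apply,
      H.poles_seriesPlace hD hN (hg.isPt i), smul_zero, zero_add, div_apply] at hat
    rw [hat, ptsDiv_apply H hD hN hg, if_pos ⟨i, rfl⟩]
    have hA := (hnn (seriesPlace x θ (t i) (z i))).2
    have : 0 ≤ (N - 1) • A' (seriesPlace x θ (t i) (z i)) := nsmul_nonneg hA _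
    omega
  · refine (H.cfun_mem_ordGe_iff hD hN (hg'.Δ_ne i) (hg'.isPt i) c (by omega)).mp ?_
    refine mem_ordGe_of_le _ ?_
    rw [hcf]
    have hat := congrArg (fun E : Divisor L F => E (seriesPlace x θ (t' i) (z' i))) hdiv
    simp only [Finsupp.add_apply, Finsupp.smul_apply,
      H.poles_seriesPlace hD hN (hg'.isPt i), smul_zero, zero_add, div_apply] at hat
    rw [hat, ptsDiv_apply H hD hN hg' (seriesPlace x θ (t' i) (z' i)), if_pos ⟨i, rfl⟩,
      nsmul_eq_mul, mul_one]
    have hA := (hnn (seriesPlace x θ (t' i) (z' i))).1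
    omega

/-- An element vanishing simply at the one points and to order `N - 1` at the others shows that the
classes agree. -/
private theorem Realizes.eq_of_witness (H : Realizes D x θ) (hD : D.IsValid) (hN : 0 < N)
    {ι' : Type*} [Fintype ι'] {t' : ι' → L} {z' : ι' → Fin N → L}
    (hg : GoodPts D t z) (hg' : GoodPts D t' z')
    (hdisj : ∀ i i', (t i, (zpoly (z i)).coeff 0) ≠ (t' i', (zpoly (z' i')).coeff 0))
    {M : ℕ} (hcard : Fintype.card ι = M * n) (hcard' : Fintype.card ι' = M * n)
    {c' : CIdx D.m (N * M) → L} (hc' : c' ≠ 0) (hv' : ∀ i, D.Van c' N (t' i) (z' i))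
    (P₀ : Place L F) {c : CIdx D.m (N * M) → L} (hc : c ≠ 0)
    (hv : ∀ i, D.Van c 1 (t i) (z i)) (hv2 : ∀ i, D.Van c (N - 1) (t' i) (z' i)) :
    ptsClass P₀ x θ M t z = ptsClass P₀ x θ M t' z' := by
  obtain ⟨hf', hdiv'⟩ := H.div_cfun hD hN hg' hcard' hc' hv'
  set A := ptsDiv x θ t z
  set A' := ptsDiv x θ t' z'
  have hN1 : (N - 1) + 1 = N := by omega
  have hf : D.cfun x θ c ≠ 0 := fun h => hc (H.cfun_eq_zero h)
  -- the divisor of `D.cfun c` is bounded below and has the right degree, hence is determined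
  have heq : A + (N - 1) • A' = (N * M) • poles L x + div L (D.cfun x θ c) := by
    refine eq_of_le_of_degree_eq (Finsupp.le_def.mpr fun v => ?_) ?_
    · have hpos := (mem_riemannRochSpace_iff_nonneg _ hf).mp (H.cfun_mem c) v
      rw [Finsupp.add_apply, Finsupp.smul_apply, ptsDiv_apply H hD hN hg v,
        ptsDiv_apply H hD hN hg' v]
      by_cases h : ∃ i, seriesPlace x θ (t i) (z i) = v
      · obtain ⟨i, rfl⟩ := h
        rw [if_pos ⟨i, rfl⟩, if_neg (fun ⟨i', hi'⟩ => hdisj i i' (by
          obtain ⟨e1, e2⟩ := (H.seriesPlace_eq_iff hD hN (hg'.isPt i') (hg.isPt i)).mp hi'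
          exact (Prod.ext e1 e2).symm))]
        have hord := le_ord_of_mem_ordGe _ hf
          ((H.cfun_mem_ordGe_iff hD hN (hg.Δ_ne i) (hg.isPt i) c (by omega)).mpr (hv i))
        simp only [Finsupp.add_apply, Finsupp.smul_apply,
          H.poles_seriesPlace hD hN (hg.isPt i), smul_zero, zero_add, div_apply, add_zero]
        exact_mod_cast hord
      · rw [if_neg h, zero_add]
        split_ifs with h'
        · obtain ⟨i', rfl⟩ := h'
          have hord := le_ord_of_mem_ordGe _ hf
            ((H.cfun_mem_ordGe_iff hD hN (hg'.Δ_ne i') (hg'.isPt i') c (by omega)).mpr (hv2 i'))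
          simp only [Finsupp.add_apply, Finsupp.smul_apply,
            H.poles_seriesPlace hD hN (hg'.isPt i'), smul_zero, zero_add, div_apply, nsmul_eq_mul,
            mul_one]
          exact hord
        · simpa using hpos
    · rw [map_add, map_add, degree_div, add_zero, map_nsmul, map_nsmul, degree_ptsDiv,
        degree_ptsDiv, H.degree_poles, hcard, hcard', nsmul_eq_mul, nsmul_eq_mul]
      rw [Nat.cast_sub hN]
      push_cast
      ring
  -- now take classes, and compare with `c'`
  have hclc := congrArg (cls P₀) heq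
  have hclc' := congrArg (cls P₀) hdiv'
  rw [map_add, map_nsmul, map_add, cls_div P₀ hf, add_zero] at hclc
  rw [map_add, cls_div P₀ hf', add_zero, map_nsmul, map_nsmul] at hclc'
  rw [ptsClass, ptsClass, map_sub, map_sub, sub_left_inj]
  refine add_right_cancel (b := (N - 1) • cls P₀ A') ?_
  rw [hclc, map_nsmul, hclc']
  conv_lhs => rw [← hN1, add_smul, one_smul]
  abel

/-! ### Comparing and choosing points -/

/-- Equality of classes of disjoint points is witnessed by a single element. -/
theorem Realizes.ptsClass_eq_iff (H : Realizes D x θ) (hD : D.IsValid) (hN : 0 < N)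
    {ι' : Type*} [Fintype ι'] {t' : ι' → L} {z' : ι' → Fin N → L}
    (hg : GoodPts D t z) (hg' : GoodPts D t' z')
    (hdisj : ∀ i i', (t i, (zpoly (z i)).coeff 0) ≠ (t' i', (zpoly (z' i')).coeff 0))
    {M : ℕ} (hcard : Fintype.card ι = M * n) (hcard' : Fintype.card ι' = M * n)
    {c' : CIdx D.m (N * M) → L} (hc' : c' ≠ 0) (hv' : ∀ i, D.Van c' N (t' i) (z' i))
    (P₀ : Place L F) :
    ptsClass P₀ x θ M t z = ptsClass P₀ x θ M t' z' ↔
      ∃ c : CIdx D.m (N * M) → L, c ≠ 0 ∧ (∀ i, D.Van c 1 (t i) (z i)) ∧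
        ∀ i, D.Van c (N - 1) (t' i) (z' i) :=
  ⟨H.exists_witness_of_eq hD hN hg hg' hcard hcard' hc' hv' P₀, fun ⟨_, hc, hv, hv2⟩ =>
    H.eq_of_witness hD hN hg hg' hdisj hcard hcard' hc' hv' P₀ hc hv hv2⟩

/-- Data chosen for finitely many objects, avoiding the values taken for the others. -/
theorem exists_choice_pairwise_ne {α β γ : Type*} {ι : Type*} [Fintype ι] [DecidableEq α]
    [DecidableEq γ] [Nonempty α] (P : α → β → Prop) (f : β → ι → γ)
    (h : ∀ a (T : Finset γ), ∃ r, P a r ∧ ∀ i, f r i ∉ T) (C : Finset α) :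
    ∃ R : α → β, (∀ c ∈ C, P c (R c)) ∧
      ∀ c ∈ C, ∀ c' ∈ C, c ≠ c' → ∀ i i', f (R c) i ≠ f (R c') i' := by
  induction C using Finset.induction_on with
  | empty =>
    obtain ⟨r, -⟩ := h (Classical.arbitrary α) ∅
    exact ⟨fun _ => r, by simp, by simp⟩
  | insert a s ha ih =>
    obtain ⟨R, hR, hd⟩ := ih
    obtain ⟨r, hr, hT⟩ := h a (s.biUnion fun c => Finset.univ.image (f (R c)))
    refine ⟨Function.update R a r, fun b hb => ?_, fun b hb b' hb' hne i i' => ?_⟩
    · rcases Finset.mem_insert.mp hb with rfl | hb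
      · rwa [Function.update_self]
      · rw [Function.update_of_ne (fun h : b = a => ha (h ▸ hb))]
        exact hR b hb
    · have key : ∀ c ∈ s, ∀ i j, f r i ≠ f (R c) j := fun c hc i j e => hT i
        (Finset.mem_biUnion.mpr ⟨c, hc, Finset.mem_image.mpr ⟨j, Finset.mem_univ _, e.symm⟩⟩)
      have hup : ∀ c ∈ s, Function.update R a r c = R c := fun c hc =>
        Function.update_of_ne (fun h : c = a => ha (h ▸ hc)) _ _
      rcases Finset.mem_insert.mp hb with rfl | hbs <;>
        rcases Finset.mem_insert.mp hb' with hb'a | hbs'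
      · exact absurd hb'a.symm hne
      · rw [Function.update_self, hup b' hbs']
        exact key b' hbs' i i'
      · rw [hb'a, Function.update_self, hup b hbs]
        exact (key b hbs i' i).symm
      · rw [hup b hbs, hup b' hbs']
        exact hd b hbs b' hbs' hne i i'

/-- Every torsion class is given by good points away from given values. -/
theorem Realizes.exists_pts (H : Realizes D x θ) (hD : D.IsValid) (hN : 0 < N) (M : ℕ)
    (hM : 2 * (genusFF L F : ℤ) + 2 ≤ (M : ℤ) * n) (P₀ : Place L F) (cl : Pic0 L F)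
    (hcl : cl ∈ Pic0.torsion L F N) (T : Finset L) :
    ∃ (t : Fin (M * n) → L) (z : Fin (M * n) → Fin N → L) (c : CIdx D.m (N * M) → L)
      (e : CIdx D.m (N * M)) (S : Finset (Fin (M * n))),
      GoodPts D t z ∧ (∀ i, t i ∉ T) ∧ c e = 1 ∧ (∀ i, D.Van c N (t i) (z i)) ∧
      ptsClass P₀ x θ M t z = cl ∧ S.card = genusFF L F ∧
      ell L (∑ i ∈ S, Finsupp.single (seriesPlace x θ (t i) (z i)) (1 : ℤ)) = 1 := by
  -- Represent `cl` by `E - M • poles x`, with `E` good places away from `T`, each given by a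
  -- series point.
  set R := repDiv P₀ cl 0 + M • poles L x
  have hdR : Divisor.degree R = (M : ℤ) * n := by
    rw [map_add, degree_repDiv, map_nsmul, H.degree_poles, nsmul_eq_mul, zero_add]
  obtain ⟨E, hE, f, hf, hfE⟩ :=
    exists_reduced_rep R (by rw [hdR]; exact hM) (finite_bad (D := D) (x := x) T)
  have hcardE : (E.card : ℤ) = (M : ℤ) * n := by
    have := congrArg Divisor.degree hfE
    rwa [map_add, degree_div, add_zero, hdR, degree_sumPlaces, eq_comm] at this
  have hcard : E.card = M * n := by exact_mod_cast hcardE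
  let e : Fin (M * n) ≃ E := (finCongr hcard.symm).trans E.equivFin.symm
  have hpt := fun i => exists_pt_of_good hD H T (hE _ (e i).2)
  choose t y hT hΔ hy hv using hpt
  have hser := fun i => exists_series D.h (t i) (y i) (hy i)
    (evalB_derivative_ne_zero (hD.separable D (isUnit_iff_ne_zero.mpr (hΔ i))) (hy i)) N
  choose ζ hζ0 hζ using hser
  let z : Fin (M * n) → Fin N → L := fun i j => (ζ i).coeff j
  have hz0 : ∀ i, (zpoly (z i)).coeff 0 = y i := fun i => by
    rw [coeff_zero_zpoly _ hN]; exact hζ0 i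
  have hpl : ∀ i, seriesPlace x θ (t i) (z i) = e i := fun i => by
    rw [seriesPlace, hz0, ← hv i]
  have hgood : GoodPts D t z := ⟨hΔ,
    fun i => (dvd_ev_congr le_rfl (zpoly_congr (ζ i)) D.h).mpr (hζ i), fun i j hij => by
      obtain ⟨e1, e2⟩ := Prod.ext_iff.mp hij
      simp only [hz0] at e1 e2
      exact e.injective (Subtype.ext (by rw [hv i, hv j, e1, e2]))⟩
  have hdiv : ptsDiv x θ t z = sumPlaces E := by
    rw [sumPlaces, ← Finset.sum_coe_sort, ptsDiv, ← e.sum_comp]
    simp only [hpl]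
  have hclass : ptsClass P₀ x θ M t z = cl := by
    rw [ptsClass, hdiv, ← hfE, map_sub, map_add, map_add, cls_div P₀ hf, cls_repDiv]
    abel
  -- As `cl` is killed by `N`, a function `w` has divisor `N • (E - M • poles x)`; its coefficients
  -- vanish to order `N` at the points.
  have h0 : cls P₀ (N • (ptsDiv x θ t z - M • poles L x)) = 0 := by
    rw [cls_nsmul_eq, ← ptsClass, hclass, ← natCast_zsmul]
    exact Pic0.mem_torsion.mp hcl
  obtain ⟨w, hw, hwd⟩ := (cls_eq_zero_iff P₀ (by
    rw [map_nsmul, map_sub, degree_ptsDiv, map_nsmul, H.degree_poles, Fintype.card_fin,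
      nsmul_eq_mul, nsmul_eq_mul]
    push_cast
    ring)).mp h0
  have hwd' : (N * M) • poles L x + div L w = N • ptsDiv x θ t z := by
    rw [← hwd, smul_sub, mul_smul]; abel
  have hwnn : ∀ v, 0 ≤ (N • ptsDiv x θ t z) v := fun v => by
    rw [Finsupp.smul_apply, ptsDiv_apply H hD hN hgood]
    split_ifs <;> simp
  obtain ⟨c, hcw⟩ := H.exists_cfun (M := N * M) (f := w)
    ((mem_riemannRochSpace_iff_nonneg _ hw).mpr fun v => by rw [hwd']; exact hwnn v)
  have hvan : ∀ i, D.Van c N (t i) (z i) := fun i => by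
    refine (H.cfun_mem_ordGe_iff hD hN (hgood.Δ_ne i) (hgood.isPt i) c le_rfl).mp
      (mem_ordGe_of_le _ ?_)
    rw [hcw]
    have h5 := congrArg (fun E : Divisor L F => E (seriesPlace x θ (t i) (z i))) hwd'
    have h2 := (H.isPlane hD).ptPlace_spec (Realizes.evalB_coeff_zero hN (hgood.isPt i))
    have h4 := ord_nonneg _ (mem_of_sub_mem (seriesPlace x θ (t i) (z i)) (j := 1) h2.1)
    simp only [Finsupp.add_apply, Finsupp.smul_apply, poles_apply, div_apply,
      ptsDiv_apply H hD hN hgood (seriesPlace x θ (t i) (z i)),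
      if_pos (show ∃ j, seriesPlace x θ (t j) (z j) = seriesPlace x θ (t i) (z i) from ⟨i, rfl⟩),
      max_eq_left (show -(seriesPlace x θ (t i) (z i)).ord x ≤ 0 by omega), smul_zero, zero_add,
      nsmul_eq_mul, mul_one] at h5
    rw [h5]
  obtain ⟨e0, he0⟩ : ∃ e0, c e0 ≠ 0 := by
    by_contra! h
    exact hw (by simp [← hcw, funext h, CurveData.cfun, cpoly, zpoly])
  -- Some `g` of the places are non-special; scale a nonzero coefficient to `1`.
  obtain ⟨S, hSE, hSc, hSl⟩ := exists_nonspecial_subset E (by omega)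
  refine ⟨t, z, (c e0)⁻¹ • c, e0, Finset.univ.filter fun i => (e i : Place L F) ∈ S, hgood, hT,
    by simp [he0], fun i => (hvan i).smul _, hclass, ?_, ?_⟩
  · rw [← hSc]
    refine Finset.card_bij (fun i _ => (e i : Place L F)) (fun i hi => (Finset.mem_filter.mp hi).2)
      (fun i _ j _ h => e.injective (Subtype.ext h)) fun v hv => ?_
    exact ⟨e.symm ⟨v, hSE hv⟩, by simp [hv], by simp⟩
  · refine Eq.trans ?_ hSl
    congr 1
    refine Finset.sum_bij (fun i _ => (e i : Place L F)) (fun i hi => (Finset.mem_filter.mp hi).2)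
      (fun i _ j _ h => e.injective (Subtype.ext h)) (fun v hv =>
      ⟨e.symm ⟨v, hSE hv⟩, by simp [hv], by simp⟩) fun i _ => by rw [hpl]

end Field

end Fermat.Agent.CurveTorsion
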