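import Fermat.Agent.CurveTorsion.CurveData
import Fermat.Agent.RedTorsion.ReducedBasis
import Fermat.Prelude.Def_AlgebraicCurve_BaseChangeGalois
import Mathlib.FieldTheory.RatFunc.AsPolynomial
import Mathlib.LinearAlgebra.Dimension.OrzechProperty

/-!
# The function field of valid curve data over an algebraically closed field

The main theorem is `exists_realizes`.
-/

set_option autoImplicit false

noncomputable section

open Polynomial AlgebraicCurve IntermediateField
open scoped Polynomial.Bivariate

namespace Fermat.Agent.CurveTorsion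

open FF

universe u

/-! ### Evaluation and realisations -/

/-- Evaluation of a bivariate polynomial. -/
def evalB {k E : Type*} [CommRing k] [CommRing E] [Algebra k E] (x θ : E) : k[X][Y] →+* E :=
  eval₂RingHom (aeval x).toRingHom θ

/-- `evalB x θ` evaluates the coefficients at `x`. -/
theorem evalB_C {k E : Type*} [CommRing k] [CommRing E] [Algebra k E] (x θ : E) (p : k[X]) :
    evalB x θ (C p) = aeval x p := eval₂_C _ _

/-- `evalB x θ` sends `Y` to `θ`. -/
theorem evalB_Y {k E : Type*} [CommRing k] [CommRing E] [Algebra k E] (x θ : E) :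
    evalB (k := k) x θ Y = θ := eval₂_X _ _

/-- The basis elements. -/
def CurveData.uElem {k F : Type*} [Field k] [Field F] [Algebra k F] {n : ℕ} (D : CurveData k n)
    (x θ : F) (i : Fin n) : F :=
  evalB x θ (D.U i) / aeval x D.Δ

/-- `(F, x, θ)` is the function field of the data `D`: `F = k(x, θ)`, `θ` is a root of `h` of
degree `n` over `k(x)`, and the `Uᵢ(x, θ) / Δ(x)` form a reduced basis with weights `mᵢ`. -/
structure Realizes {k F : Type*} [Field k] [Field F] [Algebra k F] [IsFunctionField k F] {n : ℕ}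
    (D : CurveData k n) (x θ : F) : Prop where
  trans : Transcendental k x
  root : evalB x θ D.h = 0
  finrank : Module.finrank k⟮x⟯ F = n
  gen : IntermediateField.adjoin k {x, θ} = ⊤
  reduced : RedTorsion.IsReduced (K := k) x (D.uElem x θ) D.m

theorem mem_of_isIntegral_adjoin {k F : Type*} [Field k] [Field F] [Algebra k F] (v : Place k F)
    {z f : F} (hz : z ∈ v.toValuationSubring) (hf : IsIntegral (Algebra.adjoin k {z}) f) :
    f ∈ v.toValuationSubring := by
  obtain ⟨p, hp, hpf⟩ := hf
  refine (mem_ordGe_zero v).mp (RedTorsion.mem_ordGe_zero_of_monic_rel v (d := p.natDegree)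
    (a := fun i => ((p.coeff i : Algebra.adjoin k {z}) : F)) (fun i => ?_) ?_)
  · rw [mem_ordGe_zero]
    have h1 := (p.coeff i).2
    have h2 : ∀ y ∈ Algebra.adjoin k {z}, y ∈ v.toValuationSubring := fun y hy => by
      rw [Algebra.adjoin_singleton_eq_range_aeval] at hy
      obtain ⟨g, rfl⟩ := hy
      exact aeval_mem_valuationSubring v hz g
    exact h2 _ h1
  · rw [eval₂_eq_sum_range, Finset.sum_range_succ, hp.coeff_natDegree, map_one, one_mul] at hpf
    rw [add_comm]
    exact hpf

theorem isIntegral_of_idem {R E : Type*} [CommRing R] [CommRing E] [Algebra R E] {e : E}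
    (he : e * e = e) : IsIntegral R e := by
  rcases subsingleton_or_nontrivial R with hR | hR
  · exact ⟨1, monic_one, Subsingleton.elim (h := RingHom.codomain_trivial (algebraMap R E)) _ _⟩
  refine ⟨X ^ 2 - X, monic_X_pow_sub (by simp), ?_⟩
  simp [pow_two, he]

variable {k : Type u} [Field k] {n : ℕ}

/-! ### The equation over `k(x)` -/

/-- The equation over the rational function field. -/
def CurveData.hR (D : CurveData k n) : (RatFunc k)[X] := D.h.map (algebraMap k[X] (RatFunc k))

theorem evalB_adjoinRoot (D : CurveData k n) (g : k[X][Y]) :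
    evalB (k := k) (AdjoinRoot.of D.hR RatFunc.X) (AdjoinRoot.root D.hR) g
      = AdjoinRoot.mk D.hR (g.map (algebraMap k[X] (RatFunc k))) := by
  have h : (evalB (k := k) (AdjoinRoot.of D.hR RatFunc.X) (AdjoinRoot.root D.hR))
      = (AdjoinRoot.mk D.hR).comp (mapRingHom (algebraMap k[X] (RatFunc k))) := by
    refine Polynomial.ringHom_ext (fun p => ?_) ?_
    · rw [evalB_C, RingHom.comp_apply, coe_mapRingHom, Polynomial.map_C, AdjoinRoot.mk_C]
      have h2 : aeval (R := k) (AdjoinRoot.of D.hR RatFunc.X) p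
          = AdjoinRoot.of D.hR (aeval (R := k) RatFunc.X p) :=
        aeval_algebraMap_apply (AdjoinRoot D.hR) (RatFunc.X : RatFunc k) p
      rw [h2, ← RatFunc.algebraMap_X, aeval_algebraMap_apply, aeval_X_left_apply]
    · rw [evalB_Y, RingHom.comp_apply, coe_mapRingHom, Polynomial.map_X, AdjoinRoot.mk_X]
  exact RingHom.congr_fun h g

theorem aeval_adjoinRoot (D : CurveData k n) (p : k[X]) :
    aeval (R := k) (AdjoinRoot.of D.hR RatFunc.X) p
      = AdjoinRoot.of D.hR (algebraMap k[X] (RatFunc k) p) := by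
  rw [← evalB_C (AdjoinRoot.of D.hR RatFunc.X) (AdjoinRoot.root D.hR) p, evalB_adjoinRoot,
    Polynomial.map_C, AdjoinRoot.mk_C]

/-- The equation is separable over the rational functions. -/
private theorem separable_hR {D : CurveData k n} (hD : D.IsValid) (hΔ0 : D.Δ ≠ 0) :
    D.hR.Separable := by
  set φ := algebraMap k[X] (RatFunc k)
  have hΔR : φ D.Δ ≠ 0 := (map_ne_zero_iff φ (RatFunc.algebraMap_injective k)).mpr hΔ0
  obtain ⟨a, b, h⟩ := hD.bez
  have h1 := congrArg (Polynomial.map φ) h
  simp only [Polynomial.map_add, Polynomial.map_mul, Polynomial.map_C, ← derivative_map] at h1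
  refine ⟨a.map φ * C (φ D.Δ)⁻¹, b.map φ * C (φ D.Δ)⁻¹, ?_⟩
  calc a.map φ * C (φ D.Δ)⁻¹ * D.hR + b.map φ * C (φ D.Δ)⁻¹ * derivative D.hR
      = (D.hR * a.map φ + derivative D.hR * b.map φ) * C (φ D.Δ)⁻¹ := by ring
    _ = 1 := by rw [CurveData.hR, h1, ← C_mul, mul_inv_cancel₀ hΔR, C_1]

/-- Common denominators: every element of a span over the rational functions is a polynomial
combination up to a polynomial factor. -/
private theorem exists_aeval_mul_mem_range_comb {E : Type u} [CommRing E] [Algebra k E]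
    [Algebra (RatFunc k) E] {xE : E} {u : Fin n → E}
    (haev : ∀ p : k[X], aeval xE p = algebraMap (RatFunc k) E (algebraMap k[X] (RatFunc k) p))
    (hspan : ⊤ ≤ Submodule.span (RatFunc k) (Set.range u)) (y : E) :
    ∃ q : k[X], q ≠ 0 ∧ aeval xE q * y ∈ LinearMap.range (comb (k := k) xE u) := by
  set φ := algebraMap k[X] (RatFunc k)
  have hφ : Function.Injective φ := RatFunc.algebraMap_injective k
  obtain ⟨r, rfl⟩ := (Submodule.mem_span_range_iff_exists_fun _).mp
    (hspan (Submodule.mem_top : y ∈ ⊤))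
  refine ⟨∏ i, (r i).denom, Finset.prod_ne_zero_iff.mpr fun i _ => (r i).denom_ne_zero,
    fun i => (r i).num * ∏ j ∈ Finset.univ.erase i, (r j).denom, ?_⟩
  rw [comb_apply, Finset.mul_sum]
  refine Finset.sum_congr rfl fun i _ => ?_
  have hr : φ ((r i).num * ∏ j ∈ Finset.univ.erase i, (r j).denom)
      = φ (∏ j, (r j).denom) * r i := by
    rw [← Finset.mul_prod_erase Finset.univ (fun j => (r j).denom) (Finset.mem_univ i), map_mul,
      map_mul]
    have hd : φ (r i).denom ≠ 0 := (map_ne_zero_iff φ hφ).mpr (r i).denom_ne_zero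
    have hnd : φ (r i).num = φ (r i).denom * r i := by
      conv_rhs => enter [2]; rw [← RatFunc.num_div_denom (r i)]
      rw [mul_div_cancel₀ _ hd]
    rw [hnd]
    ring
  rw [haev, haev, hr, map_mul, Algebra.smul_def, mul_assoc]

/-- Elements integral at both charts have poles bounded by their weight. -/
private theorem mem_ordGe_of_isIntegral_both {E : Type u} [Field E] [Algebra k E]
    [IsFunctionField k E]
    {x z : E} (hx0 : x ≠ 0) {m : ℕ} (hint : IsIntegral (Algebra.adjoin k {x}) z)
    (hint' : IsIntegral (Algebra.adjoin k {x⁻¹}) (x⁻¹ ^ m * z)) (h0 : z ≠ 0) (v : Place k E) :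
    z ∈ ordGe v (-((m : ℤ) * poles k x v)) := by
  refine mem_ordGe_of_le v ?_
  rw [poles_apply]
  by_cases hv : 0 ≤ v.ord x
  · have := ord_nonneg v (mem_of_isIntegral_adjoin v ((mem_iff v).mpr (Or.inr hv)) hint)
    have hmax : max 0 (-v.ord x) = 0 := by omega
    rw [hmax, mul_zero, neg_zero]
    exact this
  · have h2 := ord_nonneg v (mem_of_isIntegral_adjoin v
      ((mem_iff v).mpr (Or.inr (by rw [v.ord_inv]; omega))) hint')
    rw [v.ord_mul (pow_ne_zero _ (inv_ne_zero hx0)) h0, ord_pow, v.ord_inv] at h2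
    have hmax : max 0 (-v.ord x) = -v.ord x := by omega
    rw [hmax]
    linarith

/-- Elements with poles bounded by `N` are integral at both charts. -/
private theorem isIntegral_both_of_mem_ordGe {E : Type u} [Field E] [Algebra k E]
    [IsFunctionField k E]
    {x y : E} {N : ℕ} (hy : ∀ v, y ∈ ordGe v (-((N : ℤ) * poles k x v))) :
    IsIntegral (Algebra.adjoin k {x}) y ∧ IsIntegral (Algebra.adjoin k {x⁻¹}) (x⁻¹ ^ N * y) := by
  have hy1 : IsIntegral (Algebra.adjoin k {x}) y := isIntegral_of_forall_mem _ fun v hv => by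
    have hx : 0 ≤ v.ord x := ord_nonneg v (hv _ (Algebra.self_mem_adjoin_singleton k x))
    rw [← mem_ordGe_zero]
    refine ordGe_anti v ?_ (hy v)
    rw [poles_apply, max_eq_left (by omega), mul_zero, neg_zero]
  have hy2 : IsIntegral (Algebra.adjoin k {x⁻¹}) (x⁻¹ ^ N * y) :=
    isIntegral_of_forall_mem _ fun v hv => by
      have hx := ord_nonneg v (hv _ (Algebra.self_mem_adjoin_singleton k x⁻¹))
      rw [v.ord_inv] at hx
      rw [← mem_ordGe_zero]
      refine ordGe_anti v ?_
        (mul_mem_ordGe v (mem_ordGe_of_le v (le_refl (v.ord (x⁻¹ ^ N)))) (hy v))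
      rw [ord_pow, v.ord_inv, poles_apply, max_eq_right (by omega)]
      linarith
  exact ⟨hy1, hy2⟩

/-- An automorphism of the constants fixing the equation extends to the function field. -/
private theorem exists_semilinearAut (D : CurveData k n) [Fact (Irreducible D.hR)] {σ : k ≃+* k}
    (hσ : D.h.map (mapRingHom (σ : k →+* k)) = D.h) :
    ∃ g : SemilinearAut k (AdjoinRoot D.hR), SemilinearAut.baseAut g = σ ∧
      g • AdjoinRoot.of D.hR RatFunc.X = AdjoinRoot.of D.hR RatFunc.X ∧
      g • AdjoinRoot.root D.hR = AdjoinRoot.root D.hR := by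
  set φ := algebraMap k[X] (RatFunc k)
  let E := AdjoinRoot D.hR
  let o : RatFunc k →+* E := AdjoinRoot.of D.hR
  let xE : E := o RatFunc.X
  let θE : E := AdjoinRoot.root D.hR
  have haev : ∀ p : k[X], aeval xE p = o (φ p) := aeval_adjoinRoot D
  let σP : k[X] ≃+* k[X] := Polynomial.mapEquiv σ
  let σR : RatFunc k ≃+* RatFunc k := IsFractionRing.ringEquivOfRingEquiv σP
  have hσR : ∀ p, σR (φ p) = φ (p.map (σ : k →+* k)) := fun p =>
    IsFractionRing.ringEquivOfRingEquiv_algebraMap σP p
  have hh : D.hR.map (σR : RatFunc k →+* RatFunc k) = D.hR := by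
    conv_rhs => rw [CurveData.hR, ← hσ, Polynomial.map_map]
    rw [CurveData.hR, Polynomial.map_map]
    congr 1
    exact RingHom.ext fun p => hσR p
  let gE : E ≃+* E := AdjoinRoot.mapRingEquiv σR D.hR D.hR (by rw [hh])
  have hof : ∀ r, gE (o r) = o (σR r) := fun r => by
    show gE (AdjoinRoot.of D.hR r) = AdjoinRoot.of D.hR (σR r)
    exact AdjoinRoot.map_of (σR : RatFunc k →+* RatFunc k) D.hR D.hR (by rw [hh]) r
  have halg : ∀ a : k, gE (algebraMap k E a) = algebraMap k E (σ a) := fun a => by
    rw [← aeval_C xE a, haev, hof, hσR, ← haev, Polynomial.map_C, aeval_C]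
    rfl
  refine ⟨⟨(gE, σ), halg⟩, rfl, ?_, ?_⟩
  swap
  · show gE θE = θE
    exact AdjoinRoot.map_root (σR : RatFunc k →+* RatFunc k) D.hR D.hR (by rw [hh])
  show gE xE = xE
  rw [← aeval_X (R := k) xE, haev, hof, hσR, Polynomial.map_X]

/-- A separable equation whose algebra has only constant idempotents is irreducible. -/
private theorem irreducible_hR_of_idempotent {D : CurveData k n} (hn : 0 < n)
    (hmon : D.hR.Monic) (hdeg : D.hR.natDegree = n) (hsep : D.hR.Separable)
    (hidem : ∀ ε : AdjoinRoot D.hR, ε * ε = ε →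
      ∃ c : k, ε = algebraMap k (AdjoinRoot D.hR) c) :
    Irreducible D.hR := by
  let E := AdjoinRoot D.hR
  have hnu : ¬ IsUnit D.hR := fun h => by
    have := natDegree_eq_zero_of_isUnit h
    omega
  refine ⟨hnu, fun p q hpq => ?_⟩
  by_contra! hu
  obtain ⟨a, b, hab⟩ := Separable.isCoprime (hpq ▸ hsep)
  set ε : E := AdjoinRoot.mk D.hR (a * p)
  have hε : ε * ε = ε := by
    rw [← map_mul, AdjoinRoot.mk_eq_mk, hpq]
    exact ⟨-(a * b), by linear_combination (a * p) * hab⟩
  obtain ⟨c, hc⟩ := hidem ε hε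
  have : Nontrivial E := AdjoinRoot.nontrivial _ (by
    rw [degree_eq_natDegree hmon.ne_zero, hdeg]
    exact_mod_cast hn.ne')
  have hcc : c * c = c := (algebraMap k E).injective (by rw [map_mul, ← hc, hε])
  rcases eq_or_ne c 0 with rfl | hc0
  · -- then `q` is a unit
    rw [map_zero, AdjoinRoot.mk_eq_zero, hpq] at hc
    refine hu.2 (isUnit_of_dvd_one ?_)
    rw [← hab]
    exact dvd_add (dvd_of_mul_left_dvd hc) (dvd_mul_left q b)
  · have hc1 : c = 1 := mul_left_cancel₀ hc0 (hcc.trans (mul_one c).symm)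
    rw [hc1, map_one] at hc
    have hc' : AdjoinRoot.mk D.hR (b * q) = 0 := by
      rw [show b * q = 1 - a * p by rw [← hab]; ring, map_sub, map_one]
      exact sub_eq_zero.mpr hc.symm
    rw [AdjoinRoot.mk_eq_zero, hpq] at hc'
    refine hu.1 (isUnit_of_dvd_one ?_)
    rw [← hab]
    exact dvd_add (dvd_mul_left p a) (dvd_of_mul_right_dvd hc')

/-- A basis over `k(x)` with injective combinations over `k[x]` is a basis over the subfield
generated by `x`. -/
private theorem span_li_adjoin {E : Type u} [Field E] [Algebra k E] [Algebra (RatFunc k) E] {xE : E}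
    {u : Fin n → E} (htr : Transcendental k xE) (hunit : ∀ p : k[X], p ≠ 0 → IsUnit (aeval xE p))
    (ho : ∀ r : RatFunc k, algebraMap (RatFunc k) E r ∈ k⟮xE⟯)
    (hspan : ⊤ ≤ Submodule.span (RatFunc k) (Set.range u))
    (hinj : Function.Injective (comb xE u : (Fin n → k[X]) →ₗ[k] E)) :
    ⊤ ≤ Submodule.span k⟮xE⟯ (Set.range u) ∧ LinearIndependent k⟮xE⟯ u := by
  refine ⟨?_, ?_⟩
  · intro y _
    obtain ⟨r, rfl⟩ := (Submodule.mem_span_range_iff_exists_fun _).mp
      (hspan (Submodule.mem_top : y ∈ ⊤))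
    refine sum_mem fun i _ => ?_
    rw [Algebra.smul_def]
    exact Submodule.smul_mem _ (⟨algebraMap (RatFunc k) E (r i), ho _⟩ : k⟮xE⟯)
      (Submodule.subset_span ⟨i, rfl⟩)
  · rw [Fintype.linearIndependent_iff]
    intro g hg i
    obtain ⟨Q, P, hQ, hQP⟩ := RedTorsion.exists_common_den htr g
    have h2 : comb xE u P = 0 := by
      have h3 : aeval xE Q * ∑ i, g i • u i = 0 := by rw [hg, mul_zero]
      rw [← h3, comb_apply, Finset.mul_sum]
      exact Finset.sum_congr rfl fun i _ => by
        rw [IntermediateField.smul_def, smul_eq_mul, ← hQP, mul_assoc]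
    have h3 := hQP i
    rw [show P i = 0 from congrFun (hinj (h2.trans (map_zero _).symm)) i, map_zero, mul_eq_zero]
      at h3
    exact Subtype.ext (h3.resolve_left (hunit Q hQ).ne_zero)

/-- The field of the model is generated by `x` and `θ`. -/
private theorem adjoin_model_eq_top (D : CurveData k n) [Fact (Irreducible D.hR)]
    (ho : ∀ r : RatFunc k, AdjoinRoot.of D.hR r ∈ k⟮AdjoinRoot.of D.hR RatFunc.X⟯) :
    IntermediateField.adjoin k
      ({AdjoinRoot.of D.hR RatFunc.X, AdjoinRoot.root D.hR} : Set (AdjoinRoot D.hR)) = ⊤ := by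
  rw [eq_top_iff]
  intro y _
  set G := IntermediateField.adjoin k
    ({AdjoinRoot.of D.hR RatFunc.X, AdjoinRoot.root D.hR} : Set (AdjoinRoot D.hR))
  have hle : k⟮AdjoinRoot.of D.hR RatFunc.X⟯ ≤ G := IntermediateField.adjoin.mono k _ _ (by simp)
  have hθ : AdjoinRoot.root D.hR ∈ G := IntermediateField.subset_adjoin k _ (by simp)
  obtain ⟨f, rfl⟩ := AdjoinRoot.mk_surjective y
  induction f using Polynomial.induction_on' with
  | add f g hf hg => rw [map_add]; exact add_mem (hf trivial) (hg trivial)
  | monomial j r =>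
    rw [← C_mul_X_pow_eq_monomial, map_mul, map_pow, AdjoinRoot.mk_C, AdjoinRoot.mk_X]
    exact mul_mem (hle (ho r)) (pow_mem hθ j)

/-! ### The basis in the algebra of the equation -/

/-- The abscissa in the algebra of the equation. -/
private abbrev modelX (D : CurveData k n) : AdjoinRoot D.hR := AdjoinRoot.of D.hR RatFunc.X

/-- The basis prescribed by the data, in the algebra of the equation. -/
private def modelBasis (D : CurveData k n) (i : Fin n) : AdjoinRoot D.hR :=
  evalB (modelX D) (AdjoinRoot.root D.hR) (D.U i) *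
    AdjoinRoot.of D.hR (algebraMap k[X] (RatFunc k) D.Δ)⁻¹

/-- Nonzero polynomials in the abscissa are units. -/
private theorem isUnit_aeval_modelX (D : CurveData k n) {p : k[X]} (hp : p ≠ 0) :
    IsUnit (aeval (modelX D) p) := by
  rw [aeval_adjoinRoot]
  exact (IsUnit.mk0 _ ((map_ne_zero_iff _ (RatFunc.algebraMap_injective k)).mpr hp)).map _

/-- The numerators of the basis. -/
private theorem modelBasis_mul_aeval {D : CurveData k n} (hD : D.IsValid) (i : Fin n) :
    modelBasis D i * aeval (modelX D) D.Δ = evalB (modelX D) (AdjoinRoot.root D.hR) (D.U i) := by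
  rw [modelBasis, aeval_adjoinRoot, mul_assoc, ← map_mul, inv_mul_cancel₀
    ((map_ne_zero_iff _ (RatFunc.algebraMap_injective k)).mpr hD.Δ_ne_zero), map_one, mul_one]

/-- The equation holds in its algebra. -/
private theorem evalB_model_self (D : CurveData k n) :
    evalB (k := k) (modelX D) (AdjoinRoot.root D.hR) D.h = 0 := by
  rw [evalB_adjoinRoot]
  exact AdjoinRoot.mk_self

/-- The distinguished element of the basis is `1`. -/
private theorem modelBasis_i0 {D : CurveData k n} (hD : D.IsValid) : modelBasis D D.i0 = 1 := by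
  refine (isUnit_aeval_modelX D hD.Δ_ne_zero).mul_right_cancel ?_
  rw [modelBasis_mul_aeval hD, hD.U_i0, evalB_C, one_mul]

/-- The basis multiplies according to the table. -/
private theorem modelBasis_mul {D : CurveData k n} (hD : D.IsValid) (a b : Fin n) :
    modelBasis D a * modelBasis D b = comb (modelX D) (modelBasis D) (D.T a b) := by
  obtain ⟨Q, hQ⟩ := hD.mul a b
  have huΔ := modelBasis_mul_aeval hD
  set xE := modelX D
  set θE := AdjoinRoot.root D.hR
  set u := modelBasis D
  have h2 := congrArg (evalB (k := k) xE θE) hQ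
  simp only [map_add, map_mul, map_sum, evalB_C, xE, θE, evalB_model_self D, zero_mul, add_zero]
    at h2
  refine ((isUnit_aeval_modelX D hD.Δ_ne_zero).pow 2).mul_right_cancel ?_
  calc u a * u b * aeval xE D.Δ ^ 2 = (u a * aeval xE D.Δ) * (u b * aeval xE D.Δ) := by ring
    _ = evalB xE θE (D.U a) * evalB xE θE (D.U b) := by rw [huΔ, huΔ]
    _ = aeval xE D.Δ * ∑ c, aeval xE (D.T a b c) * evalB xE θE (D.U c) := h2
    _ = comb xE u (D.T a b) * aeval xE D.Δ ^ 2 := by
      rw [comb_apply, Finset.mul_sum, Finset.sum_mul]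
      simp only [← huΔ]
      exact Finset.sum_congr rfl fun c _ => by ring

/-- The basis spans the algebra over the rational functions. -/
private theorem span_modelBasis {D : CurveData k n} (hD : D.IsValid) :
    ⊤ ≤ Submodule.span (RatFunc k) (Set.range (modelBasis D)) := by
  have hmon : D.hR.Monic := hD.monic.map _
  rw [← (AdjoinRoot.powerBasis' hmon).basis.span_eq]
  refine Submodule.span_le.mpr ?_
  rintro _ ⟨j, rfl⟩
  have hj : (j : ℕ) < n := by
    have hd : (AdjoinRoot.powerBasis' hmon).dim = n := by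
      rw [AdjoinRoot.powerBasis'_dim, CurveData.hR, hD.monic.natDegree_map, hD.deg_h]
    omega
  obtain ⟨P, Q, hPQ⟩ := hD.span j hj
  have h2 := congrArg (evalB (k := k) (modelX D) (AdjoinRoot.root D.hR)) hPQ
  simp only [map_add, map_mul, map_sum, map_pow, evalB_C, evalB_Y, evalB_model_self D, zero_mul,
    add_zero, ← modelBasis_mul_aeval hD] at h2
  have h3 : AdjoinRoot.root D.hR ^ (j : ℕ) =
      ∑ l, aeval (modelX D) (P l) * modelBasis D l := by
    refine (isUnit_aeval_modelX D hD.Δ_ne_zero).mul_left_cancel ?_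
    rw [h2, Finset.mul_sum]
    exact Finset.sum_congr rfl fun l _ => by ring
  rw [PowerBasis.basis_eq_pow, AdjoinRoot.powerBasis'_gen, SetLike.mem_coe, h3]
  refine sum_mem fun l _ => ?_
  rw [aeval_adjoinRoot]
  have h4 := Submodule.smul_mem (Submodule.span (RatFunc k) (Set.range (modelBasis D)))
    (algebraMap k[X] (RatFunc k) (P l)) (Submodule.subset_span ⟨l, rfl⟩)
  rwa [Algebra.smul_def] at h4

/-- Combinations of the basis over the polynomials in the abscissa are unique. -/
private theorem comb_modelBasis_injective {D : CurveData k n} (hD : D.IsValid) :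
    Function.Injective (comb (modelX D) (modelBasis D) : (Fin n → k[X]) →ₗ[k] _) := by
  have hmon : D.hR.Monic := hD.monic.map _
  have hfinE : Module.finrank (RatFunc k) (AdjoinRoot D.hR) = n := by
    rw [(AdjoinRoot.powerBasis' hmon).finrank, AdjoinRoot.powerBasis'_dim, CurveData.hR,
      hD.monic.natDegree_map, hD.deg_h]
  have hli : LinearIndependent (RatFunc k) (modelBasis D) :=
    linearIndependent_of_top_le_span_of_card_eq_finrank (span_modelBasis hD) (by simp [hfinE])
  rw [injective_iff_map_eq_zero]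
  intro v hv
  funext i
  have h2 : ∑ i, algebraMap k[X] (RatFunc k) (v i) • modelBasis D i = 0 := by
    rw [← hv, comb_apply]
    exact Finset.sum_congr rfl fun i _ => by rw [aeval_adjoinRoot, Algebra.smul_def]; rfl
  exact (map_eq_zero_iff _ (RatFunc.algebraMap_injective k)).mp
    (Fintype.linearIndependent_iff.mp hli _ h2 i)

/-- The weights bound the degrees of the elements integral at both charts. -/
private theorem exists_comb_modelBasis [IsAlgClosed k] {D : CurveData k n} (hD : D.IsValid)
    {y : AdjoinRoot D.hR} {N : ℕ} (hy : IsIntegral (Algebra.adjoin k {modelX D}) y)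
    (hy' : IsIntegral (Algebra.adjoin k {AdjoinRoot.of D.hR (RatFunc.X)⁻¹})
      (AdjoinRoot.of D.hR (RatFunc.X)⁻¹ ^ N * y)) :
    ∃ P : Fin n → k[X], y = comb (modelX D) (modelBasis D) P ∧
      ∀ i, P i ≠ 0 → (P i).natDegree + D.m i ≤ N := by
  obtain ⟨-, -, -, -, -, -, ⟨cinf⟩⟩ := hD.certs
  exact exists_comb_of_integral_both (u := modelBasis D) (m := D.m) (i0 := D.i0)
    (by rw [← map_mul, mul_inv_cancel₀ RatFunc.X_ne_zero, map_one])
    (CurveData.exists_fibreData hD) ⟨cinf.fibreData⟩ (modelBasis_mul hD) (modelBasis_i0 hD)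
    hD.m_i0 (fun a b c h => (hD.degT a b c).resolve_left h) (fun _ => isUnit_aeval_modelX D)
    (comb_modelBasis_injective hD)
    (exists_aeval_mul_mem_range_comb (aeval_adjoinRoot D) (span_modelBasis hD)) hy hy'

/-- The equation of valid data is irreducible. -/
private theorem irreducible_hR [IsAlgClosed k] {D : CurveData k n} (hD : D.IsValid) :
    Irreducible D.hR := by
  have hn : 0 < n := lt_of_le_of_lt (Nat.zero_le _) D.i0.2
  refine irreducible_hR_of_idempotent hn (hD.monic.map _)
    (by rw [CurveData.hR, hD.monic.natDegree_map, hD.deg_h]) (separable_hR hD hD.Δ_ne_zero)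
    fun ε hε => ?_
  obtain ⟨P, hP, hPdeg⟩ := exists_comb_modelBasis hD (N := 0) (isIntegral_of_idem hε)
    (isIntegral_of_idem (by simp [hε]))
  have hPi : ∀ i, i ≠ D.i0 → P i = 0 := fun i hi => by
    by_contra h
    have := hPdeg i h
    have := hD.m_pos i hi
    omega
  refine ⟨(P D.i0).coeff 0, ?_⟩
  rw [hP, comb_apply, Finset.sum_eq_single D.i0 (fun i _ hi => by simp [hPi i hi]) (by simp),
    modelBasis_i0 hD, mul_one]
  by_cases h : P D.i0 = 0
  · simp [h]
  · conv_lhs => rw [eq_C_of_natDegree_eq_zero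
      (by have := hPdeg _ h; omega : (P D.i0).natDegree = 0)]
    rw [aeval_C]

/-- The rational functions map into the field generated by the abscissa. -/
private theorem of_mem_adjoin_modelX (D : CurveData k n) [Fact (Irreducible D.hR)] (r : RatFunc k) :
    AdjoinRoot.of D.hR r ∈ k⟮modelX D⟯ := by
  have hadj : ∀ p : k[X], aeval (modelX D) p ∈ k⟮modelX D⟯ := fun p =>
    algebra_adjoin_le_adjoin k _ (aeval_mem_adjoin_singleton k _)
  rw [← RatFunc.num_div_denom r, map_div₀, ← aeval_adjoinRoot, ← aeval_adjoinRoot]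
  exact div_mem (hadj _) (hadj _)

/-! ### The function field -/

/-- Valid data define a function field. -/
theorem exists_realizes [IsAlgClosed k] {D : CurveData k n} (hD : D.IsValid) :
    ∃ (F : Type u) (_ : Field F) (_ : Algebra k F) (_ : IsFunctionField k F) (x θ : F),
      Realizes D x θ ∧
      ∀ σ : k ≃+* k, D.h.map (mapRingHom (σ : k →+* k)) = D.h →
        ∃ g : SemilinearAut k F, SemilinearAut.baseAut g = σ ∧ g • x = x ∧ g • θ = θ := by
  have : Fact (Irreducible D.hR) := ⟨irreducible_hR hD⟩
  have hT := modelBasis_mul hD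
  have h1 := modelBasis_i0 hD
  set u := modelBasis D
  set xE := modelX D
  set θE := AdjoinRoot.root D.hR
  set x' : AdjoinRoot D.hR := AdjoinRoot.of D.hR (RatFunc.X)⁻¹
  have hxx : xE * x' = 1 := by
    rw [← map_mul, mul_inv_cancel₀ RatFunc.X_ne_zero, map_one]
  have hunit : ∀ p : k[X], p ≠ 0 → IsUnit (aeval xE p) := fun p => isUnit_aeval_modelX D
  have htr : Transcendental k xE := by
    rw [transcendental_iff]
    intro p hp
    by_contra h
    exact (hunit p h).ne_zero hp
  -- The model basis is a basis over `k(x)`, so the quotient is a function field.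
  obtain ⟨hspan', hli'⟩ := span_li_adjoin htr hunit (of_mem_adjoin_modelX D) (span_modelBasis hD)
    (comb_modelBasis_injective hD)
  let B := Module.Basis.mk hli' hspan'
  have hfin : FiniteDimensional k⟮xE⟯ (AdjoinRoot D.hR) := Module.Finite.of_basis B
  have hFF : IsFunctionField k (AdjoinRoot D.hR) := isFunctionField_of_finite htr
  refine ⟨AdjoinRoot D.hR, inferInstance, inferInstance, hFF, xE, θE,
    ⟨htr, evalB_model_self D, by rw [Module.finrank_eq_card_basis B,
      Fintype.card_fin], adjoin_model_eq_top D (of_mem_adjoin_modelX D), ?_⟩,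
    fun σ hσ => exists_semilinearAut D hσ⟩
  have hu : D.uElem xE θE = u := funext fun i => by
    rw [CurveData.uElem, div_eq_iff (hunit D.Δ hD.Δ_ne_zero).ne_zero]
    exact (modelBasis_mul_aeval hD i).symm
  rw [hu]
  -- It is integral over `k[x]` and, after scaling, over `k[1/x]`, hence reduced.
  have hint : ∀ i, IsIntegral (Algebra.adjoin k {xE}) (u i) :=
    isIntegral_of_table hT ⟨Pi.single D.i0 1, by rw [comb_single, h1]; simp⟩
  have hint' : ∀ i, IsIntegral (Algebra.adjoin k {x'}) (x' ^ D.m i * u i) :=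
    isIntegral_of_table (u := fun i => x' ^ D.m i * u i)
      (table_inf hxx hT fun a b c h => (hD.degT a b c).resolve_left h)
      ⟨Pi.single D.i0 1, by rw [comb_single]; simp [hD.m_i0, h1]⟩
  have hx0 : xE ≠ 0 := fun h => htr (by rw [h]; exact isAlgebraic_zero)
  have hx'eq : x' = xE⁻¹ := eq_inv_of_mul_eq_one_right hxx
  refine ⟨hli', fun i => RedTorsion.mem_polesSpace.mpr fun v => ?_, fun N y hy => ?_⟩
  · rcases eq_or_ne (u i) 0 with h0 | h0
    · rw [h0]; exact zero_mem _
    exact mem_ordGe_of_isIntegral_both hx0 (hint i) (hx'eq ▸ hint' i) h0 v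
  · rw [RedTorsion.mem_polesSpace] at hy
    obtain ⟨hy1, hy2⟩ := isIntegral_both_of_mem_ordGe hy
    rw [← hx'eq] at hy2
    exact exists_comb_modelBasis hD hy1 hy2

end Fermat.Agent.CurveTorsion
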