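import Mathlib.RingTheory.IntegralClosure.IsIntegral.Basic
import Mathlib.Algebra.Polynomial.Derivative
import Mathlib.FieldTheory.IsAlgClosed.Basic

/-!
# A criterion for an order over `k[x]` to be integrally closed

The criterion is `mem_range_comb_of_fibreData`.
-/

set_option autoImplicit false

noncomputable section

open scoped Classical

open Polynomial

namespace Fermat.Agent.CurveTorsion

/-! ### Multiplication tables -/

/-- The product of two vectors with respect to a multiplication table. -/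
def tableMul {R : Type*} [CommRing R] {n : ℕ} (T : Fin n → Fin n → Fin n → R)
    (v w : Fin n → R) : Fin n → R := fun k => ∑ a, ∑ b, v a * w b * T a b k

theorem map_tableMul {R S : Type*} [CommRing R] [CommRing S] (f : R →+* S) {n : ℕ}
    (T : Fin n → Fin n → Fin n → R) (v w : Fin n → R) (k : Fin n) :
    f (tableMul T v w k)
      = tableMul (fun a b c => f (T a b c)) (fun i => f (v i)) (fun i => f (w i)) k := by
  simp [tableMul]

/-- Iterated products. -/
def tablePow {R : Type*} [CommRing R] {n : ℕ} (T : Fin n → Fin n → Fin n → R)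
    (one v : Fin n → R) : ℕ → Fin n → R
  | 0 => one
  | N + 1 => tableMul T (tablePow T one v N) v

theorem map_tablePow {R S : Type*} [CommRing R] [CommRing S] (f : R →+* S) {n : ℕ}
    (T : Fin n → Fin n → Fin n → R) (one v : Fin n → R) (N : ℕ) (k : Fin n) :
    f (tablePow T one v N k)
      = tablePow (fun a b c => f (T a b c)) (fun i => f (one i)) (fun i => f (v i)) N k := by
  induction N generalizing k with
  | zero => rfl
  | succ N ih =>
    simp only [tablePow]
    rw [map_tableMul]
    simp only [ih]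

variable {k : Type*} [Field k] {E : Type*} [CommRing E] [Algebra k E] {n : ℕ}

/-- The combination `∑ vᵢ(x) uᵢ`. -/
def comb (x : E) (u : Fin n → E) : (Fin n → k[X]) →ₗ[k] E where
  toFun v := ∑ i, aeval x (v i) * u i
  map_add' v w := by simp [add_mul, Finset.sum_add_distrib]
  map_smul' a v := by simp [Finset.smul_sum]

/-- The value of `comb x u` is `∑ vᵢ(x) uᵢ`. -/
theorem comb_apply (x : E) (u : Fin n → E) (v : Fin n → k[X]) :
    comb x u v = ∑ i, aeval x (v i) * u i := rfl

variable {x : E} {u : Fin n → E}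

theorem comb_single (i : Fin n) (p : k[X]) :
    comb x u (Pi.single i p) = aeval x p * u i := by
  rw [comb_apply, Finset.sum_eq_single i]
  · simp
  · intro j _ hj
    simp [Pi.single_eq_of_ne hj]
  · simp

/-- A polynomial in `x` multiplies a combination coefficient by coefficient. -/
theorem aeval_mul_comb (p : k[X]) (v : Fin n → k[X]) :
    aeval x p * comb x u v = comb x u (fun i => p * v i) := by
  simp [comb_apply, Finset.mul_sum, mul_assoc]

theorem comb_mul_comb {T : Fin n → Fin n → Fin n → k[X]}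
    (hT : ∀ a b, u a * u b = comb x u (T a b)) (v w : Fin n → k[X]) :
    comb x u v * comb x u w = comb x u (tableMul T v w) := by
  simp only [comb_apply, tableMul, map_sum, map_mul, Finset.sum_mul]
  conv_rhs => rw [Finset.sum_comm]
  refine Finset.sum_congr rfl fun a _ => ?_
  conv_rhs => rw [Finset.sum_comm]
  rw [Finset.mul_sum]
  refine Finset.sum_congr rfl fun b _ => ?_
  rw [mul_mul_mul_comm]
  rw [hT a b, comb_apply, Finset.mul_sum]
  refine Finset.sum_congr rfl fun c _ => ?_
  ring

/-- Basis elements are integral. -/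
theorem isIntegral_of_table {T : Fin n → Fin n → Fin n → k[X]}
    (hT : ∀ a b, u a * u b = comb x u (T a b))
    (hone : (1 : E) ∈ LinearMap.range (comb (k := k) x u)) (i : Fin n) :
    IsIntegral (Algebra.adjoin k {x}) (u i) := by
  let M : Submodule (Algebra.adjoin k {x}) E := Submodule.span _ (Set.range u)
  have hsub : ∀ z ∈ LinearMap.range (comb (k := k) x u), z ∈ M := by
    rintro _ ⟨v, rfl⟩
    rw [comb_apply]
    refine sum_mem fun j _ => ?_
    exact M.smul_mem (⟨aeval x (v j), Polynomial.aeval_mem_adjoin_singleton _ _⟩ :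
      Algebra.adjoin k {x}) (Submodule.subset_span ⟨j, rfl⟩)
  have hrev : ∀ z ∈ M, z ∈ LinearMap.range (comb (k := k) x u) := by
    intro z hz
    obtain ⟨cc, rfl⟩ := (Submodule.mem_span_range_iff_exists_fun _).mp hz
    refine sum_mem fun j _ => ?_
    obtain ⟨p, hp⟩ : ∃ p : k[X], aeval x p = (cc j : E) := by
      have : ((cc j : Algebra.adjoin k {x}) : E) ∈ Algebra.adjoin k {x} := (cc j).2
      exact (Algebra.adjoin_singleton_eq_range_aeval k x).le this
    exact ⟨Pi.single j p, by rw [comb_single, hp]; rfl⟩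
  exact IsIntegral.of_mem_of_fg
    (M.toSubalgebra (hsub _ hone) fun a b ha hb => by
      obtain ⟨v, rfl⟩ := hrev a ha
      obtain ⟨w, rfl⟩ := hrev b hb
      rw [comb_mul_comb hT]
      exact hsub _ ⟨_, rfl⟩)
    (Submodule.fg_span (Set.finite_range u)) _ (Submodule.subset_span ⟨i, rfl⟩)

/-! ### Fibre data -/

/-- Hypotheses on the fibre of the order at `c`: functionals cutting out the radical `span r`,
and triviality of the ring of multipliers of the radical. -/
structure FibreData (T : Fin n → Fin n → Fin n → k[X]) (i0 : Fin n) (c : k) where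
  /-- The number of characters. -/
  e : ℕ
  /-- The size of a basis of the radical. -/
  s : ℕ
  /-- The characters. -/
  χ : Fin e → (Fin n → k) →ₗ[k] k
  /-- The radical. -/
  r : Fin s → Fin n → k
  χ_one : ∀ j, χ j (Pi.single i0 1) = 1
  χ_mul : ∀ j a b, χ j (fun l => (T a b l).eval c) = χ j (Pi.single a 1) * χ j (Pi.single b 1)
  χ_r : ∀ j a, χ j (r a) = 0
  span_r : ∀ v : Fin n → k, (∀ j, χ j v = 0) → ∃ a : Fin s → k, v = ∑ i, a i • r i
  nil : ∀ a, ∃ N, 0 < N ∧
    tablePow (fun i j l => (T i j l).eval c) (Pi.single i0 1) (r a) N = 0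
  inj : ∀ a : Fin s → k,
    (∀ b, (fun l => (tableMul T (fun i => C (∑ a', a a' * r a' i)) (fun i => C (r b i)) l).eval c)
        = 0 ∧
      ∀ j, χ j (fun l => (derivative
        (tableMul T (fun i => C (∑ a', a a' * r a' i)) (fun i => C (r b i)) l)).eval c) = 0) →
    a = 0

theorem FibreData.χ_tableMul {T : Fin n → Fin n → Fin n → k[X]} {i0 : Fin n} {c : k}
    (D : FibreData T i0 c) (j : Fin D.e) (v w : Fin n → k) :
    D.χ j (tableMul (fun a b l => (T a b l).eval c) v w) = D.χ j v * D.χ j w := by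
  have h1 : tableMul (fun a b l => (T a b l).eval c) v w
      = ∑ a, ∑ b, (v a * w b) • (fun l => (T a b l).eval c) := by
    funext l
    simp [tableMul]
  have h2 : ∀ z : Fin n → k, D.χ j z = ∑ a, z a * D.χ j (Pi.single a 1) := fun z => by
    conv_lhs => rw [← Finset.univ_sum_single z, map_sum]
    refine Finset.sum_congr rfl fun a _ => ?_
    rw [← smul_eq_mul, ← map_smul, ← Pi.single_smul, smul_eq_mul, mul_one]
  rw [h1, h2 v, h2 w, Finset.sum_mul_sum]
  simp only [map_sum, map_smul, D.χ_mul, smul_eq_mul]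
  exact Finset.sum_congr rfl fun a _ => Finset.sum_congr rfl fun b _ => by ring

/-! ### Powers and radicals -/

/-- Integral elements have bounded denominators: `π ^ d * y ^ M` stays in `Λ` for all `M`. -/
private theorem exists_pow_mul_pow_mem {Λ : Submodule k E} (hmul : ∀ a ∈ Λ, ∀ b ∈ Λ, a * b ∈ Λ)
    (hR : ∀ p : k[X], aeval x p ∈ Λ) {π : E} (hπΛ : π ∈ Λ) {y : E}
    (hy : IsIntegral (Algebra.adjoin k {x}) y) (hyΛ : π * y ∈ Λ) :
    ∃ d, ∀ M, π ^ d * y ^ M ∈ Λ := by
  have hpow : ∀ a ∈ Λ, ∀ N : ℕ, a ^ N ∈ Λ := fun a ha N => by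
    induction N with
    | zero => simpa using hR 1
    | succ N ih => rw [pow_succ]; exact hmul _ ih _ ha
  obtain ⟨q, hq, hqy⟩ := hy
  refine ⟨q.natDegree, fun M => ?_⟩
  induction M using Nat.strong_induction_on with
  | _ M ih =>
    rcases le_or_gt M q.natDegree with hM | hM
    · obtain ⟨i, hi⟩ := Nat.le.dest hM
      rw [← hi, pow_add, mul_comm (π ^ M), mul_assoc, ← mul_pow]
      exact hmul _ (hpow _ hπΛ i) _ (hpow _ hyΛ M)
    · have h0 : y ^ q.natDegree
          = -∑ i ∈ Finset.range q.natDegree, ((q.coeff i : Algebra.adjoin k {x}) : E) * y ^ i := by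
        rw [eq_neg_iff_add_eq_zero, add_comm]
        rw [eval₂_eq_sum_range, Finset.sum_range_succ, hq.coeff_natDegree, map_one, one_mul]
          at hqy
        exact hqy
      obtain ⟨i, hi⟩ := Nat.le.dest hM.le
      rw [← hi, pow_add (a := y), h0, neg_mul, Finset.sum_mul, mul_neg, Finset.mul_sum]
      refine neg_mem (sum_mem fun j hj => ?_)
      have hj' := Finset.mem_range.mp hj
      rw [mul_assoc, ← pow_add, mul_left_comm]
      refine hmul _ ?_ _ (ih (j + i) (by omega))
      have hmemc := (q.coeff j).2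
      have : ∀ z ∈ Algebra.adjoin k {x}, z ∈ Λ := fun z hz => by
        rw [Algebra.adjoin_singleton_eq_range_aeval] at hz
        obtain ⟨p, rfl⟩ := hz
        exact hR p
      exact this _ hmemc

/-- Multiplying by powers of finitely many elements with a power in `π Λ` keeps an element outside
`Λ` while moving its products with them into `Λ`. -/
private theorem exists_notMem_forall_mul_mem {Λ : Submodule k E}
    (hmul : ∀ a ∈ Λ, ∀ b ∈ Λ, a * b ∈ Λ)
    (hpow : ∀ a ∈ Λ, ∀ N : ℕ, a ^ N ∈ Λ) {π : E} {s : ℕ} {rr : Fin s → E} (hrΛ : ∀ a, rr a ∈ Λ)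
    (hrint : ∀ a, IsIntegral (Algebra.adjoin k {x}) (rr a))
    (hrnil : ∀ a, ∃ N, 0 < N ∧ ∃ z ∈ Λ, rr a ^ N = π * z) {y : E} (hyn : y ∉ Λ) (hmem : π * y ∈ Λ)
    (hy : IsIntegral (Algebra.adjoin k {x}) y) (S : Finset (Fin s)) :
    ∃ y', y' ∉ Λ ∧ π * y' ∈ Λ ∧ IsIntegral (Algebra.adjoin k {x}) y' ∧ ∀ a ∈ S, y' * rr a ∈ Λ := by
  induction S using Finset.induction_on with
  | empty => exact ⟨y, hyn, hmem, hy, by simp⟩
  | @insert a S ha ih =>
    obtain ⟨y', hy', hπy', hint', hS⟩ := ih
    obtain ⟨N, hN, z, hz, hzN⟩ := hrnil a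
    have hNmem : y' * rr a ^ N ∈ Λ := by
      rw [hzN, ← mul_assoc, mul_comm y' π]
      exact hmul _ hπy' _ hz
    have hex : ∃ i, y' * rr a ^ i ∈ Λ := ⟨N, hNmem⟩
    have hpos : 0 < Nat.find hex := Nat.pos_of_ne_zero fun h0 => by
      have := Nat.find_spec hex
      rw [h0, pow_zero, mul_one] at this
      exact hy' this
    refine ⟨y' * rr a ^ (Nat.find hex - 1), Nat.find_min hex (by omega), ?_, ?_, fun b hb => ?_⟩
    · rw [← mul_assoc]
      exact hmul _ hπy' _ (hpow _ (hrΛ a) _)
    · exact hint'.mul ((hrint a).pow _)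
    · rcases Finset.mem_insert.mp hb with rfl | hb
      · rw [mul_assoc, ← pow_succ, Nat.sub_add_cancel hpos]
        exact Nat.find_spec hex
      · rw [mul_right_comm]
        exact hmul _ (hS b hb) _ (hpow _ (hrΛ a) _)

/-- Powers of an element of the order, with the values of a character at `c`. -/
private theorem exists_comb_eq_pow {T : Fin n → Fin n → Fin n → k[X]} {i0 : Fin n} {c : k}
    (D : FibreData T i0 c) (hT : ∀ a b, u a * u b = comb x u (T a b)) (h1 : u i0 = 1)
    (v : Fin n → k[X]) (j : Fin D.e) (M : ℕ) : ∃ vM, comb x u vM = comb x u v ^ M ∧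
      D.χ j (fun l => (vM l).eval c) = D.χ j (fun l => (v l).eval c) ^ M := by
  let ev : (Fin n → k[X]) → Fin n → k := fun v l => (v l).eval c
  have hev : ∀ v w, ev (tableMul T v w)
      = tableMul (fun a b l => (T a b l).eval c) (ev v) (ev w) := fun v w => by
    funext l
    exact map_tableMul (evalRingHom c) T v w l
  show ∃ vM, comb x u vM = comb x u v ^ M ∧ D.χ j (ev vM) = D.χ j (ev v) ^ M
  induction M with
  | zero =>
    refine ⟨Pi.single i0 1, by rw [comb_single, h1]; simp, ?_⟩
    rw [pow_zero, ← D.χ_one j]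
    congr 1
    funext l
    rcases eq_or_ne l i0 with rfl | hl <;> simp [ev, *]
  | succ M ih =>
    obtain ⟨vM, hvM, hχM⟩ := ih
    refine ⟨tableMul T vM v, by rw [← comb_mul_comb hT, hvM, pow_succ], ?_⟩
    rw [hev, D.χ_tableMul, hχM, pow_succ]

/-- An element of the order with a power in `(x - c) Λ` lies in the radical at `c`. -/
private theorem chi_eq_zero_of_pow_mem {T : Fin n → Fin n → Fin n → k[X]} {i0 : Fin n} {c : k}
    (D : FibreData T i0 c) (hT : ∀ a b, u a * u b = comb x u (T a b)) (h1 : u i0 = 1)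
    (hinj : Function.Injective (comb x u : (Fin n → k[X]) →ₗ[k] E)) {v : Fin n → k[X]} {M : ℕ}
    {z : E} (hz : z ∈ LinearMap.range (comb (k := k) x u))
    (h : comb x u v ^ M = (x - algebraMap k E c) * z) (j : Fin D.e) :
    D.χ j (fun l => (v l).eval c) = 0 := by
  obtain ⟨z', rfl⟩ := hz
  obtain ⟨vM, hvM, hχM⟩ := exists_comb_eq_pow D hT h1 v j M
  rw [h, show x - algebraMap k E c = aeval x (X - C c) by simp, aeval_mul_comb] at hvM
  rw [hinj hvM] at hχM
  have h0 : (fun l => ((X - C c) * z' l).eval c) = (0 : Fin n → k) := funext fun l => by simp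
  simp only at hχM
  rw [h0, map_zero] at hχM
  exact eq_zero_of_pow_eq_zero hχM.symm

/-- The combination with constant coefficients `∑ aᵢ rᵢ`. -/
private theorem comb_C_sum {s : ℕ} (a : Fin s → k) (r : Fin s → Fin n → k) :
    comb x u (fun l => C (∑ i, a i * r i l)) =
      ∑ i, algebraMap k E (a i) * comb x u (fun l => C (r i l)) := by
  simp only [comb_apply, aeval_C, map_sum, map_mul, Finset.mul_sum, Finset.sum_mul]
  rw [Finset.sum_comm]
  exact Finset.sum_congr rfl fun i _ => Finset.sum_congr rfl fun l _ => by ring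

/-- A coefficient vector vanishing at `c` gives a multiple of `x - c`. -/
private theorem exists_comb_eq_mul {c : k} (v : Fin n → k[X]) (hv : ∀ l, (v l).eval c = 0) :
    ∃ w : Fin n → k[X], comb x u v = (x - algebraMap k E c) * comb x u w := by
  choose w hw using fun l => (dvd_iff_isRoot.mpr (hv l) : (X - C c) ∣ v l)
  refine ⟨w, ?_⟩
  rw [show x - algebraMap k E c = aeval x (X - C c) by simp, aeval_mul_comb]
  congr 1
  funext l
  exact hw l

/-- Some power of a radical basis element lies in `(x - c) Λ`. -/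
private theorem exists_rad_pow_eq_mul {T : Fin n → Fin n → Fin n → k[X]} {i0 : Fin n} {c : k}
    (D : FibreData T i0 c) (hT : ∀ a b, u a * u b = comb x u (T a b)) (h1 : u i0 = 1)
    (a : Fin D.s) : ∃ N, 0 < N ∧ ∃ z ∈ LinearMap.range (comb (k := k) x u),
      comb x u (fun i => C (D.r a i)) ^ N = (x - algebraMap k E c) * z := by
  let ev : (Fin n → k[X]) → Fin n → k := fun v l => (v l).eval c
  have hrpow : ∀ N, ∃ v, comb x u v = comb x u (fun i => C (D.r a i)) ^ N ∧
      ev v = tablePow (fun i j l => (T i j l).eval c) (Pi.single i0 1) (D.r a) N := by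
    intro N
    induction N with
    | zero =>
      refine ⟨Pi.single i0 1, by rw [comb_single, h1]; simp, ?_⟩
      funext l
      rcases eq_or_ne l i0 with rfl | hl <;> simp [ev, tablePow, *]
    | succ N ih =>
      obtain ⟨v, hv, hve⟩ := ih
      refine ⟨tableMul T v (fun i => C (D.r a i)), by rw [← comb_mul_comb hT, hv, pow_succ], ?_⟩
      rw [show ev (tableMul T v (fun i => C (D.r a i))) = tableMul
          (fun a b l => (T a b l).eval c) (ev v) (ev fun i => C (D.r a i)) from
        funext fun l => map_tableMul (evalRingHom c) T v _ l, hve]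
      simp [tablePow, ev]
  obtain ⟨N, hN, hN'⟩ := D.nil a
  obtain ⟨v, hv, hve⟩ := hrpow N
  obtain ⟨w, hw⟩ := exists_comb_eq_mul (x := x) (u := u) (c := c) v (congrFun (hve.trans hN'))
  exact ⟨N, hN, _, ⟨w, rfl⟩, hv ▸ hw⟩

/-- A vector in the radical at `c` is a combination of the radical basis modulo `(x - c) Λ`. -/
private theorem exists_rad_decomp {T : Fin n → Fin n → Fin n → k[X]} {i0 : Fin n} {c : k}
    (D : FibreData T i0 c) (v : Fin n → k[X]) (hv : ∀ j, D.χ j (fun l => (v l).eval c) = 0) :
    ∃ (a : Fin D.s → k) (z : E), z ∈ LinearMap.range (comb (k := k) x u) ∧ comb x u v =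
      ∑ i, algebraMap k E (a i) * comb x u (fun l => C (D.r i l)) +
        (x - algebraMap k E c) * z := by
  obtain ⟨a, ha⟩ := D.span_r _ hv
  let v0 : Fin n → k[X] := fun l => C (∑ i, a i * D.r i l)
  obtain ⟨w, hw⟩ := exists_comb_eq_mul (x := x) (u := u) (c := c) (v - v0) (fun l => by
    have := congrFun ha l
    simp only [v0, Pi.sub_apply, eval_sub, eval_C, Finset.sum_apply,
      Pi.smul_apply, smul_eq_mul] at this ⊢
    rw [this, sub_self])
  refine ⟨a, _, ⟨w, rfl⟩, ?_⟩
  rw [← hw, map_sub]
  have h0 : comb x u v0 = ∑ i, algebraMap k E (a i) * comb x u (fun l => C (D.r i l)) :=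
    comb_C_sum a D.r
  rw [h0]
  abel

/-- If `π y' = ∑ aᵢ rᵢ + π zv` and `y'` multiplies the radical into itself, then `a = 0`, the
radical having no element killed by evaluation and by the derivative at `c`. -/
private theorem rad_coeff_eq_zero {T : Fin n → Fin n → Fin n → k[X]} {i0 : Fin n} {c : k}
    (D : FibreData T i0 c) (hT : ∀ a b, u a * u b = comb x u (T a b))
    (hinj : Function.Injective (comb x u : (Fin n → k[X]) →ₗ[k] E)) {y' : E}
    (hprod : ∀ v : Fin n → k[X], (∀ j, D.χ j (fun l => (v l).eval c) = 0) →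
      ∃ v' : Fin n → k[X], (∀ j, D.χ j (fun l => (v' l).eval c) = 0) ∧
        comb x u v' = y' * comb x u v)
    {w zv : Fin n → k[X]} (hw : comb x u w = (x - algebraMap k E c) * y') {a : Fin D.s → k}
    (hwz : comb x u w = ∑ i, algebraMap k E (a i) * comb x u (fun l => C (D.r i l)) +
      (x - algebraMap k E c) * comb x u zv) : a = 0 := by
  let ev : (Fin n → k[X]) → Fin n → k := fun v l => (v l).eval c
  have hπp : x - algebraMap k E c = aeval x (X - C c) := by simp
  have hev : ∀ v w, ev (tableMul T v w)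
      = tableMul (fun a b l => (T a b l).eval c) (ev v) (ev w) := fun v w => by
    funext l
    exact map_tableMul (evalRingHom c) T v w l
  refine D.inj a fun b => ?_
  set v0 := fun i => C (∑ a', a a' * D.r a' i)
  set vb := fun i => C (D.r b i)
  have hv0 : comb x u v0 = ∑ i, algebraMap k E (a i) * comb x u (fun l => C (D.r i l)) :=
    comb_C_sum a D.r
  have hbRad : ∀ j, D.χ j (ev vb) = 0 := fun j => by
    rw [show ev vb = D.r b by funext l; simp [ev, vb]]
    exact D.χ_r j b
  obtain ⟨v', hv', hv''⟩ := hprod vb hbRad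
  -- `v0 * vb = π * (v' - zv * vb)`
  have heq : comb x u (tableMul T v0 vb)
      = comb x u (fun l => (X - C c) * (v' - tableMul T zv vb) l) := by
    rw [← aeval_mul_comb, ← hπp, map_sub, hv'', ← comb_mul_comb hT, ← comb_mul_comb hT, hv0]
    linear_combination (-(comb x u vb)) * hwz + (comb x u vb) * hw
  have hco := hinj heq
  refine ⟨?_, fun j => ?_⟩
  · funext l
    rw [hco]
    simp
  · have hd' : (fun l => (derivative (tableMul T v0 vb l)).eval c)
        = ev v' - tableMul (fun a b l => (T a b l).eval c) (ev zv) (ev vb) := by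
      funext l
      rw [hco, ← hev]
      simp [ev, derivative_mul]
    rw [hd', map_sub, hv' j, D.χ_tableMul, hbRad j, mul_zero, sub_zero]

/-! ### The criterion -/

/-- If `(x - c) • y` lies in the order and `y` is integral, then `y` lies in the order. -/
theorem mem_range_comb_of_fibreData {T : Fin n → Fin n → Fin n → k[X]} {i0 : Fin n} {c : k}
    (D : FibreData T i0 c) (hT : ∀ a b, u a * u b = comb x u (T a b)) (h1 : u i0 = 1)
    (hπ : ∀ y : E, (x - algebraMap k E c) * y = 0 → y = 0)
    (hinj : Function.Injective (comb x u : (Fin n → k[X]) →ₗ[k] E)) {y : E}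
    (hy : IsIntegral (Algebra.adjoin k {x}) y)
    (hmem : (x - algebraMap k E c) * y ∈ LinearMap.range (comb (k := k) x u)) :
    y ∈ LinearMap.range (comb (k := k) x u) := by
  set Λ := LinearMap.range (comb (k := k) x u)
  set π := x - algebraMap k E c
  have hmul : ∀ a ∈ Λ, ∀ b ∈ Λ, a * b ∈ Λ := by
    rintro _ ⟨v, rfl⟩ _ ⟨w, rfl⟩
    exact ⟨_, (comb_mul_comb hT v w).symm⟩
  have hR : ∀ p : k[X], aeval x p ∈ Λ := fun p =>
    ⟨Pi.single i0 p, by rw [comb_single, h1, mul_one]⟩
  have hone : (1 : E) ∈ Λ := by simpa using hR 1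
  have hπp : π = aeval x (X - C c) := by simp [π]
  have hπΛ : π ∈ Λ := hπp ▸ hR _
  have hpow : ∀ a ∈ Λ, ∀ N : ℕ, a ^ N ∈ Λ := fun a ha N => by
    induction N with
    | zero => simpa
    | succ N ih => rw [pow_succ]; exact hmul _ ih _ ha
  -- evaluation of coefficient vectors at `c`
  let ev : (Fin n → k[X]) → Fin n → k := fun v l => (v l).eval c
  let Rad : (Fin n → k[X]) → Prop := fun v => ∀ j, D.χ j (ev v) = 0
  have hev : ∀ v w, ev (tableMul T v w)
      = tableMul (fun a b l => (T a b l).eval c) (ev v) (ev w) := fun v w => by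
    funext l
    exact map_tableMul (evalRingHom c) T v w l
  -- powers of radical elements of the basis
  let rr : Fin D.s → E := fun a => comb x u (fun i => C (D.r a i))
  have hrΛ : ∀ a, rr a ∈ Λ := fun a => ⟨_, rfl⟩
  have hrnil : ∀ a, ∃ N, 0 < N ∧ ∃ z ∈ Λ, rr a ^ N = π * z := exists_rad_pow_eq_mul D hT h1
  -- decomposition of radical vectors
  have hdec : ∀ v, Rad v → ∃ (a : Fin D.s → k) (z : E),
      z ∈ Λ ∧ comb x u v = ∑ i, algebraMap k E (a i) * rr i + π * z := exists_rad_decomp D
  by_contra hyn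
  -- an element outside `Λ` whose products with all radical generators lie in `Λ`
  have hrint : ∀ a, IsIntegral (Algebra.adjoin k {x}) (rr a) := fun a => by
    simp only [rr, comb_apply]
    refine IsIntegral.sum _ fun i _ => IsIntegral.mul ?_ (isIntegral_of_table hT hone i)
    exact isIntegral_algebraMap (R := Algebra.adjoin k {x}) (A := E)
      (x := ⟨_, Polynomial.aeval_mem_adjoin_singleton _ _⟩)
  have hkey := exists_notMem_forall_mul_mem hmul hpow hrΛ hrint hrnil hyn hmem hy
  obtain ⟨y', hy', hπy', hint', hall⟩ := hkey Finset.univ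
  obtain ⟨d, hd⟩ := exists_pow_mul_pow_mem hmul hR hπΛ hint' hπy'
  obtain ⟨w, hw⟩ := hπy'
  -- products with radical generators are in the radical
  have hprodRad : ∀ a, ∀ v : Fin n → k[X], comb x u v = y' * rr a → Rad v := by
    intro a v hv j
    obtain ⟨N, hN, z, hz, hzN⟩ := hrnil a
    have hM : ∃ z' ∈ Λ, (y' * rr a) ^ (N * (d + 1)) = π * z' := by
      refine ⟨(π ^ d * y' ^ (N * (d + 1))) * z ^ (d + 1), hmul _ (hd _) _ (hpow _ hz _), ?_⟩
      rw [mul_pow, pow_mul (rr a), hzN, mul_pow]
      ring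
    obtain ⟨z', hz'Λ, hz'⟩ := hM
    exact chi_eq_zero_of_pow_mem D hT h1 hinj hz'Λ ((congrArg (· ^ _) hv).trans hz') j
  -- so `π y'` multiplies the radical into `π` times itself
  have hprod : ∀ v, Rad v → ∃ v' : Fin n → k[X], Rad v' ∧ comb x u v' = y' * comb x u v := by
    intro v hv
    obtain ⟨a, z, ⟨zv, rfl⟩, hvz⟩ := hdec v hv
    choose pa hpa using fun i => (hall i (Finset.mem_univ i) : y' * rr i ∈ Λ)
    refine ⟨(∑ i, a i • pa i) + tableMul T w zv, ?_, ?_⟩
    · intro j
      have hwRad : D.χ j (ev w) = 0 :=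
        chi_eq_zero_of_pow_mem D hT h1 hinj (hd (d + 1)) (M := d + 1)
          (by rw [hw, mul_pow, pow_succ' π, mul_assoc]) j
      have hlin : ev ((∑ i, a i • pa i) + tableMul T w zv)
          = (∑ i, a i • ev (pa i)) + ev (tableMul T w zv) := by
        funext l
        simp [ev, eval_finsetSum]
      rw [hlin, map_add, map_sum, hev, D.χ_tableMul, hwRad, zero_mul, add_zero]
      refine Finset.sum_eq_zero fun i _ => ?_
      rw [map_smul, hprodRad i _ (hpa i), smul_zero]
    · rw [map_add, map_sum, ← comb_mul_comb hT, hw, hvz, mul_add, Finset.mul_sum]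
      congr 1
      · exact Finset.sum_congr rfl fun i _ => by
          rw [map_smul, hpa i, Algebra.smul_def]
          ring
      · ring
  -- `π y'` itself is in the radical
  have hwRad : Rad w := by
    obtain ⟨v', hv', hv''⟩ := hprod (fun i => (X - C c) * (Pi.single i0 1 : Fin n → k[X]) i) (by
      intro j
      rw [show ev (fun i => (X - C c) * (Pi.single i0 1 : Fin n → k[X]) i) = 0 by
        funext l; simp [ev], map_zero])
    rw [← aeval_mul_comb, comb_single, h1, ← hπp, map_one, mul_one, mul_one, mul_comm, ← hw] at hv''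
    exact hinj hv'' ▸ hv'
  obtain ⟨a, z, ⟨zv, rfl⟩, hwz⟩ := hdec w hwRad
  have ha0 : a = 0 := rad_coeff_eq_zero D hT hinj hprod hw hwz
  refine hy' ⟨zv, ?_⟩
  have h2 : π * y' = π * comb x u zv := by
    rw [← hw, hwz, ha0]
    simp
  exact (sub_eq_zero.mp (hπ _ (by rw [mul_sub, h2, sub_self]))).symm

end Fermat.Agent.CurveTorsion
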