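import Fermat.Agent.CurveTorsion.Bivar
import Fermat.Agent.RedTorsion.TraceVal

/-!
# Places of a plane model at points with nonvanishing partial derivative

The place is `ptPlace`, with orders read off from series (`IsPlane.mem_ordGe_iff`).
-/

set_option autoImplicit false

noncomputable section

open scoped Classical

open Polynomial AlgebraicCurve IntermediateField
open scoped Polynomial.Bivariate

namespace Fermat.Agent.CurveTorsion

open FF

/-! ### Values in valuation rings -/

section Val

variable {L F : Type*} [Field L] [Field F] [Algebra L F]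

/-- The powers of the maximal ideal of a place. -/
def valI (v : Place L F) (j : ℕ) : Ideal v.toValuationSubring where
  carrier := {o | (o : F) ∈ ordGe v j}
  zero_mem' := by simp
  add_mem' {a b} ha hb := by simpa using add_mem ha hb
  smul_mem' c a ha := by
    simpa using mul_mem_ordGe v ((mem_ordGe_zero v).mpr c.2) ha

/-- Substitution commutes with the inclusion of a valuation ring. -/
theorem coe_evalB (v : Place L F) (x θ : v.toValuationSubring) (g : L[X][Y]) :
    ((evalB x θ g : v.toValuationSubring) : F) = evalB (x : F) (θ : F) g :=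
  algHom_evalB (IsScalarTower.toAlgHom L v.toValuationSubring F) x θ g

/-- Congruent arguments at a place give congruent values of a polynomial. -/
theorem evalB_sub_mem_ordGe (v : Place L F) {x θ x' θ' : F} (hx : x ∈ v.toValuationSubring)
    (hθ : θ ∈ v.toValuationSubring) {j : ℕ} (h1 : x - x' ∈ ordGe v j) (h2 : θ - θ' ∈ ordGe v j)
    (g : L[X][Y]) : evalB x θ g - evalB x' θ' g ∈ ordGe v j := by
  have hx' : x' ∈ v.toValuationSubring := by
    have := sub_mem ((mem_ordGe_zero v).mpr hx) (ordGe_anti v (Int.natCast_nonneg j) h1)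
    rwa [sub_sub_cancel, mem_ordGe_zero] at this
  have hθ' : θ' ∈ v.toValuationSubring := by
    have := sub_mem ((mem_ordGe_zero v).mpr hθ) (ordGe_anti v (Int.natCast_nonneg j) h2)
    rwa [sub_sub_cancel, mem_ordGe_zero] at this
  rw [← coe_evalB v ⟨x, hx⟩ ⟨θ, hθ⟩, ← coe_evalB v ⟨x', hx'⟩ ⟨θ', hθ'⟩]
  exact evalB_sub_mem (I := valI v j) (x := ⟨x, hx⟩) (x' := ⟨x', hx'⟩) (θ := ⟨θ, hθ⟩)
    (θ' := ⟨θ', hθ'⟩) h1 h2 g

/-- A function with a value at a place is integral there. -/
theorem mem_of_sub_mem (v : Place L F) {x : F} {t : L} {j : ℕ}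
    (h : x - algebraMap L F t ∈ ordGe v j) : x ∈ v.toValuationSubring := by
  have := add_mem (ordGe_anti v (Int.natCast_nonneg j) h)
    ((mem_ordGe_zero v).mpr (v.algebraMap_mem' t))
  rwa [sub_add_cancel, mem_ordGe_zero] at this

/-- The leading term of a polynomial in a uniformiser. -/
theorem aeval_mem_ordGe_iff (v : Place L F) {u : F} (hu : v.ord u = 1) (p : L[X]) (j : ℕ) :
    aeval u p ∈ ordGe v j ↔ X ^ j ∣ p := by
  have hu1 : u ∈ v.toValuationSubring := (mem_iff v).mpr (Or.inr (by omega))
  have hu0 : u ∈ ordGe v 1 := mem_ordGe_of_le v hu.ge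
  have hpow : ∀ m : ℕ, u ^ m ∈ ordGe v m := fun m => by simpa using pow_mem_ordGe v hu0 m
  refine ⟨fun h => ?_, ?_⟩
  · induction j with
    | zero => simp
    | succ j ih =>
      obtain ⟨q, rfl⟩ := ih (ordGe_anti v (by omega) h)
      rw [pow_succ]
      refine mul_dvd_mul_left _ (X_dvd_iff.mpr ?_)
      have hne : u ^ j ≠ 0 := pow_ne_zero _ fun h => by simp [h] at hu
      have hq : aeval u q ∈ ordGe v 1 := by
        rcases eq_or_ne (aeval u q) 0 with h0 | h0
        · rw [h0]; exact zero_mem _
        have := le_ord_of_mem_ordGe v (mul_ne_zero hne h0) (by simpa using h)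
        rw [v.ord_mul hne h0, ord_pow, hu] at this
        exact mem_ordGe_of_le v (by omega)
      have h2 := sub_mem hq (evalB_sub_mem_ordGe v (x := u) (θ := u) (x' := 0) (θ' := 0) hu1 hu1
        (j := 1) (by simpa using hu0) (by simpa using hu0) (C q))
      rw [evalB_C, evalB_C, sub_sub_cancel] at h2
      have h3 : aeval (0 : F) q = algebraMap L F (q.coeff 0) := (coeff_zero_eq_aeval_zero' q).symm
      rw [h3] at h2
      exact (RedTorsion.algebraMap_mem_ordGe_one_iff v).mp h2
  · rintro ⟨q, rfl⟩
    rw [map_mul, map_pow, aeval_X]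
    simpa using mul_mem_ordGe v (hpow j)
      ((mem_ordGe_zero v).mpr (aeval_mem_valuationSubring v hu1 q))

end Val

theorem evalB_self {L : Type*} [CommRing L] (t y : L) (g : L[X][Y]) :
    evalB t y g = (g.map (evalRingHom t)).eval y := by
  rw [evalB_eq_eval]
  congr 2

/-! ### Plane models and their places -/

section Model

variable {L F : Type*} [Field L] [Field F] [Algebra L F] [IsFunctionField L F]

/-- A plane model of a function field. -/
structure IsPlane (x θ : F) (h : L[X][Y]) : Prop where
  trans : Transcendental L x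
  root : evalB x θ h = 0
  monic : h.Monic
  deg : h.natDegree = Module.finrank L⟮x⟯ F
  gen : IntermediateField.adjoin L {x, θ} = ⊤

variable {x θ : F} {h : L[X][Y]}

/-- The kernel of evaluation at the generic point of a plane model is generated by its equation. -/
theorem IsPlane.evalB_eq_zero_iff (H : IsPlane x θ h) (g : L[X][Y]) :
    evalB x θ g = 0 ↔ h ∣ g := by
  refine ⟨fun hg => ?_, fun ⟨q, hq⟩ => by rw [hq, map_mul, H.root, zero_mul]⟩
  have := finiteDimensional_adjoin (K := L) H.trans
  let φ : L[X] →+* L⟮x⟯ :=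
    (aeval (⟨x, mem_adjoin_simple_self L x⟩ : L⟮x⟯)).toRingHom
  have hφ : ∀ p, (φ p : F) = aeval x p := fun p =>
    (aeval_algHom_apply (L⟮x⟯).val (⟨x, mem_adjoin_simple_self L x⟩ : L⟮x⟯) p).symm
  have hφi : Function.Injective φ := (injective_iff_map_eq_zero φ).mpr fun p hp =>
    transcendental_iff.mp H.trans p (by rw [← hφ, hp]; rfl)
  have hev : ∀ r : L[X][Y], aeval θ (r.map φ) = evalB x θ r := fun r => by
    rw [evalB_eq_eval, aeval_def, eval₂_eq_eval_map, Polynomial.map_map]
    congr 2
    exact RingHom.ext hφ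
  rw [← modByMonic_eq_zero_iff_dvd H.monic]
  set r := g %ₘ h
  have hr : evalB x θ r = 0 := by
    have h1 := congrArg (evalB x θ) (modByMonic_add_div g h)
    rw [map_add, map_mul, H.root, zero_mul, add_zero, hg] at h1
    exact h1
  by_contra hr0
  have h1 : aeval θ (r.map φ) = 0 := by rw [hev, hr]
  have h2 : (minpoly L⟮x⟯ θ).natDegree ≤ (r.map φ).natDegree :=
    natDegree_le_natDegree (minpoly.degree_le_of_ne_zero _ _
      (fun h0 => hr0 ((Polynomial.map_eq_zero_iff hφi).mp h0)) h1)
  have h3 : (minpoly L⟮x⟯ θ).natDegree = Module.finrank L⟮x⟯ F := by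
    have htop : L⟮x⟯⟮θ⟯ = ⊤ := IntermediateField.restrictScalars_injective L (by
      rw [adjoin_simple_adjoin_simple, restrictScalars_top, H.gen])
    rw [← adjoin.finrank (Algebra.IsIntegral.isIntegral θ), htop, finrank_top']
  have h4 : r.natDegree < h.natDegree := natDegree_modByMonic_lt g H.monic fun h1 => by
    have := H.deg
    have hpos := Module.finrank_pos (R := L⟮x⟯) (M := F)
    rw [h1, natDegree_one] at this
    omega
  have h5 := Polynomial.natDegree_map_le (p := r) (f := φ)
  have := H.deg
  omega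

/-- Every point of a plane model is centred at some place. -/
theorem IsPlane.exists_place (H : IsPlane x θ h) {t y : L} (hy : evalB t y h = 0) :
    ∃ v : Place L F, x - algebraMap L F t ∈ ordGe v 1 ∧ θ - algebraMap L F y ∈ ordGe v 1 := by
  let φ : L[X][Y] →ₐ[L] F :=
    { evalB x θ with
      commutes' := fun a => by
        show evalB x θ (C (C a)) = _
        rw [evalB_C, aeval_C] }
  let J : Ideal L[X][Y] := RingHom.ker (evalB t y)
  have hx0 : (C (X - C t) : L[X][Y]) ∈ J := by simp [J, RingHom.mem_ker, evalB_C]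
  have hθ0 : (Y - C (C y) : L[X][Y]) ∈ J := by
    simp [J, RingHom.mem_ker, evalB_C, evalB_Y]
  let ψ : L[X][Y] →+* φ.range := φ.rangeRestrict.toRingHom
  have hψ : Function.Surjective ψ := φ.rangeRestrict_surjective
  let I : Ideal φ.range := J.map ψ
  have hI : I ≠ ⊤ := fun htop => by
    obtain ⟨r, hr, hr1⟩ := (Ideal.mem_map_iff_of_surjective ψ hψ).mp
      ((Ideal.eq_top_iff_one I).mp htop)
    obtain ⟨q, hq⟩ := (H.evalB_eq_zero_iff (r - 1)).mp (by
      rw [map_sub, map_one, sub_eq_zero]
      exact congrArg Subtype.val hr1)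
    have h2 := congrArg (evalB t y) hq
    rw [map_sub, map_one, RingHom.mem_ker.mp hr, map_mul, hy, zero_mul] at h2
    simp at h2
  have hxt : ψ (C (X - C t)) ≠ 0 := fun h0 => by
    have h1 : evalB x θ (C (X - C t)) = 0 := congrArg Subtype.val h0
    rw [evalB_C] at h1
    exact X_sub_C_ne_zero t (transcendental_iff.mp H.trans _ h1)
  obtain ⟨v, -, hv⟩ := exists_place_of_ideal φ.range I hI fun hbot =>
    hxt (by simpa [hbot] using show ψ (C (X - C t)) ∈ I from Ideal.mem_map_of_mem ψ hx0)
  refine ⟨v, ?_, ?_⟩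
  · have h1 := hv _ (Ideal.mem_map_of_mem ψ hx0)
    change evalB x θ (C (X - C t)) ∈ ordGe v 1 at h1
    rwa [evalB_C, map_sub, aeval_X, aeval_C] at h1
  · have h1 := hv _ (Ideal.mem_map_of_mem ψ hθ0)
    change evalB x θ (Y - C (C y)) ∈ ordGe v 1 at h1
    rwa [map_sub, evalB_Y, evalB_C, aeval_C] at h1

/-- The place at a point. -/
def ptPlace (x θ : F) (t y : L) : Place L F :=
  haveI := FF.exists_place (K := L) (F := F)
  Classical.epsilon fun v =>
    x - algebraMap L F t ∈ ordGe v 1 ∧ θ - algebraMap L F y ∈ ordGe v 1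

/-- The chosen place at a point is centred at it. -/
theorem IsPlane.ptPlace_spec (H : IsPlane x θ h) {t y : L} (hy : evalB t y h = 0) :
    x - algebraMap L F t ∈ ordGe (ptPlace x θ t y) 1 ∧
      θ - algebraMap L F y ∈ ordGe (ptPlace x θ t y) 1 :=
  Classical.epsilon_spec (H.exists_place hy)

theorem IsPlane.ptPlace_inj (H : IsPlane x θ h) {t y t' y' : L} (hy : evalB t y h = 0)
    (hy' : evalB t' y' h = 0) (he : ptPlace x θ t y = ptPlace x θ t' y') : t = t' ∧ y = y' := by
  obtain ⟨h1, h2⟩ := H.ptPlace_spec hy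
  obtain ⟨h3, h4⟩ := H.ptPlace_spec hy'
  rw [← he] at h3 h4
  refine ⟨?_, ?_⟩
  · have h5 := sub_mem h3 h1
    rw [sub_sub_sub_cancel_left, ← map_sub, RedTorsion.algebraMap_mem_ordGe_one_iff,
      sub_eq_zero] at h5
    exact h5
  · have h5 := sub_mem h4 h2
    rw [sub_sub_sub_cancel_left, ← map_sub, RedTorsion.algebraMap_mem_ordGe_one_iff,
      sub_eq_zero] at h5
    exact h5

variable [IsAlgClosed L]

/-- Over a point with separable fibre polynomial there are only simple zeros. -/
theorem IsPlane.fibre (H : IsPlane x θ h) {t : L} (hsep : (h.map (evalRingHom t)).Separable)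
    {v : Place L F} (hv : 0 < v.ord (x - algebraMap L F t)) :
    ∃ y, evalB t y h = 0 ∧ v = ptPlace x θ t y ∧ v.ord (x - algebraMap L F t) = 1 := by
  set ht := h.map (evalRingHom t)
  set u := x - algebraMap L F t
  have hut : Transcendental L u := transcendental_of_ord_pos v hv
  have hfr : Module.finrank L⟮u⟯ F = Module.finrank L⟮x⟯ F := by rw [FF.adjoin_sub_algebraMap]
  have hu0 : u ≠ 0 := fun h0 => by simp [h0] at hv
  set R := ht.roots.toFinset
  have hR : ∀ y, y ∈ R ↔ evalB t y h = 0 := fun y => by
    simp [R, evalB_self, ht, (H.monic.map (evalRingHom t)).ne_zero]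
  have hcard : R.card = Module.finrank L⟮x⟯ F := by
    rw [Multiset.toFinset_card_of_nodup (nodup_roots hsep),
      ← (IsAlgClosed.splits ht).natDegree_eq_card_roots, H.monic.natDegree_map, H.deg]
  set S := R.image (ptPlace x θ t)
  -- The roots of the fibre polynomial give as many distinct places, each a zero of `x - t`.
  have hScard : S.card = R.card := Finset.card_image_of_injOn fun a ha b hb hab =>
    (H.ptPlace_inj ((hR a).mp ha) ((hR b).mp hb) hab).2
  have hge : ∀ w ∈ S, 1 ≤ w.ord u := by
    intro w hw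
    obtain ⟨y, hy, rfl⟩ := Finset.mem_image.mp hw
    exact le_ord_of_mem_ordGe _ hu0 (H.ptPlace_spec ((hR y).mp hy)).1
  have key : ∀ T : Finset (Place L F), (∀ w ∈ T, 0 < w.ord u) →
      ∑ w ∈ T, (w.ord u).toNat ≤ Module.finrank L⟮x⟯ F := fun T hT => by
    have := sum_ord_mul_deg_le hut T hT
    rw [hfr] at this
    simpa [deg_eq_one] using this
  -- The zeros number at most the degree, so these are all of them and each is simple.
  have hvS : v ∈ S := by
    by_contra hvS
    have h1 := key (insert v S) fun w hw => by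
      rcases Finset.mem_insert.mp hw with rfl | hw
      · exact hv
      · have := hge w hw; omega
    rw [Finset.sum_insert hvS] at h1
    have h2 : S.card ≤ ∑ w ∈ S, (w.ord u).toNat := by
      rw [Finset.card_eq_sum_ones]
      exact Finset.sum_le_sum fun w hw => by have := hge w hw; omega
    omega
  obtain ⟨y, hy, rfl⟩ := Finset.mem_image.mp hvS
  refine ⟨y, (hR y).mp hy, rfl, ?_⟩
  have h1 := key S fun w hw => by have := hge w hw; omega
  rw [← Finset.add_sum_erase S _ hvS] at h1
  have h2 : (S.erase (ptPlace x θ t y)).card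
      ≤ ∑ w ∈ S.erase (ptPlace x θ t y), (w.ord u).toNat := by
    rw [Finset.card_eq_sum_ones]
    exact Finset.sum_le_sum fun w hw => by
      have := hge w (Finset.mem_of_mem_erase hw); omega
  rw [Finset.card_erase_of_mem hvS] at h2
  omega

theorem IsPlane.ord_ptPlace (H : IsPlane x θ h) {t y : L}
    (hsep : (h.map (evalRingHom t)).Separable) (hy : evalB t y h = 0) :
    (ptPlace x θ t y).ord (x - algebraMap L F t) = 1 := by
  have hne : x - algebraMap L F t ≠ 0 := fun h0 => H.trans (by
    rw [sub_eq_zero.mp h0]; exact isAlgebraic_algebraMap t)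
  have hpos : 0 < (ptPlace x θ t y).ord (x - algebraMap L F t) := by
    have := le_ord_of_mem_ordGe _ hne (H.ptPlace_spec hy).1
    omega
  obtain ⟨_, -, -, h1⟩ := H.fibre hsep hpos
  exact h1

omit [IsFunctionField L F] [IsAlgClosed L] in
/-- At a simple root the derivative does not vanish. -/
theorem evalB_derivative_ne_zero {h : L[X][Y]} {t y : L}
    (hsep : (h.map (evalRingHom t)).Separable) (hy : evalB t y h = 0) :
    evalB t y (derivative h) ≠ 0 := by
  rw [evalB_self, ← derivative_map]
  rw [evalB_self] at hy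
  exact hsep.eval₂_derivative_ne_zero (RingHom.id L) hy

/-- The order at a point is read off from the series. -/
theorem IsPlane.mem_ordGe_iff (H : IsPlane x θ h) {t : L}
    (hsep : (h.map (evalRingHom t)).Separable) {N : ℕ} {ζ : L[X]}
    (hy : evalB t (ζ.coeff 0) h = 0) (hζ : X ^ N ∣ ev t ζ h) {j : ℕ} (hj : j ≤ N) (g : L[X][Y]) :
    evalB x θ g ∈ ordGe (ptPlace x θ t (ζ.coeff 0)) j ↔ X ^ j ∣ ev t ζ g := by
  obtain ⟨hx1, hθ1⟩ := H.ptPlace_spec hy
  set v := ptPlace x θ t (ζ.coeff 0)
  set y := ζ.coeff 0
  set u := x - algebraMap L F t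
  have hu : v.ord u = 1 := H.ord_ptPlace hsep hy
  have hxv : x ∈ v.toValuationSubring := mem_of_sub_mem v (j := 1) hx1
  have hθv : θ ∈ v.toValuationSubring := mem_of_sub_mem v (j := 1) hθ1
  have huv : u ∈ v.toValuationSubring := (mem_iff v).mpr (Or.inr (by omega))
  -- Compare `θ` with the approximation `θN` given by the series.
  let θN := aeval u ζ
  have hθN : θN ∈ v.toValuationSubring := aeval_mem_valuationSubring v huv ζ
  have hev : ∀ g : L[X][Y], evalB x θN g = aeval u (ev t ζ g) := fun g => by
    rw [ev, algHom_evalB, map_add, aeval_X, aeval_C]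
    simp [u, θN]
  have h0 : θN - algebraMap L F y ∈ ordGe v 1 := by
    have h2 : θN - algebraMap L F y = aeval u (ζ - C y) := by simp [θN]
    rw [h2]
    exact (aeval_mem_ordGe_iff v hu _ 1).mpr (by simp [X_dvd_iff, y])
  have hd1 : θ - θN ∈ ordGe v 1 := by simpa using sub_mem hθ1 h0
  set d := θ - θN
  have hdv : d ∈ v.toValuationSubring :=
    (mem_ordGe_zero v).mp (ordGe_anti v (by norm_num) hd1)
  -- By Taylor expansion `h(x, θN) + w d = 0`, where `d` is their difference and `w` is a unit.
  obtain ⟨c, hc⟩ := evalB_add_sq (⟨x, hxv⟩ : v.toValuationSubring) ⟨θN, hθN⟩ ⟨d, hdv⟩ h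
  have hc' : evalB x θ h
      = evalB x θN h + evalB x θN (derivative h) * d + (c : F) * d ^ 2 := by
    have := congrArg (fun o : v.toValuationSubring => (o : F)) hc
    simpa [coe_evalB, d] using this
  have hdN : d ∈ ordGe v N := by
    rcases eq_or_ne d 0 with h00 | hd0
    · rw [h00]; exact zero_mem _
    set w := evalB x θN (derivative h) + (c : F) * d
    have hw : w ∉ ordGe v 1 := fun hw => by
      have h2 := evalB_sub_mem_ordGe v hxv hθN (j := 1)
        (x' := algebraMap L F t) (θ' := algebraMap L F y) (by simpa using hx1)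
        (by simpa using h0) (derivative h)
      have h3 : (c : F) * d ∈ ordGe v 1 := by
        simpa using mul_mem_ordGe v ((mem_ordGe_zero v).mpr c.2) hd1
      have h4 := sub_mem (sub_mem hw h3) h2
      have h5 : evalB (algebraMap L F t) (algebraMap L F y) (derivative h)
          = algebraMap L F (evalB t y (derivative h)) :=
        (algHom_evalB (Algebra.ofId L F) t y _).symm
      rw [add_sub_cancel_right, sub_sub_cancel, h5, RedTorsion.algebraMap_mem_ordGe_one_iff] at h4
      exact evalB_derivative_ne_zero hsep hy h4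
    have hw0 : w ≠ 0 := fun h00 => hw (by simp [h00])
    have hord : v.ord w ≤ 0 := by
      by_contra hlt
      exact hw (mem_ordGe_of_le v (by omega))
    have h6 : w * d ∈ ordGe v N := by
      have h7 : w * d = -evalB x θN h := by
        rw [H.root] at hc'
        simp only [w]
        linear_combination -hc'
      rw [h7, hev]
      exact neg_mem ((aeval_mem_ordGe_iff v hu _ N).mpr hζ)
    have := le_ord_of_mem_ordGe v (mul_ne_zero hw0 hd0) h6
    rw [v.ord_mul hw0 hd0] at this
    exact mem_ordGe_of_le v (by omega)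
  -- So they agree to order `N`, and the order of `g` is read off from the series.
  have h8 : evalB x θ g - evalB x θN g ∈ ordGe v j :=
    ordGe_anti v (by exact_mod_cast hj)
      (evalB_sub_mem_ordGe v hxv hθv (j := N) (by simp) hdN g)
  rw [← aeval_mem_ordGe_iff v hu, ← hev]
  exact ⟨fun h9 => by simpa using sub_mem h9 h8, fun h9 => by simpa using add_mem h8 h9⟩

end Model

end Fermat.Agent.CurveTorsion
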