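import Fermat.Agent.CurveTorsion.Order
import Mathlib.Algebra.Polynomial.Reverse

/-!
# Integral closedness in both charts of the projective line
-/

set_option autoImplicit false

noncomputable section

open Polynomial

namespace Fermat.Agent.CurveTorsion

variable {k : Type*} [Field k] {E : Type*} [CommRing E] [Algebra k E] {n : ℕ}

/-- The table of the chart at infinity. -/
def tableInf {R : Type*} [CommRing R] {n : ℕ} (m : Fin n → ℕ)
    (T : Fin n → Fin n → Fin n → R[X]) : Fin n → Fin n → Fin n → R[X] :=
  fun a b c => reflect (m a + m b - m c) (T a b c)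

theorem aeval_reflect {x x' : E} (hxx : x * x' = 1) {N : ℕ} {p : k[X]} (hp : p.natDegree ≤ N) :
    aeval x' (reflect N p) = x' ^ N * aeval x p := by
  let _ : Invertible x := ⟨x', by rw [mul_comm]; exact hxx, hxx⟩
  have h : aeval x' (reflect N p) * x ^ N = aeval x p := by
    have h0 := eval₂_reflect_mul_pow (algebraMap k E) x N p hp
    rw [show ⅟x = x' from rfl] at h0
    exact h0
  rw [← h, mul_comm (aeval x' _), ← mul_assoc, ← mul_pow, mul_comm x' x, hxx, one_pow, one_mul]

theorem natDegree_reflect_le {R : Type*} [CommRing R] {N : ℕ} {p : R[X]} (hp : p.natDegree ≤ N) :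
    (reflect N p).natDegree ≤ N := by
  refine natDegree_le_iff_coeff_eq_zero.mpr fun i hi => ?_
  rw [coeff_reflect, revAt_eq_self_of_lt hi]
  exact coeff_eq_zero_of_natDegree_lt (lt_of_le_of_lt hp hi)

variable {x x' : E} {u : Fin n → E} {T : Fin n → Fin n → Fin n → k[X]} {i0 : Fin n}

/-- Integral elements lie in the order, given fibre data everywhere. -/
theorem mem_range_comb_of_integral (hD : ∀ c : k, Nonempty (FibreData T i0 c))
    (hT : ∀ a b, u a * u b = comb x u (T a b)) (h1 : u i0 = 1)
    (hunit : ∀ q : k[X], q ≠ 0 → IsUnit (aeval x q)) [IsAlgClosed k]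
    (hinj : Function.Injective (comb x u : (Fin n → k[X]) →ₗ[k] E))
    (hden : ∀ y : E, ∃ q : k[X], q ≠ 0 ∧ aeval x q * y ∈ LinearMap.range (comb (k := k) x u))
    {y : E} (hy : IsIntegral (Algebra.adjoin k {x}) y) :
    y ∈ LinearMap.range (comb (k := k) x u) := by
  obtain ⟨q, hq, hqy⟩ := hden y
  induction hd : q.natDegree using Nat.strong_induction_on generalizing q y with
  | _ d ih =>
    rcases Nat.eq_zero_or_pos d with rfl | hpos
    · obtain ⟨a, rfl⟩ := natDegree_eq_zero.mp hd
      have ha : a ≠ 0 := fun h => hq (by rw [h, map_zero])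
      obtain ⟨v, hv⟩ := hqy
      refine ⟨a⁻¹ • v, ?_⟩
      rw [map_smul, hv, aeval_C, ← Algebra.smul_def, smul_smul, inv_mul_cancel₀ ha, one_smul]
    obtain ⟨c, hc⟩ := IsAlgClosed.exists_root q fun h => by
      have := natDegree_eq_zero_iff_degree_le_zero.mpr h.le
      omega
    obtain ⟨r, rfl⟩ := dvd_iff_isRoot.mpr hc
    have hr : r ≠ 0 := fun h => hq (by rw [h, mul_zero])
    have hdr : r.natDegree < d := by
      rw [← hd, natDegree_mul (X_sub_C_ne_zero c) hr, natDegree_X_sub_C]
      omega
    have hπ : aeval x (X - C c) = x - algebraMap k E c := by simp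
    have hu : IsUnit (x - algebraMap k E c) := hπ ▸ hunit _ (X_sub_C_ne_zero c)
    have hint : IsIntegral (Algebra.adjoin k {x}) (aeval x r * y) :=
      (isIntegral_algebraMap (R := Algebra.adjoin k {x}) (A := E)
        (x := ⟨aeval x r, Polynomial.aeval_mem_adjoin_singleton _ _⟩)).mul hy
    obtain ⟨D⟩ := hD c
    have h2 := mem_range_comb_of_fibreData D hT h1
      (fun z hz => hu.mul_right_eq_zero.mp hz) hinj hint
      (by rwa [← mul_assoc, ← hπ, ← map_mul])
    exact ih _ hdr hy r hr h2 rfl

theorem pow_mul_comb_inv {m : Fin n → ℕ} (hxx : x * x' = 1) (v : Fin n → k[X]) {M : ℕ}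
    (hM : ∀ i, (v i).natDegree + m i ≤ M) :
    x ^ M * comb x' (fun i => x' ^ m i * u i) v
      = comb x u (fun i => reflect (M - m i) (v i)) := by
  rw [comb_apply, comb_apply, Finset.mul_sum]
  refine Finset.sum_congr rfl fun i _ => ?_
  have h := hM i
  have hxx' : x' * x = 1 := by rw [mul_comm]; exact hxx
  rw [aeval_reflect hxx' (show (v i).natDegree ≤ M - m i by omega), ← mul_assoc, ← mul_assoc]
  congr 1
  rw [show M = (M - m i) + m i by omega, pow_add]
  rw [show M - m i + m i - m i = M - m i by omega]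
  calc x ^ (M - m i) * x ^ m i * aeval x' (v i) * x' ^ m i
      = x ^ (M - m i) * aeval x' (v i) * (x * x') ^ m i := by ring
    _ = x ^ (M - m i) * aeval x' (v i) := by rw [hxx, one_pow, mul_one]

theorem comb_inv_injective {m : Fin n → ℕ} (hxx : x * x' = 1)
    (hinj : Function.Injective (comb x u : (Fin n → k[X]) →ₗ[k] E)) :
    Function.Injective (comb x' (fun i => x' ^ m i * u i) : (Fin n → k[X]) →ₗ[k] E) := by
  rw [injective_iff_map_eq_zero]
  intro v hv
  set M := Finset.univ.sup fun i => (v i).natDegree + m i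
  have hM : ∀ i, (v i).natDegree + m i ≤ M := fun i =>
    Finset.le_sup (f := fun i => (v i).natDegree + m i) (Finset.mem_univ i)
  have h := pow_mul_comb_inv (u := u) hxx v hM
  rw [hv, mul_zero] at h
  funext i
  have h2 := congrFun (hinj (h.symm.trans (map_zero _).symm)) i
  rwa [Pi.zero_apply, reflect_eq_zero_iff] at h2

/-- The multiplication table of the basis in the chart at infinity. -/
theorem table_inf {m : Fin n → ℕ} (hxx : x * x' = 1) (hT : ∀ a b, u a * u b = comb x u (T a b))
    (hdeg : ∀ a b c, T a b c ≠ 0 → (T a b c).natDegree + m c ≤ m a + m b) (a b : Fin n) :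
    (x' ^ m a * u a) * (x' ^ m b * u b)
      = comb x' (fun i => x' ^ m i * u i) (tableInf m T a b) := by
  rw [mul_mul_mul_comm, hT, comb_apply, comb_apply, Finset.mul_sum, ← pow_add]
  refine Finset.sum_congr rfl fun c _ => ?_
  rcases eq_or_ne (T a b c) 0 with h0 | h0
  · simp [tableInf, h0]
  have h := hdeg a b c h0
  rw [tableInf, aeval_reflect hxx (show (T a b c).natDegree ≤ m a + m b - m c by omega)]
  conv_lhs => rw [show m a + m b = (m a + m b - m c) + m c by omega, pow_add]
  ring

/-- Elements integral in both charts have bounded degree. -/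
theorem exists_comb_of_integral_both {m : Fin n → ℕ} [IsAlgClosed k] (hxx : x * x' = 1)
    (hD : ∀ c : k, Nonempty (FibreData T i0 c))
    (hD' : Nonempty (FibreData (tableInf m T) i0 (0 : k)))
    (hT : ∀ a b, u a * u b = comb x u (T a b)) (h1 : u i0 = 1) (hm0 : m i0 = 0)
    (hdeg : ∀ a b c, T a b c ≠ 0 → (T a b c).natDegree + m c ≤ m a + m b)
    (hunit : ∀ q : k[X], q ≠ 0 → IsUnit (aeval x q))
    (hinj : Function.Injective (comb x u : (Fin n → k[X]) →ₗ[k] E))
    (hden : ∀ y : E, ∃ q : k[X], q ≠ 0 ∧ aeval x q * y ∈ LinearMap.range (comb (k := k) x u))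
    {y : E} {N : ℕ} (hy : IsIntegral (Algebra.adjoin k {x}) y)
    (hy' : IsIntegral (Algebra.adjoin k {x'}) (x' ^ N * y)) :
    ∃ P : Fin n → k[X], y = comb x u P ∧ ∀ i, P i ≠ 0 → (P i).natDegree + m i ≤ N := by
  -- Expand `y` in the finite chart.
  obtain ⟨P, hP⟩ := mem_range_comb_of_integral hD hT h1 hunit hinj hden hy
  obtain ⟨D'⟩ := hD'
  have hu' : IsUnit x' := IsUnit.of_mul_eq_one x (by rw [mul_comm]; exact hxx)
  -- In the infinite chart the expansion descends one power of `x'` at a time.
  have hdesc : ∀ j, ∀ z : E, IsIntegral (Algebra.adjoin k {x'}) z →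
      x' ^ j * z ∈ LinearMap.range (comb (k := k) x' (fun i => x' ^ m i * u i)) →
      z ∈ LinearMap.range (comb (k := k) x' (fun i => x' ^ m i * u i)) := by
    intro j
    induction j with
    | zero => intro z _ hz; simpa using hz
    | succ j ih =>
      intro z hz hmem
      refine ih z hz ?_
      refine mem_range_comb_of_fibreData D' (table_inf hxx hT hdeg) (by simp [hm0, h1])
        (fun w hw => ?_) (comb_inv_injective hxx hinj) ?_ ?_
      · rw [map_zero, sub_zero] at hw
        exact hu'.mul_right_eq_zero.mp hw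
      · exact ((isIntegral_algebraMap (R := Algebra.adjoin k {x'}) (A := E)
          (x := ⟨x', Algebra.self_mem_adjoin_singleton k x'⟩)).pow j).mul hz
      · rwa [map_zero, sub_zero, ← mul_assoc, ← pow_succ']
  set J := Finset.univ.sup fun i => (P i).natDegree + m i
  obtain ⟨P', hP'⟩ := hdesc J _ hy' ⟨fun i => X ^ N * reflect (J - m i) (P i), by
    have hJ : ∀ i, (P i).natDegree + m i ≤ J := fun i =>
      Finset.le_sup (f := fun i => (P i).natDegree + m i) (Finset.mem_univ i)
    rw [comb_apply, ← hP, comb_apply, Finset.mul_sum, Finset.mul_sum]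
    refine Finset.sum_congr rfl fun i _ => ?_
    have h := hJ i
    rw [map_mul, map_pow, aeval_X,
      aeval_reflect hxx (show (P i).natDegree ≤ J - m i by omega)]
    conv_rhs => rw [show J = (J - m i) + m i by omega, pow_add]
    ring⟩
  -- Comparing the two expansions bounds the degrees.
  set M := max N (Finset.univ.sup fun i => (P' i).natDegree + m i)
  have hM : ∀ i, (P' i).natDegree + m i ≤ M := fun i => le_max_of_le_right
    (Finset.le_sup (f := fun i => (P' i).natDegree + m i) (Finset.mem_univ i))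
  have e := pow_mul_comb_inv (u := u) hxx P' hM
  have hNM : N ≤ M := le_max_left _ _
  have h4 : comb x u (fun i => X ^ (M - N) * P i) = x ^ M * (x' ^ N * y) := by
    rw [← aeval_mul_comb, map_pow, aeval_X, hP]
    conv_rhs => rw [show M = (M - N) + N by omega, pow_add]
    calc x ^ (M - N) * y = x ^ (M - N) * (x * x') ^ N * y := by rw [hxx, one_pow, mul_one]
      _ = _ := by ring
  rw [← hP', e] at h4
  have h5 := hinj h4
  refine ⟨P, hP.symm, fun i hi => ?_⟩
  have h6 := congrFun h5 i
  have h7 : (X ^ (M - N) * P i).natDegree ≤ M - m i := by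
    rw [h6]
    exact natDegree_reflect_le (by have := hM i; omega)
  rw [natDegree_mul (pow_ne_zero _ X_ne_zero) hi, natDegree_X_pow] at h7
  have := hM i
  omega

end Fermat.Agent.CurveTorsion
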